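import Fermat.Agent.GaussTower.Residue
import Fermat.Agent.GaussKolyvagin.Component
import Fermat.Agent.IwasawaControl.Branch

/-!
# Stickelberger's element from the Gauss sums

`trOrd_base`: the transform of the orders of `κ_∅` along the orbit of a prime over `r` is a unit
times the system of the branch, modulo `p ^ k`.
-/

set_option autoImplicit false
set_option linter.unusedSectionVars false
set_option linter.style.haveILetI false

noncomputable section

open Finset NumberField IsDedekindDomain FA.ArtinRec Polynomial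
open scoped Classical

namespace FA.GaussTower

open FA.GaussKolyvagin (Setup IsAux IsKappa IsCycBase jOrd jOrd_congr jOrd_add_floor
  exists_coprime_exponent pJ pJ_ne_zero map_pJ ordJ ordJ_eq ordJ_pow dG funG isDeg1_one)
open FA.IwasawaStructure (expo)
open FA.IwasawaMinus (res res_lt coefE poly sys cOf teich)
open FA.Kolyvagin (zr zr_spec pt wt)
open LRing

variable {p : ℕ} [hp : Fact p.Prime] {m k : ℕ} {b : Brn p}
  {F : Type} [Field F] [NumberField F] [IsCyclotomicExtension {p ^ (m + 1)} ℚ F]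

namespace Lvl

variable (l : Lvl b m F)

include l in
theorem expo_mul (σ τ : F ≃ₐ[ℚ] F) :
    ((expo (p ^ (m + 1)) (σ * τ) : ℕ) : ZMod (p ^ (m + 1))) =
      (expo (p ^ (m + 1)) σ : ZMod (p ^ (m + 1))) *
        (expo (p ^ (m + 1)) τ : ZMod (p ^ (m + 1))) := by
  haveI : NeZero (p ^ (m + 1)) := ⟨pow_ne_zero _ hp.out.ne_zero⟩
  simp only [FA.IwasawaStructure.expo, map_mul, Units.val_mul, ZMod.natCast_zmod_val]

include l in
theorem exists_expo {a : ℕ} (ha : a.Coprime (p ^ (m + 1))) :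
    ∃ ρ : F ≃ₐ[ℚ] F, ((expo (p ^ (m + 1)) ρ : ℕ) : ZMod (p ^ (m + 1))) = a := by
  haveI : NeZero (p ^ (m + 1)) := ⟨pow_ne_zero _ hp.out.ne_zero⟩
  refine ⟨(IsCyclotomicExtension.Rat.galEquivZMod (p ^ (m + 1)) F).symm
    (ZMod.unitOfCoprime a ha), ?_⟩
  simp only [FA.IwasawaStructure.expo, MulEquiv.apply_symm_apply, ZMod.natCast_zmod_val,
    ZMod.coe_unitOfCoprime]

include l in
theorem expo_gen_level :
    ((expo (p ^ (m + 1)) l.γ : ℕ) : ZMod (p ^ (m + 1))) = b.g := by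
  haveI : NeZero (p ^ (m + 1)) := ⟨pow_ne_zero _ hp.out.ne_zero⟩
  rw [← pow_one l.γ, l.hexp, res, pow_one, ZMod.natCast_zmod_val]

/-- The orders of the Jacobi sums of the auxiliary prime. -/
def jOrdFun (_l : Lvl b m F) (σ : F ≃ₐ[ℚ] F) : ℤ :=
  (jOrd (p ^ (m + 1)) b.g (expo (p ^ (m + 1)) σ⁻¹) : ℤ)

/-- The sum of the powers of `ω(u) (1 + X)`. -/
theorem sum_wY_pow : ∑ j ∈ range (phiN p m), wY b m ^ j = 0 := by
  have h := geom_sum_mul (wY b m) (phiN p m)
  rw [wY_pow, sub_self] at h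
  have hu : IsUnit (wY b m - 1) := by
    refine LRing.isUnit_iff.2 (PadicInt.isUnit_iff.2 ?_)
    refine FA.IwasawaMinus.norm_eq_one_of_toZMod_ne ?_
    rw [map_sub, map_sub, aug_wY, FA.IwasawaMinus.toZMod_teich, map_one, map_one, sub_ne_zero]
    intro h1
    have := b.hu
    rw [h1, mul_one] at this
    have h2 := FA.IwasawaMinus.orderOf_gen_mod b.hg ▸ orderOf_dvd_of_pow_eq_one this
    have := Nat.le_of_dvd (by have := b.hi3; omega) h2
    have := b.hip
    omega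
  exact hu.mul_left_eq_zero.1 h

theorem cOf_eq : cOf b.hg b.u = b.g := by
  rw [cOf, if_neg (FA.IwasawaControl.branch_residue_spec b.hp5 b.hg b.hi b.hi3 b.hip b.hu).2.1]

/-- **The system through the orders.** -/
theorem cls_sys : cls p m (sys b.hg b.u m) = -2 * l.tr l.jOrdFun := by
  haveI : NeZero (p ^ (m + 1)) := ⟨pow_ne_zero _ hp.out.ne_zero⟩
  have h1 : cls p m (sys b.hg b.u m) =
      ∑ j ∈ range (phiN p m), (coefE p b.g b.g m j : LRing p m) * wY b m ^ j := by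
    rw [sys, cOf_eq, poly, Polynomial.map_sum, Polynomial.sum_comp, map_sum]
    refine Finset.sum_congr rfl fun j _ => ?_
    rw [Polynomial.map_mul, Polynomial.map_pow, map_X, map_C, mul_comp, C_comp, pow_comp, X_comp,
      map_mul, map_pow, wY, eq_intCast (Int.castRingHom ℤ_[p]),
      map_intCast (C : ℤ_[p] →+* ℤ_[p][X]), map_intCast]
  have h2 : ∀ j, (coefE p b.g b.g m j : ℤ) =
      ((b.g - 1 : ℕ) : ℤ) - 2 * l.jOrdFun (l.γ⁻¹ ^ j) := by
    intro j
    have hinv : (l.γ⁻¹ ^ j)⁻¹ = l.γ ^ j := by rw [inv_pow, inv_inv]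
    rw [jOrdFun, hinv, l.hexp]
    have ht0 : ¬ p ∣ res p b.g m j := by
      rw [← l.hexp]
      exact FA.IwasawaControl.not_dvd_expo (dvd_pow_self p m.succ_ne_zero) _
    have hg : ¬ p ∣ b.g := fun h =>
      FA.IwasawaMinus.gen_ne_zero b.hg ((ZMod.natCast_eq_zero_iff _ _).2 h)
    have h := jOrd_add_floor (c := b.g) (res_lt (g := b.g) m j)
      (fun h0 => ht0 (by rw [h0]; exact dvd_zero p)) fun h0 => by
        rcases hp.out.dvd_mul.1 ((dvd_pow_self p m.succ_ne_zero).trans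
          (Nat.dvd_of_mod_eq_zero h0)) with h' | h'
        · exact hg h'
        · exact ht0 h'
    have h2g := b.hg.1
    rw [coefE]
    generalize hN : b.g * res p b.g m j / p ^ (m + 1) = N at h
    omega
  rw [h1, tr_apply, l.sum_eq_range, Finset.mul_sum]
  calc _ = ∑ j ∈ range (phiN p m), (((b.g - 1 : ℕ) : LRing p m) * wY b m ^ j -
        2 * ((l.jOrdFun (l.γ⁻¹ ^ j) : LRing p m) * wY b m ^ j)) :=
      Finset.sum_congr rfl fun j _ => by rw [h2]; push_cast; ring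
    _ = _ := by
      rw [Finset.sum_sub_distrib, ← Finset.mul_sum, sum_wY_pow, mul_zero, zero_sub,
        ← Finset.sum_neg_distrib]
      exact Finset.sum_congr rfl fun j _ => by rw [chi_pow]; ring

variable {Ω : Type*} [Field Ω] [CharZero Ω] [IsAlgClosed Ω] [Algebra.IsAlgebraic ℚ Ω]
  {ι : F →+* Ω}

/-- **The transform at the auxiliary prime.** -/
theorem trOrd_base (hι : IsCycBase (p ^ (m + 1)) ι) (hs : Setup p (p ^ (m + 1)) k b.g) {r gg : ℕ}
    (hA : IsAux (p ^ (m + 1)) ∅ r gg) {vr : HeightOneSpectrum (𝓞 F)}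
    (hvr : Ideal.absNorm vr.asIdeal = r) {x : Fˣ}
    (hx : IsKappa Ω (p ^ (m + 1)) b.g r gg p k ∅ (ι x)) :
    ∃ w : LRing p m, IsUnit w ∧
      red p m k (l.trOrd vr x) = red p m k (w * cls p m (sys b.hg b.u m)) := by
  haveI : NeZero (p ^ (m + 1)) := ⟨pow_ne_zero _ hp.out.ne_zero⟩
  haveI : Fact r.Prime := ⟨hA.prime⟩
  haveI := IsCyclotomicExtension.isGalois {p ^ (m + 1)} ℚ F
  set P := p ^ (m + 1) with hP
  have hPp : p ∣ P := dvd_pow_self p m.succ_ne_zero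
  obtain ⟨zF, hzF⟩ := (hι (zr Ω P)).1 (FA.GaussKolyvagin.zr_P_mem ∅)
  have hz : IsPrimitiveRoot zF P := IsPrimitiveRoot.of_map_of_injective
    (f := ι) (by rw [hzF]; exact zr_spec Ω (NeZero.ne P)) ι.injective
  obtain ⟨d, hd⟩ := hA.dvd_p
  have hQ := isDeg1_one hι hs hA.prime (hA.coprime P (Finset.mem_insert_self _ _)) hvr
  obtain ⟨i, hi, hn⟩ := exists_coprime_exponent hA.gen hQ hd hz
  obtain ⟨ρ, hρ⟩ := l.exists_expo hi
  have hu : ∀ a : ℕ, (zF ^ a) ^ (r - 1) = 1 := fun a => by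
    rw [← pow_mul, mul_comm, hd, mul_assoc, pow_mul, hz.pow_eq_one, one_pow]
  have hcop : ∀ a : ℕ, ¬ p ∣ a → a.Coprime P := fun a ha =>
    ((hp.out.coprime_iff_not_dvd.2 ha).pow_left (m + 1)).symm
  have hne : ∀ a : ℕ, ¬ p ∣ a → ∀ j, 1 ≤ j → j ≤ b.g → (zF ^ a) ^ j ≠ 1 :=
    fun a ha j h1 h2 h => by
      rw [← pow_mul] at h
      have h' := Nat.le_of_dvd (by omega)
        ((hcop a ha).symm.dvd_of_dvd_mul_left (hz.dvd_of_pow_eq_one _ h))
      have := hs.hcP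
      omega
  set J1 : Fˣ := Units.mk0 _ (pJ_ne_zero hA.gen (hu 1) (hne 1 hp.out.not_dvd_one))
  set Jc : Fˣ := Units.mk0 _ (pJ_ne_zero hA.gen (hu b.g) (hne b.g hs.hcd))
  -- `x` and the Jacobi sums
  obtain ⟨-, γ', hγ', hγ'0, hex, -⟩ := hx
  obtain ⟨γ₀, rfl⟩ := (hι γ').1 hγ'
  set γu : Fˣ := Units.mk0 γ₀ fun h => hγ'0 (by rw [h, map_zero])
  have h1 : x * γu ^ p ^ k * J1 ^ b.g = Jc := by
    refine Units.ext (ι.injective ?_)
    have hJ0 : ι (J1 : F) ≠ 0 := (map_ne_zero ι).2 J1.ne_zero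
    simp only [Units.val_mul, Units.val_pow_eq_pow_val, map_mul, map_pow]
    rw [show ι (γu : F) = ι γ₀ from rfl, ← hex]
    have hdG : dG Ω P b.g r gg (∅ : Finset ℕ) (1 : Ω) = funG Ω P b.g r gg 1 := by
      simp [dG, pt, wt]
    rw [hdG, funG, mul_one, mul_one]
    have e1 : ι (J1 : F) = pJ r gg b.g (zr Ω P) := by
      show ι (pJ r gg b.g (zF ^ 1)) = _
      rw [pow_one, map_pJ, hzF]
    have ec : ι (Jc : F) = pJ r gg b.g (zr Ω P ^ b.g) := by
      show ι (pJ r gg b.g (zF ^ b.g)) = _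
      rw [map_pJ, map_pow, hzF]
    rw [e1] at hJ0 ⊢
    exact (div_mul_cancel₀ _ (pow_ne_zero b.g hJ0)).trans ec.symm
  -- the orders
  have hJ : ∀ (a : ℕ) (ha : ¬ p ∣ a) (ρ' : F ≃ₐ[ℚ] F) (J : Fˣ), (J : F) = pJ r gg b.g (zF ^ a) →
      ((expo P ρ' : ℕ) : ZMod P) = (i : ZMod P) * a →
      l.trOrd vr J = l.chi ρ' * l.tr l.jOrdFun := by
    intro a ha ρ' J hJ hρ'
    rw [trOrd, trDiv, ← l.tr_shift]
    congr 1
    funext σ
    rw [FA.AmbClass.toAdd_ordHom, jOrdFun]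
    have hJ' : ((galU σ⁻¹ J : Fˣ) : F) = pJ r gg b.g (zF ^ (a * expo P σ⁻¹)) := by
      rw [galU_val, hJ]
      refine (map_pJ ((σ⁻¹ : F ≃ₐ[ℚ] F) : F →+* F) b.g _).trans ?_
      show pJ r gg b.g (σ⁻¹ (zF ^ a)) = _
      rw [map_pow, show σ⁻¹ zF = zF ^ expo P σ⁻¹ from
        IsCyclotomicExtension.Rat.galEquivZMod_apply_of_pow_eq P F σ⁻¹ hz.pow_eq_one, ← pow_mul,
        mul_comm]
    have hnd : ¬ p ∣ a * expo P σ⁻¹ := fun h => (hp.out.dvd_mul.1 h).elim ha
      (FA.IwasawaControl.not_dvd_expo hPp _)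
    rw [show ord (galPrime σ vr) J = ord (galPrime σ vr) (galU σ (galU σ⁻¹ J)) from
      congrArg _ (Units.ext (σ.apply_symm_apply (J : F)).symm), ord_galU, ← ordJ_eq vr hJ',
      ordJ_pow hA.gen hQ hd hz hn (le_trans one_le_two hs.hc2) _ (hne _ hnd)]
    refine congrArg _ (jOrd_congr ?_)
    rw [← ZMod.natCast_eq_natCast_iff, mul_inv_rev, inv_inv, l.expo_mul, hρ', Nat.cast_mul,
      Nat.cast_mul]
    ring
  have hT1 := hJ 1 hp.out.not_dvd_one ρ J1 rfl (by rw [hρ, Nat.cast_one, mul_one])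
  have hTc := hJ b.g hs.hcd (ρ * l.γ) Jc rfl (by rw [l.expo_mul, hρ, l.expo_gen_level])
  have hmul : l.trOrd vr x + (p : LRing p m) ^ k * l.trOrd vr γu + (b.g : LRing p m) * l.trOrd vr J1
      = l.trOrd vr Jc := by
    rw [← h1]
    simp only [trOrd, map_mul, map_pow, trDiv_mul]
    rw [show ∀ (n : ℕ) (D : FA.AmbClass.Dvs F), l.trDiv vr (D ^ n) =
        (n : LRing p m) * l.trDiv vr D from fun n D =>
      (congrArg Multiplicative.toAdd (map_pow (l.trDivHom vr) D n)).trans (nsmul_eq_mul _ _),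
      show ∀ (n : ℕ) (D : FA.AmbClass.Dvs F), l.trDiv vr (D ^ n) =
        (n : LRing p m) * l.trDiv vr D from fun n D =>
      (congrArg Multiplicative.toAdd (map_pow (l.trDivHom vr) D n)).trans (nsmul_eq_mul _ _),
      Nat.cast_pow]
  obtain ⟨h2, hh2⟩ : ∃ h2 : LRing p m, -2 * h2 = 1 := by
    refine IsUnit.exists_right_inv (LRing.isUnit_iff.2 (PadicInt.isUnit_iff.2
      (FA.IwasawaMinus.norm_eq_one_of_toZMod_ne ?_)))
    simp only [map_neg, map_ofNat, neg_ne_zero]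
    intro h
    exact b.ne_two ((Nat.prime_dvd_prime_iff_eq hp.out Nat.prime_two).1
      ((ZMod.natCast_eq_zero_iff 2 p).1 (by exact_mod_cast h)))
  refine ⟨h2 * l.chi ρ * (l.chi l.γ - (b.g : LRing p m)),
    ((IsUnit.of_mul_eq_one _ ((mul_comm _ _).trans hh2)).mul (l.isUnit_chi ρ)).mul ?_, ?_⟩
  · refine LRing.isUnit_iff.2 (PadicInt.isUnit_iff.2
      (FA.IwasawaMinus.norm_eq_one_of_toZMod_ne ?_))
    rw [map_sub, map_sub, map_natCast, map_natCast, sub_ne_zero,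
      show PadicInt.toZMod (aug p m (l.chi l.γ)) = l.chiP l.γ from rfl, l.chiP_eq, l.expo_gen]
    simpa using pow_weight_ne b (e := 1) le_rfl
  · rw [red_eq_iff, l.cls_sys]
    refine ⟨-l.trOrd vr γu, ?_⟩
    rw [show h2 * l.chi ρ * (l.chi l.γ - (b.g : LRing p m)) * (-2 * l.tr l.jOrdFun) =
      (-2 * h2) * (l.chi ρ * (l.chi l.γ - (b.g : LRing p m)) * l.tr l.jOrdFun) by ring, hh2,
      one_mul]
    rw [hT1, hTc, map_mul] at hmul
    linear_combination hmul

end Lvl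

end FA.GaussTower
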