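import Fermat.Agent.GaussTower.Invariants

/-!
# No capitulation in the tower, and the norms

For two levels `n ≤ m` of an odd branch:

* `Lvl.phi_injective_levels`: the extension `A_n → A_m` is injective: by the main conjecture its
  image has the order of `A_n`;
* `Lvl.tN`: the norm `A_m → A_n`, semilinear, surjective (`tN_surjective`), with kernel `ω_n A_m`
  (`tN_eq_zero_iff`);
* `Lvl.extendedHom_eq_one`: no class of the weight becomes principal.
-/

set_option autoImplicit false
set_option linter.unusedSectionVars false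
set_option linter.style.haveILetI false

noncomputable section

open NumberField Polynomial Matrix
open scoped Classical

namespace FA.GaussTower

open FA.IwasawaMinus (omega sys sys_compatible)
open FA.IwasawaControl (pLvl wPart mem_wPart_iff)
open FA.IwasawaStructure (expo)
open LRing

variable {p : ℕ} [hp : Fact p.Prime] {b : Brn p}

namespace Lvl

variable {n m : ℕ} {K L : Type} [Field K] [NumberField K]
  [IsCyclotomicExtension {p ^ (n + 1)} ℚ K] [Field L] [NumberField L]
  [IsCyclotomicExtension {p ^ (m + 1)} ℚ L] [Algebra K L] (lK : Lvl b n K) (lL : Lvl b m L)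

/-- **No capitulation.** -/
theorem phi_injective_levels (h : n ≤ m) : Function.Injective (lK.phi lL) := by
  obtain ⟨t, C, M, hM⟩ := lL.exists_rel
  choose u hu using fun i => lK.exists_phi_eq lL h (C i)
  set π := (lK.phiKer lL h).mkQ
  have hrel := lK.isRel_down lL h hM π (Submodule.mkQ_surjective _)
    (fun a => Submodule.Quotient.mk_eq_zero _) hu
  have he : ∀ y : lK.A ⧸ lK.phiKer lL h, (p : LRing p n) ^ pLvl p K • y = 0 := fun y => by
    obtain ⟨a, rfl⟩ := Submodule.mkQ_surjective _ y
    rw [← map_smul, lK.natCast_pow_smul, map_zero]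
  have hdet : Associated (M.map (down p h)).det (cls p n (sys b.hg b.u n)) := by
    rw [← RingHom.mapMatrix_apply, ← RingHom.map_det]
    have h2 : cls p n (sys b.hg b.u m) = cls p n (sys b.hg b.u n) := by
      rw [← sub_eq_zero, ← map_sub, cls_eq_zero_iff]
      exact (sys_compatible b.hg b.u).dvd_sub h
    have h1 : Associated (down p h M.det) (down p h (cls p m (sys b.hg b.u m))) :=
      (lL.associated_det_sys hM).map (down p h : LRing p m →* LRing p n)
    rwa [down_cls, h2] at h1
  have h1 := inv_natCard_of_isRel hrel he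
  rw [norm_norm_of_associated hdet, ← lK.inv_natCard_A_eq_norm, _root_.inv_inj, Nat.cast_inj] at h1
  have hbij : Function.Bijective π :=
    (Submodule.mkQ_surjective _).bijective_of_nat_card_le h1.ge
  exact (injective_iff_map_eq_zero _).2 fun a ha => hbij.1 (by
    rw [map_zero]
    exact (Submodule.Quotient.mk_eq_zero _).2 ha)

/-- **The norm.** -/
def tN (h : n ≤ m) : lL.A →+ lK.A where
  toFun x := (lK.exists_phi_eq lL h x).choose
  map_zero' := lK.phi_injective_levels lL h (by
    rw [(lK.exists_phi_eq lL h 0).choose_spec, smul_zero, map_zero])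
  map_add' x y := lK.phi_injective_levels lL h (by
    rw [map_add, (lK.exists_phi_eq lL h (x + y)).choose_spec,
      (lK.exists_phi_eq lL h x).choose_spec, (lK.exists_phi_eq lL h y).choose_spec, smul_add])

variable (h : n ≤ m)

theorem phi_tN (x : lL.A) : lK.phi lL (lK.tN lL h x) = nuH p n m • x :=
  (lK.exists_phi_eq lL h x).choose_spec

theorem tN_surjective : Function.Surjective (lK.tN lL h) := fun a => by
  obtain ⟨x, hx⟩ := lK.phi_eq_nuH lL h a
  exact ⟨x, lK.phi_injective_levels lL h ((lK.phi_tN lL h x).trans hx.symm)⟩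

theorem tN_smul (r : LRing p m) (x : lL.A) :
    lK.tN lL h (r • x) = down p h r • lK.tN lL h x :=
  lK.phi_injective_levels lL h (by rw [phi_smul, phi_tN, phi_tN, smul_comm])

theorem tN_cls_smul (f : ℤ_[p][X]) (x : lL.A) :
    lK.tN lL h (cls p m f • x) = cls p n f • lK.tN lL h x := by rw [tN_smul, down_cls]

theorem tN_omega_smul (y : lL.A) : lK.tN lL h (cls p m (omega n) • y) = 0 := by
  rw [tN_cls_smul, cls_omega, zero_smul]

/-- **The kernel of the norm.** -/
theorem tN_eq_zero_iff (x : lL.A) :
    lK.tN lL h x = 0 ↔ ∃ y, x = cls p m (omega n) • y := by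
  refine ⟨fun hx => ?_, ?_⟩
  · have hν : nuH p n m • x = 0 := by rw [← lK.phi_tN lL h, hx, map_zero]
    obtain ⟨t, C, M, hM⟩ := lL.exists_rel
    obtain ⟨f, rfl⟩ := hM.gen x
    obtain ⟨c, hc⟩ := hM.span (fun i => nuH p n m * f i) (by
      rw [← hν, Finset.smul_sum]
      exact Finset.sum_congr rfl fun i _ => mul_smul _ _ _)
    have hωc : cls p m (omega n) • c = 0 := lL.eq_zero_of_vecMul_eq_zero hM (by
      rw [smul_vecMul, ← hc]
      funext i
      rw [Pi.smul_apply, smul_eq_mul, ← mul_assoc, omega_mul_nuH h, zero_mul, Pi.zero_apply])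
    choose c' hc' using fun i => exists_eq_nuH_mul h (a := c i) (congrFun hωc i)
    have h1 : ∀ i, ∃ d, f i - (c' ᵥ* M) i = cls p m (omega n) * d := fun i => by
      refine (down_eq_zero_iff h).1 (down_eq_zero_of_mul_nuH h ?_)
      rw [sub_mul, sub_eq_zero, mul_comm, congrFun hc i, vecMul, dotProduct, vecMul, dotProduct,
        Finset.sum_mul]
      exact Finset.sum_congr rfl fun j _ => by rw [hc' j]; ring
    choose d hd using h1
    refine ⟨∑ i, d i • C i, ?_⟩
    simp only [Finset.smul_sum, ← mul_smul, ← hd, sub_smul, Finset.sum_sub_distrib,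
      hM.rel_vecMul, sub_zero]
  · rintro ⟨y, rfl⟩
    exact lK.tN_omega_smul lL h y

include lK lL h in
/-- The extension respects the weight. -/
theorem extendedHom_mem {y : ClassGroup (𝓞 K)} (hy : y ∈ wPart p (p ^ (n + 1)) K b.i) :
    ClassGroup.extendedHom (𝓞 K) (𝓞 L) y ∈ wPart p (p ^ (m + 1)) L b.i := by
  set N := pLvl p K + pLvl p L
  obtain ⟨hy1, hy2⟩ := (mem_wPart_iff (N := N) (by omega)).1 hy
  refine (mem_wPart_iff (N := N) (by omega)).2 ⟨by rw [← map_pow, hy1, map_one], fun σ hσ => ?_⟩
  obtain ⟨σ₀, hσ₀⟩ := lK.exists_restrict lL h σ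
  have hexp := lK.expo_restrict lL h hσ₀
  have key : ∀ (j : ℕ) (z : K), (σ ^ j) (algebraMap K L z) = algebraMap K L ((σ₀ ^ j) z) := by
    intro j
    induction j with
    | zero => intro z; rfl
    | succ j ih => intro z; rw [pow_succ, pow_succ, AlgEquiv.mul_apply, AlgEquiv.mul_apply, hσ₀, ih]
  have hσ₀1 : σ₀ ^ (p - 1) = 1 := AlgEquiv.ext fun z => (algebraMap K L).injective (by
    rw [← key, hσ]
    rfl)
  rw [← FA.IwasawaControl.extendedHom_actCl hσ₀ y, hy2 σ₀ hσ₀1, map_pow]
  refine FA.IwasawaControl.pow_pow_congr (w := N + 1) (by rw [← map_pow, hy1, map_one]) ?_ b.i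
    le_rfl le_rfl
  have h2 := congrArg (ZMod.castHom (dvd_pow_self p n.succ_ne_zero) (ZMod p)) hexp
  rwa [map_natCast, map_natCast] at h2

include lK lL h in
theorem val_phi (a : lK.A) : lL.val (lK.phi lL a) =
    Additive.ofMul (ClassGroup.extendedHom (𝓞 K) (𝓞 L) (Additive.toMul (lK.val a))) := by
  show lL.val (lL.pr (Additive.ofMul _)) = _
  rw [val_pr, FA.IwasawaControl.wProj_of_mem (dvd_pow_self p m.succ_ne_zero)
    (lK.extendedHom_mem lL h (lK.val_mem a))]

include lK lL h in
/-- **No class of the weight becomes principal.** -/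
theorem extendedHom_eq_one {y : ClassGroup (𝓞 K)} (hy : y ∈ wPart p (p ^ (n + 1)) K b.i)
    (h1 : ClassGroup.extendedHom (𝓞 K) (𝓞 L) y = 1) : y = 1 := by
  have h2 : lK.phi lL (lK.ofMem y hy) = 0 := lL.val_injective (by
    rw [val_phi lK lL h, val_ofMem, toMul_ofMul, h1, ofMul_one, map_zero])
  have h3 := congrArg lK.val (lK.phi_injective_levels lL h (h2.trans (map_zero _).symm))
  rwa [val_ofMem, map_zero, ofMul_eq_zero] at h3

include lK lL h in
/-- **The norm, as a product of conjugates.** -/
theorem extendedHom_tN (x : lL.A) :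
    ClassGroup.extendedHom (𝓞 K) (𝓞 L) (Additive.toMul (lK.val (lK.tN lL h x))) =
      ∏ g : L ≃ₐ[K] L, FA.CycloTower.actCl g (Additive.toMul (lL.val x)) := by
  have h1 := congrArg (fun a => Additive.toMul (lL.val a)) (lK.phi_tN lL h x)
  simp only [val_phi lK lL h, toMul_ofMul] at h1
  rw [h1, ← lK.sum_chi_gal lL h, Finset.sum_smul, map_sum, toMul_sum]
  refine Finset.prod_congr rfl fun g _ => ?_
  rw [chi_smul, val_gal, FA.IwasawaControl.actCl_restrictScalars]

end Lvl

end FA.GaussTower
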