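import Fermat.Agent.GaussTower.Limit
import Mathlib.LinearAlgebra.Matrix.Charpoly.Coeff

/-!
# The characteristic polynomial is the `p`-adic `L`-function

* `exists_charmatrix_mulVec`: over `ℤ_p[X]` a vector is a combination of the columns of `X - N` up
  to its value at `N`;
* `Lvl.associated_charpoly`: so a matrix presenting a level has the branch as its characteristic
  polynomial, up to a unit of the level;
* `distinguished_charpoly`: it is distinguished.
-/

set_option autoImplicit false
set_option linter.unusedSectionVars false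
set_option linter.style.haveILetI false

noncomputable section

open NumberField Polynomial Matrix
open scoped Classical

namespace FA.GaussTower

open FA.IwasawaMinus (omega sys Dominant sys_compatible)
open LRing

variable {p : ℕ} [hp : Fact p.Prime] {lam : ℕ} (N : Matrix (Fin lam) (Fin lam) ℤ_[p])

/-- The value at `N`. -/
def atN : (Fin lam → ℤ_[p][X]) →+ (Fin lam → ℤ_[p]) where
  toFun f := ∑ j, aeval N (f j) *ᵥ Pi.single j 1
  map_zero' := Finset.sum_eq_zero fun j _ => by rw [Pi.zero_apply, map_zero, zero_mulVec]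
  map_add' f g := by
    rw [← Finset.sum_add_distrib]
    exact Finset.sum_congr rfl fun j _ => by rw [Pi.add_apply, map_add, add_mulVec]

theorem atN_apply (f : Fin lam → ℤ_[p][X]) :
    atN N f = ∑ j, aeval N (f j) *ᵥ Pi.single j 1 := rfl

theorem atN_single (j : Fin lam) (g : ℤ_[p][X]) :
    atN N (Pi.single j g) = aeval N g *ᵥ Pi.single j 1 := by
  rw [atN_apply, Finset.sum_eq_single j (fun k _ hk => by
    rw [Pi.single_eq_of_ne hk, map_zero, zero_mulVec])
    fun h => absurd (Finset.mem_univ j) h, Pi.single_eq_same]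

theorem charmatrix_mulVec (c : Fin lam → ℤ_[p][X]) :
    charmatrix N *ᵥ c = (X : ℤ_[p][X]) • c - N.map C *ᵥ c := by
  funext i
  rw [charmatrix, RingHom.mapMatrix_apply, sub_mulVec, Pi.sub_apply, Pi.sub_apply]
  congr 1
  simp [Matrix.scalar, Matrix.mulVec_diagonal]

/-- **Division by `X - N`.** -/
theorem exists_charmatrix_mulVec (f : Fin lam → ℤ_[p][X]) :
    ∃ c, f = charmatrix N *ᵥ c + C ∘ atN N f := by
  have hone : ∀ (j : Fin lam) (g : ℤ_[p][X]), ∃ c, Pi.single j g =
      charmatrix N *ᵥ c + C ∘ atN N (Pi.single j g) := fun j g => by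
    induction g using Polynomial.induction_on with
    | C a =>
      refine ⟨0, funext fun i => ?_⟩
      rw [mulVec_zero, zero_add, Function.comp_apply, atN_single, aeval_C,
        Algebra.algebraMap_eq_smul_one, smul_mulVec, one_mulVec, Pi.smul_apply]
      rcases eq_or_ne i j with rfl | hij
      · rw [Pi.single_eq_same, Pi.single_eq_same, smul_eq_mul, mul_one]
      · rw [Pi.single_eq_of_ne hij, Pi.single_eq_of_ne hij, smul_zero, map_zero]
    | add g h hg hh =>
      obtain ⟨c, hc⟩ := hg
      obtain ⟨d, hd⟩ := hh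
      refine ⟨c + d, ?_⟩
      rw [Pi.single_add]
      conv_lhs => rw [hc, hd]
      rw [mulVec_add, map_add]
      funext i
      simp only [Pi.add_apply, Function.comp_apply, map_add]
      ring
    | monomial e a ih =>
      obtain ⟨c, hc⟩ := ih
      set v := atN N (Pi.single j (C a * X ^ e))
      refine ⟨(X : ℤ_[p][X]) • c + C ∘ v, ?_⟩
      have hv : atN N (Pi.single j (C a * X ^ (e + 1))) = N *ᵥ v := by
        rw [atN_single, show C a * X ^ (e + 1) = X * (C a * X ^ e) from by ring, map_mul, aeval_X,
          ← mulVec_mulVec]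
        simp only [v, atN_single]
      have hNv : C ∘ (N *ᵥ v) = N.map C *ᵥ (C ∘ v) := funext fun i => RingHom.map_mulVec _ N v i
      rw [hv, hNv, mulVec_add, mulVec_smul, charmatrix_mulVec N (C ∘ v), add_assoc, sub_add_cancel,
        ← smul_add, ← hc, ← Pi.single_smul, smul_eq_mul,
        show X * (C a * X ^ e) = C a * X ^ (e + 1) by ring]
  choose c hc using fun j => hone j (f j)
  refine ⟨∑ j, c j, ?_⟩
  have hf : f = ∑ j, Pi.single j (f j) := (Finset.univ_sum_single f).symm
  conv_lhs => rw [hf, Finset.sum_congr rfl fun j _ => hc j]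
  rw [mulVec_sum, Finset.sum_add_distrib]
  congr 1
  conv_rhs => rw [hf, map_sum]
  funext i
  simp only [Finset.sum_apply, Function.comp_apply, map_sum]

/-- The columns of `X - N` vanish at `N`. -/
theorem atN_column (j : Fin lam) : atN N (fun l => charmatrix N l j) = 0 := by
  have h : ∀ l, aeval N (charmatrix N l j) *ᵥ Pi.single l 1 =
      (if l = j then N *ᵥ Pi.single j 1 else 0) - N l j • Pi.single l 1 := fun l => by
    rcases eq_or_ne l j with rfl | hlj
    · rw [charmatrix_apply_eq, map_sub, aeval_X, aeval_C, Algebra.algebraMap_eq_smul_one,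
        sub_mulVec, smul_mulVec, one_mulVec, if_pos rfl]
    · rw [charmatrix_apply_ne _ _ _ hlj, map_neg, aeval_C, Algebra.algebraMap_eq_smul_one,
        neg_mulVec, smul_mulVec, one_mulVec, if_neg hlj, zero_sub]
  rw [atN_apply, Finset.sum_congr rfl fun l _ => h l, Finset.sum_sub_distrib, Finset.sum_ite_eq',
    if_pos (Finset.mem_univ _), sub_eq_zero, mulVec_single_one]
  funext i
  rw [Finset.sum_apply, Finset.sum_eq_single i (fun l _ hl => by
      rw [Pi.smul_apply, Pi.single_eq_of_ne hl.symm, smul_zero])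
    fun h => absurd (Finset.mem_univ i) h, Pi.smul_apply, Pi.single_eq_same, smul_eq_mul, mul_one]
  rfl

variable {N}

namespace Lvl

variable {b : Brn p} {n : ℕ} {L : Type} [Field L] [NumberField L]
  [IsCyclotomicExtension {p ^ (n + 1)} ℚ L]

/-- **The characteristic polynomial is the branch.** -/
theorem associated_charpoly (l : Lvl b n L) (π : (Fin lam → ℤ_[p]) →+ l.A)
    (hπ : Function.Surjective π)
    (hf : ∀ (f : ℤ_[p][X]) v, π (aeval N f *ᵥ v) = cls p n f • π v)
    (hker : ∀ v, π v = 0 ↔ ∃ w, v = aeval N (omega (p := p) n) *ᵥ w) :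
    Associated (cls p n N.charpoly) (cls p n (sys b.hg b.u n)) := by
  set e : Fin lam → l.A := fun j => π (Pi.single j 1)
  have hat : ∀ f : Fin lam → ℤ_[p][X], π (atN N f) = ∑ j, cls p n (f j) • e j := fun f => by
    rw [atN_apply, map_sum]
    exact Finset.sum_congr rfl fun j _ => hf _ _
  have hsingle : ∀ v : Fin lam → ℤ_[p], atN N (C ∘ v) = v := fun v => by
    rw [atN_apply]
    conv_rhs => rw [← Finset.univ_sum_single v]
    refine Finset.sum_congr rfl fun j _ => ?_
    rw [Function.comp_apply, aeval_C, Algebra.algebraMap_eq_smul_one, smul_mulVec, one_mulVec,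
      ← Pi.single_smul, smul_eq_mul, mul_one]
  have hrel : IsRel e ((charmatrix N).map (cls p n))ᵀ := by
    refine ⟨fun a => ?_, fun j => ?_, fun f hf0 => ?_⟩
    · obtain ⟨v, rfl⟩ := hπ a
      exact ⟨fun j => cls p n (C (v j)), ((hat (C ∘ v)).symm.trans (by rw [hsingle]))⟩
    · simp only [transpose_apply, Matrix.map_apply]
      rw [← hat, atN_column, map_zero]
    · choose f' hf' using fun j => cls_surjective (f j)
      obtain ⟨w, hw⟩ := (hker _).1 ((hat f').trans ((Finset.sum_congr rfl fun j _ => by
        rw [hf' j]).trans hf0))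
      have hω : atN N (omega (p := p) n • (C ∘ w)) = aeval N (omega (p := p) n) *ᵥ w := by
        conv_rhs => rw [← hsingle w, atN_apply, mulVec_sum]
        rw [atN_apply]
        refine Finset.sum_congr rfl fun j _ => ?_
        rw [Pi.smul_apply, smul_eq_mul, map_mul, ← mulVec_mulVec]
      obtain ⟨c, hc⟩ := exists_charmatrix_mulVec N (f' - omega (p := p) n • (C ∘ w))
      rw [map_sub, hω, ← hw, sub_self] at hc
      refine ⟨cls p n ∘ c, funext fun i => ?_⟩
      have h1 := congrArg (cls p n) (congrFun hc i)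
      rw [Pi.sub_apply, map_sub, Pi.smul_apply, smul_eq_mul, map_mul, cls_omega, zero_mul,
        sub_zero, hf', Pi.add_apply, Function.comp_apply, Pi.zero_apply, map_zero, add_zero,
        RingHom.map_mulVec] at h1
      rw [h1, vecMul_transpose]
  obtain ⟨t, C', M', hM'⟩ := l.exists_rel
  have h0 := l.associated_det_sys hM'
  have h1 := hrel.associated hM' (e := FA.IwasawaControl.pLvl p L)
    (fun a => l.natCast_pow_smul a)
  have h : Associated ((charmatrix N).map (cls p n))ᵀ.det (cls p n (sys b.hg b.u n)) := by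
    refine Associated.trans ?_ h0
    convert h1 using 2
  rwa [det_transpose, ← RingHom.mapMatrix_apply, ← RingHom.map_det, ← Matrix.charpoly] at h

end Lvl

/-- **The characteristic polynomial is distinguished.** -/
theorem distinguished_charpoly {b : Brn p} (hD : Dominant (sys b.hg b.u) 0 lam)
    (h : Associated (cls p lam N.charpoly) (cls p lam (sys b.hg b.u lam))) :
    N.charpoly.IsDistinguishedAt (IsLocalRing.maximalIdeal ℤ_[p]) := by
  obtain ⟨w, hw⟩ := h
  obtain ⟨W, hW⟩ := piLvl_surjective (w : LRing p lam)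
  have hd : PowerSeries.X ^ p ^ lam ∣
      redS p ((N.charpoly : PowerSeries ℤ_[p]) * W - (sys b.hg b.u lam : PowerSeries ℤ_[p])) :=
    X_pow_dvd_redS (by rw [map_sub, map_mul, piLvl_coe, hW, piLvl_coe, hw, sub_self])
  have hS : PowerSeries.X ^ lam ∣ redS p (sys b.hg b.u lam : PowerSeries ℤ_[p]) := by
    refine PowerSeries.X_pow_dvd_iff.2 fun j hj => ?_
    rw [redS, PowerSeries.coeff_map, Polynomial.coeff_coe, toZMod_eq_zero_iff]
    simpa using hD.below lam j le_rfl hj
  have hWu : IsUnit W := by
    rw [PowerSeries.isUnit_iff_constantCoeff, ← aug_piLvl (m := lam), hW]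
    exact w.isUnit.map _
  have hP : PowerSeries.X ^ lam ∣ redS p (N.charpoly : PowerSeries ℤ_[p]) := by
    have h1 := dvd_add ((pow_dvd_pow _ (Nat.lt_pow_self hp.out.one_lt).le).trans hd) hS
    rwa [map_sub, sub_add_cancel, map_mul, IsUnit.dvd_mul_right (hWu.map (redS p))] at h1
  refine ⟨⟨fun {j} hj => ?_⟩, charpoly_monic N⟩
  rw [charpoly_natDegree_eq_dim, Fintype.card_fin] at hj
  have h1 := PowerSeries.X_pow_dvd_iff.1 hP j hj
  rw [redS, PowerSeries.coeff_map, Polynomial.coeff_coe, toZMod_eq_zero_iff,
    ← Ideal.mem_span_singleton, ← PadicInt.maximalIdeal_eq_span_p] at h1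
  exact h1

end FA.GaussTower
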