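import Fermat.Agent.GaussTower.LevelRing
import Mathlib.LinearAlgebra.Matrix.SchurComplement
import Mathlib.LinearAlgebra.FreeModule.PID

/-!
# Square presentations over `ℤ_p[X] / (ω_m)`

`A` is a module over `R = ℤ_p[X] / (ω_m)` killed by a power of `p`, `C` a finite tuple of elements.
`IsRel C M` says that `C` generates `A` and the rows of the square matrix `M` generate the
relations.

* `exists_isRel`: if the kernel of `X` is the image of `ν = ω_m / X`, every generating tuple has a
  square matrix of relations;
* `IsRel.associated`: the determinant depends only on the module;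
* `IsRel.det_dvd_of_surjective`: a quotient has a determinant dividing it.
-/

set_option autoImplicit false
set_option linter.unusedSectionVars false

noncomputable section

open Matrix
open scoped Classical

namespace FA.GaussTower

open FA.IwasawaControl (nuPoly X_mul_nuPoly)
open LRing

variable {p : ℕ} [hp : Fact p.Prime] {m : ℕ} {A : Type*} [AddCommGroup A] [Module (LRing p m) A]
variable {ι κ : Type*} [Fintype ι] [Fintype κ]

variable (p m) in
/-- The element `ν = ω_m / X`. -/
def nuR : LRing p m := cls p m (nuPoly p m)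

variable (p m) in
/-- The variable. -/
def varR : LRing p m := cls p m Polynomial.X

theorem varR_mul_nuR : varR p m * nuR p m = 0 := by
  rw [varR, nuR, ← map_mul, X_mul_nuPoly, cls_omega]

/-- A generating tuple with a square matrix of relations. -/
structure IsRel (C : ι → A) (M : Matrix ι ι (LRing p m)) : Prop where
  gen : ∀ a : A, ∃ f : ι → LRing p m, ∑ l, f l • C l = a
  rel : ∀ j, ∑ l, M j l • C l = 0
  span : ∀ f : ι → LRing p m, ∑ l, f l • C l = 0 → ∃ c, f = c ᵥ* M

variable {C : ι → A} {M : Matrix ι ι (LRing p m)}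

/-- Combinations of the rows are relations. -/
theorem IsRel.rel_vecMul (h : IsRel C M) (c : ι → LRing p m) :
    ∑ l, (c ᵥ* M) l • C l = 0 := by
  simp only [vecMul, dotProduct, Finset.sum_smul, mul_smul]
  rw [Finset.sum_comm]
  simp only [← Finset.smul_sum, h.rel, smul_zero, Finset.sum_const_zero]

/-- **The determinant is regular.** -/
theorem IsRel.det_regular [DecidableEq ι] (h : IsRel C M) {e : ℕ}
    (he : ∀ a : A, (p : LRing p m) ^ e • a = 0)
    {a : LRing p m} (ha : a * M.det = 0) : a = 0 := by
  have hrow : ∀ j, ∃ c, Pi.single j ((p : LRing p m) ^ e) = c ᵥ* M := fun j => by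
    refine h.span _ ?_
    rw [Finset.sum_eq_single j (fun l _ hl => by 
        rw [Pi.single_eq_of_ne hl]; exact zero_smul _ (C l))
      fun hj => absurd (Finset.mem_univ j) hj, Pi.single_eq_same, he]
  choose D hD using hrow
  have hDM : Matrix.of D * M = diagonal fun _ => (p : LRing p m) ^ e := by
    ext j l
    refine (congrFun (hD j).symm l).trans ?_
    rcases eq_or_ne j l with rfl | hjl
    · rw [diagonal_apply_eq, Pi.single_eq_same]
    · rw [diagonal_apply_ne _ hjl, Pi.single_eq_of_ne hjl.symm]
  have hd := congrArg Matrix.det hDM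
  rw [det_mul, det_diagonal, Finset.prod_const, ← pow_mul] at hd
  refine eq_zero_of_natCast_pow_mul (k := e * (Finset.univ : Finset ι).card) ?_
  rw [← hd, mul_assoc, mul_comm M.det, ha, mul_zero]

/-- Cancelling the matrix. -/
theorem IsRel.eq_of_mul_eq [DecidableEq ι] (h : IsRel C M) {e : ℕ}
    (he : ∀ a : A, (p : LRing p m) ^ e • a = 0)
    {U V : Matrix ι ι (LRing p m)} (hUV : U * M = V * M) : U = V := by
  have h1 : (U - V) * M * M.adjugate = 0 := by rw [sub_mul, hUV, sub_self, zero_mul]
  rw [Matrix.mul_assoc, mul_adjugate, Matrix.mul_smul, Matrix.mul_one] at h1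
  ext i j
  refine sub_eq_zero.1 (h.det_regular he ?_)
  have h2 := congrFun (congrFun h1 i) j
  rw [Matrix.smul_apply, Matrix.sub_apply, Matrix.zero_apply, smul_eq_mul, mul_comm] at h2
  exact h2

/-- Relation matrices of one tuple. -/
theorem IsRel.associated_of_eq [DecidableEq ι] {M' : Matrix ι ι (LRing p m)} (h : IsRel C M)
    (h' : IsRel C M')
    {e : ℕ} (he : ∀ a : A, (p : LRing p m) ^ e • a = 0) : Associated M.det M'.det := by
  choose U hU using fun j => h.span (M' j) (h'.rel j)
  choose V hV using fun j => h'.span (M j) (h.rel j)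
  have hU' : M' = Matrix.of U * M := funext hU
  have hV' : M = Matrix.of V * M' := funext hV
  have h1 : Matrix.of V * Matrix.of U = 1 := h.eq_of_mul_eq he (by
    rw [Matrix.mul_assoc, ← hU', ← hV', Matrix.one_mul])
  have h2 : IsUnit (Matrix.of U).det := IsUnit.of_mul_eq_one (Matrix.of V).det (by
    rw [mul_comm, ← det_mul, h1, det_one])
  exact ⟨h2.unit, by rw [hU', det_mul, IsUnit.unit_spec, mul_comm]⟩

/-- Renumbering. -/
theorem IsRel.reindex (h : IsRel C M) (e : κ ≃ ι) : IsRel (C ∘ e) (M.submatrix e e) := by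
  refine ⟨fun a => ?_, fun j => ?_, fun f hf => ?_⟩
  · obtain ⟨f, hf⟩ := h.gen a
    exact ⟨f ∘ e, by rw [← hf, ← e.sum_comp fun l => f l • C l]; rfl⟩
  · exact (e.sum_comp fun l => M (e j) l • C l).trans (h.rel _)
  · obtain ⟨c, hc⟩ := h.span (f ∘ e.symm) (by
      rw [← hf, ← e.sum_comp fun l => (f ∘ e.symm) l • C l]
      simp)
    refine ⟨c ∘ e, funext fun k => ?_⟩
    have h1 := congrFun hc (e k)
    rw [Function.comp_apply, Equiv.symm_apply_apply] at h1
    rw [h1]
    simp only [vecMul, dotProduct, submatrix_apply, Function.comp_apply]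
    exact (e.sum_comp fun l => c l * M l (e k)).symm

/-- Adding redundant generators. -/
theorem IsRel.concat (h : IsRel C M) {C' : κ → A} {a : Matrix κ ι (LRing p m)}
    (ha : ∀ k, C' k = ∑ l, a k l • C l) :
    IsRel (Sum.elim C C') (fromBlocks M 0 (-a) 1) := by
  refine ⟨fun x => ?_, ?_, fun f hf => ?_⟩
  · obtain ⟨f, hf⟩ := h.gen x
    exact ⟨Sum.elim f 0, by simp [hf]⟩
  · rintro (j | k)
    · simp [h.rel]
    · simp [Matrix.one_apply, ha]
  · set f₁ := f ∘ Sum.inl
    set f₂ := f ∘ Sum.inr
    obtain ⟨c, hc⟩ := h.span (f₁ + f₂ ᵥ* a) (by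
      rw [← hf, Fintype.sum_sum_type]
      simp only [Pi.add_apply, add_smul, Finset.sum_add_distrib, vecMul, dotProduct,
        Finset.sum_smul, mul_smul, Sum.elim_inl, Sum.elim_inr, ha, Finset.smul_sum]
      exact congrArg _ Finset.sum_comm)
    refine ⟨Sum.elim c f₂, funext fun i => ?_⟩
    rcases i with j | k
    · have h1 := congrFun hc j
      simp only [Pi.add_apply] at h1
      simp only [vecMul_fromBlocks, Sum.elim_inl, Sum.elim_comp_inl, Sum.elim_comp_inr]
      rw [Pi.add_apply, ← h1, vecMul_neg, Pi.neg_apply, add_neg_cancel_right]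
      rfl
    · simp [vecMul_fromBlocks, f₂]

/-- **The determinant depends only on the module.** -/
theorem IsRel.associated {C' : κ → A} {M' : Matrix κ κ (LRing p m)} (h : IsRel C M)
    (h' : IsRel C' M') {e : ℕ} (he : ∀ a : A, (p : LRing p m) ^ e • a = 0) :
    Associated M.det M'.det := by
  choose a ha using fun k => h.gen (C' k)
  choose b hb using fun l => h'.gen (C l)
  have h1 := h.concat (C' := C') (a := Matrix.of a) fun k => (ha k).symm
  have h2 := (h'.concat (C' := C) (a := Matrix.of b) fun l => (hb l).symm).reindex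
    (Equiv.sumComm ι κ)
  rw [show Sum.elim C' C ∘ Equiv.sumComm ι κ = Sum.elim C C' from
    funext fun i => by rcases i <;> rfl] at h2
  have h3 := h1.associated_of_eq h2 he
  rw [det_submatrix_equiv_self, det_fromBlocks_zero₁₂, det_fromBlocks_zero₁₂, det_one,
    mul_one, det_one, mul_one] at h3
  exact h3

/-- **Quotients.** -/
theorem IsRel.det_dvd_of_surjective {B : Type*} [AddCommGroup B] [Module (LRing p m) B]
    (φ : A →ₗ[LRing p m] B) (hφ : Function.Surjective φ) {C' : κ → B}
    {M' : Matrix κ κ (LRing p m)} (h : IsRel C M) (h' : IsRel C' M') : M'.det ∣ M.det := by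
  choose a ha using fun k => h.gen (hφ (C' k)).choose
  choose b hb using fun l => h'.gen (φ (C l))
  have hcat := (h'.concat (C' := φ ∘ C) (a := Matrix.of b) fun l => (hb l).symm).reindex
    (Equiv.sumComm ι κ)
  rw [show Sum.elim C' (φ ∘ C) ∘ Equiv.sumComm ι κ = Sum.elim (φ ∘ C) C' from
    funext fun i => by rcases i <;> rfl] at hcat
  have hrows : ∀ i, ∑ j, fromBlocks M 0 (-Matrix.of a) 1 i j • Sum.elim (φ ∘ C) C' j = 0 := by
    have hφs : ∀ f : ι → LRing p m, ∑ l, f l • φ (C l) = φ (∑ l, f l • C l) := fun f => by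
      rw [map_sum]
      exact Finset.sum_congr rfl fun l _ => (map_smul φ _ _).symm
    rintro (j | k)
    · simp [hφs, h.rel]
    · simp [Matrix.one_apply, hφs, ha, (hφ (C' k)).choose_spec]
  choose U hU using fun i => hcat.span _ (hrows i)
  have hU' := congrArg Matrix.det (show fromBlocks M 0 (-Matrix.of a) 1 = Matrix.of U * _ from
    funext hU)
  rw [det_fromBlocks_zero₁₂, det_one, mul_one, det_mul, det_submatrix_equiv_self,
    det_fromBlocks_zero₁₂, det_one, mul_one] at hU'
  exact hU' ▸ dvd_mul_left _ _

/-- **Existence of a square matrix of relations.** -/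
theorem exists_isRel
    (hfix : ∀ a : A, varR p m • a = 0 → ∃ b, a = nuR p m • b) (C : ι → A)
    (hC : ∀ a : A, ∃ f : ι → LRing p m, ∑ l, f l • C l = a) :
    ∃ M : Matrix ι ι (LRing p m), IsRel C M := by
  -- the relations and their constant terms
  let V := ι → LRing p m
  let π : V →+ A :=
    { toFun := fun f => ∑ l, f l • C l
      map_zero' := Finset.sum_eq_zero fun l _ => zero_smul (LRing p m) (C l)
      map_add' := fun f g => by
        rw [← Finset.sum_add_distrib]
        exact Finset.sum_congr rfl fun l _ => add_smul (f l) (g l) (C l) }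
  have hπsmul : ∀ (r : LRing p m) (f : V), π (r • f) = r • π f := fun r f => by
    show ∑ l, (r * f l) • C l = r • ∑ l, f l • C l
    simp [mul_smul, Finset.smul_sum]
  let Rel : Submodule ℤ_[p] V :=
    { carrier := {f | π f = 0}
      add_mem' := fun {f g} hf hg => by
        rw [Set.mem_ofPred_eq, map_add, hf, hg, add_zero]
      zero_mem' := map_zero π
      smul_mem' := fun z f hf => by
        show π (z • f) = 0
        rw [show z • f = cls p m (Polynomial.C z) • f from funext fun l => smul_eq_cls z (f l),
          hπsmul, show π f = 0 from hf, smul_zero] }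
  let ε : V →ₗ[ℤ_[p]] (ι → ℤ_[p]) :=
    { toFun := fun f l => aug p m (f l)
      map_add' := fun f g => funext fun l => map_add _ _ _
      map_smul' := fun z f => funext fun l => by
        show aug p m (z • f l) = z * aug p m (f l)
        rw [smul_eq_cls, map_mul, aug_cls, Polynomial.coeff_C_zero] }
  obtain ⟨s, bas⟩ := Submodule.basisOfPid (Pi.basisFun ℤ_[p] ι) (Rel.map ε)
  have hs : s ≤ Fintype.card ι := by
    have := (bas.linearIndependent.map' (Rel.map ε).subtype
      (Submodule.ker_subtype _)).fintype_card_le_finrank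
    simpa using this
  obtain ⟨emb⟩ : Nonempty (Fin s ↪ ι) :=
    Function.Embedding.nonempty_of_card_le (by simpa using hs)
  choose row hrow hεrow using fun k => Submodule.mem_map.1 (bas k).2
  let M : Matrix ι ι (LRing p m) := Function.extend emb row 0
  have hM : ∀ j, π (M j) = 0 := fun j => by
    by_cases hj : ∃ k, emb k = j
    · obtain ⟨k, rfl⟩ := hj
      rw [show M (emb k) = row k from emb.injective.extend_apply row 0 k]
      exact hrow k
    · rw [show M j = (0 : ι → V) j from Function.extend_apply' _ _ _ hj]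
      exact map_zero π
  let row' : (ι → LRing p m) →ₗ[ℤ_[p]] V :=
    (Matrix.vecMulLinear M).restrictScalars ℤ_[p]
  -- one step
  have hstep : ∀ f ∈ Rel, ∃ y ∈ LinearMap.range row', ∃ f' ∈ Rel, f = y + varR p m • f' := by
    intro f hf
    have h1 : ε f ∈ Rel.map ε := Submodule.mem_map_of_mem hf
    let co := bas.repr ⟨ε f, h1⟩
    set y := row' (Function.extend emb (fun k => cls p m (Polynomial.C (co k))) 0)
    have hεy : ε y = ε f := by
      have h2 := congrArg Subtype.val (bas.sum_repr ⟨ε f, h1⟩)
      simp only [Submodule.coe_sum, Submodule.coe_smul] at h2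
      rw [← h2]
      refine funext fun l => ?_
      show aug p m
        (∑ j, Function.extend emb (fun k => cls p m (Polynomial.C (co k))) 0 j * M j l) = _
      rw [← Finset.sum_subset (Finset.subset_univ (Finset.univ.map emb)) (fun j _ hj => by
        rw [Function.extend_apply' _ _ _ (by simpa using hj), Pi.zero_apply, zero_mul]),
        Finset.sum_map, map_sum, Finset.sum_apply]
      refine Finset.sum_congr rfl fun k _ => ?_
      rw [emb.injective.extend_apply, show M (emb k) = row k from
        emb.injective.extend_apply row 0 k, map_mul, aug_cls, Polynomial.coeff_C_zero,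
        Pi.smul_apply, ← hεrow k]
      rfl
    choose g hg using fun l => exists_eq_aug_add ((f - y) l)
    have hgeq : f - y = varR p m • g := funext fun l => by
      rw [hg l, show aug p m ((f - y) l) = ε (f - y) l from rfl, map_sub, hεy, sub_self,
        Pi.zero_apply, map_zero, map_zero, zero_add]
      rfl
    have hy0 : π y = 0 := by
      show π (Matrix.vecMul _ M) = 0
      rw [show Matrix.vecMul _ M = ∑ j, _ • M j from Matrix.vecMul_eq_sum _ _, map_sum]
      exact Finset.sum_eq_zero fun j _ => by rw [hπsmul, hM, smul_zero]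
    obtain ⟨b, hb⟩ := hfix (π g) (by
      rw [← hπsmul, ← hgeq, map_sub, show π f = 0 from hf, hy0, sub_zero])
    obtain ⟨w, hw⟩ := hC b
    refine ⟨y, ⟨_, rfl⟩, g - nuR p m • w, ?_, ?_⟩
    · show π _ = 0
      rw [map_sub, hπsmul, show π w = b from hw, hb, sub_self]
    · rw [smul_sub, smul_smul, varR_mul_nuR, zero_smul, sub_zero, ← hgeq, add_sub_cancel]
  -- iteration and Nakayama
  have hiter : ∀ k, ∀ f ∈ Rel, ∃ y ∈ LinearMap.range row', ∃ f' ∈ Rel,
      f = y + varR p m ^ k • f' := by
    intro k
    induction k with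
    | zero => exact fun f hf => ⟨0, zero_mem _, f, hf, by rw [pow_zero, one_smul, zero_add]⟩
    | succ k ih =>
      intro f hf
      obtain ⟨y, hy, f₁, hf₁, rfl⟩ := ih f hf
      obtain ⟨y', ⟨c, hc⟩, f₂, hf₂, rfl⟩ := hstep f₁ hf₁
      refine ⟨y + varR p m ^ k • y', add_mem hy ⟨varR p m ^ k • c, ?_⟩, f₂, hf₂, ?_⟩
      · rw [← hc]
        exact (Matrix.vecMulLinear M).map_smul _ c
      · rw [pow_succ, mul_smul, smul_add, add_assoc]
  have : Module.Finite ℤ_[p] V := inferInstance
  have : Module.Finite ℤ_[p] Rel := Module.Finite.of_fg (IsNoetherian.noetherian Rel)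
  have htop := eq_top_of_le_sup (N := (LinearMap.range row').comap Rel.subtype) fun f => by
    obtain ⟨y, hy, f', hf', hfy⟩ := hiter (p ^ m) f.1 f.2
    obtain ⟨d, hd⟩ := Ideal.mem_span_singleton.1
      (show varR p m ^ (p ^ m) ∈ Ideal.span {(p : LRing p m)} by
        simpa [varR] using X_pow_mem_span (m := m) 1)
    have hz : d • f' ∈ Rel := by
      show π (d • f') = 0
      rw [hπsmul, show π f' = 0 from hf', smul_zero]
    have hps : (p : ℤ_[p]) • (d • f') = varR p m ^ (p ^ m) • f' := by
      rw [hd, mul_smul]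
      refine funext fun l => ?_
      show (p : ℤ_[p]) • (d • f') l = (p : LRing p m) * (d • f') l
      rw [smul_eq_cls, map_natCast, map_natCast]
    have hyRel : y ∈ Rel := by
      rw [← add_sub_cancel_right y ((p : ℤ_[p]) • (d • f')), hps, ← hfy, ← hps]
      exact sub_mem f.2 (Rel.smul_mem _ hz)
    refine ⟨⟨y, hyRel⟩, hy, ⟨_, hz⟩, Subtype.ext ?_⟩
    show f.1 = y + (p : ℤ_[p]) • (d • f')
    rw [hps, hfy]
  refine ⟨M, ⟨hC, hM, fun f hf => ?_⟩⟩
  obtain ⟨c, hc⟩ := (show (⟨f, hf⟩ : Rel) ∈ (LinearMap.range row').comap Rel.subtype by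
    rw [htop]; trivial)
  exact ⟨c, hc.symm⟩

end FA.GaussTower
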