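import Fermat.Agent.GaussTower.Base
import Fermat.Agent.GaussTower.Lattice
import Fermat.Agent.GaussKolyvagin.Scalar

/-!
# One step of the descent in a level

`Lvl.St` is a state of the descent: primes in the classes of the first generators and the
derivative class of the auxiliary prime.

* `exists_row`: the transforms of its orders are a combination of the relations;
* `exists_step`: the next prime, with the pivot prescribed.
-/

set_option autoImplicit false
set_option linter.unusedSectionVars false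
set_option linter.style.haveILetI false

noncomputable section

open Finset NumberField IsDedekindDomain FA.ArtinRec FA.AmbClass Matrix
open scoped Classical

namespace FA.GaussTower

open FA.GaussKolyvagin (Setup IsAux IsAdm IsKappa IsCycBase exists_prime exists_replace
  exists_isKappa_base isDeg1_one ord_natCast_eq_one coprime_of_dvd_sub_one)
open FA.IwasawaStructure (expo)
open FA.IwasawaControl (pLvl)
open FA.Kolyvagin (IsDeg1 LogAt dlog dlog_eq exists_logAt gen gen_spec exists_galPrime_eq)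
open LRing

variable {p : ℕ} [hp : Fact p.Prime] {m k : ℕ} {b : Brn p}
  {F : Type} [Field F] [NumberField F] [IsCyclotomicExtension {p ^ (m + 1)} ℚ F]

/-- A prime ideal contains at most one prime number. -/
theorem natCast_notMem_of_mem {K : Type*} [Field K] [NumberField K] {a c : ℕ} (ha : a.Prime)
    (hc : c.Prime) (hac : a ≠ c) {w : HeightOneSpectrum (𝓞 K)} (h : (a : 𝓞 K) ∈ w.asIdeal) :
    (c : 𝓞 K) ∉ w.asIdeal := fun h' => by
  obtain ⟨x, y, hxy⟩ :=
    (Nat.isCoprime_iff_coprime.2 ((Nat.coprime_primes ha hc).2 hac)).map (Int.castRingHom (𝓞 K))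
  rw [map_natCast, map_natCast] at hxy
  refine w.isPrime.ne_top ((Ideal.eq_top_iff_one _).2 ?_)
  rw [← hxy]
  exact add_mem (Ideal.mul_mem_left _ _ h) (Ideal.mul_mem_left _ _ h')

namespace Lvl

variable (l : Lvl b m F)

theorem trOrd_mul (v : HeightOneSpectrum (𝓞 F)) (x y : Fˣ) :
    l.trOrd v (x * y) = l.trOrd v x + l.trOrd v y := by
  rw [trOrd, map_mul, trDiv_mul]
  rfl

theorem trOrd_pow (v : HeightOneSpectrum (𝓞 F)) (x : Fˣ) (e : ℕ) :
    l.trOrd v (x ^ e) = (e : LRing p m) * l.trOrd v x := by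
  simpa using l.trOrd_prod (κ := Unit) Finset.univ v (fun _ => x) (fun _ => e)

theorem red_trOrd_eq_zero {v : HeightOneSpectrum (𝓞 F)} {x : Fˣ}
    (h : ∀ σ : F ≃ₐ[ℚ] F, ((p ^ k : ℕ) : ℤ) ∣ ord (galPrime σ v) x) :
    red p m k (l.trOrd v x) = 0 := by
  rw [trOrd, trDiv, ← map_zero (red p m k), ← map_zero l.tr]
  refine l.red_tr_congr fun σ => ?_
  rw [toAdd_ordHom, Pi.zero_apply, Int.cast_zero, ZMod.intCast_zmod_eq_zero_iff_dvd]
  exact h σ

/-- The automorphism moving the eigenvalues apart. -/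
theorem exists_sigma : ∃ (σa : F ≃ₐ[ℚ] F) (X : ℕ),
    (∀ z : F, z ^ p = 1 → σa z = z ^ b.g) ∧ ¬ p ∣ X ∧ (X : ZMod p) ≠ 1 ∧ (X : ZMod p) ≠ b.g ∧
    (X : ZMod p) ^ 2 ≠ b.g ∧ (X : ZMod p) = l.chiP σa ∧
    ∀ C : ClassGroup (𝓞 F), l.pr (Additive.ofMul (galCl σa C)) = X • l.pr (Additive.ofMul C) := by
  haveI : NeZero (p ^ (m + 1)) := ⟨pow_ne_zero _ hp.out.ne_zero⟩
  set σa := l.γ ^ p ^ m
  have htame : σa ^ (p - 1) = 1 := by
    rw [← pow_mul, mul_comm, show (p - 1) * p ^ m = phiN p m from rfl, ← l.hγ,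
      pow_orderOf_eq_one]
  have hexpo : ((expo (p ^ (m + 1)) σa : ℕ) : ZMod p) = b.g := by
    rw [l.hexp, FA.IwasawaMinus.res, ZMod.natCast_val,
      ← ZMod.castHom_apply (h := dvd_pow_self p m.succ_ne_zero) (R := ZMod p), map_pow,
      map_natCast, ZMod.pow_card_pow]
  set N := pLvl p F + 1
  set X := (PadicInt.toZModPow N (aug p m (l.chi σa))).val with hXdef
  haveI : NeZero (p ^ N) := ⟨pow_ne_zero _ hp.out.ne_zero⟩
  have hN : 0 < N := Nat.succ_pos _
  have hred : red p m N (X : LRing p m) = red p m N (l.chi σa) := by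
    rw [hXdef, red_natCast_val, ← l.chi_of_tame htame]
  have hXchi : (X : ZMod p) = l.chiP σa := by
    have h := congrArg (toResidue p m hN) hred
    rw [toResidue_red, toResidue_red, map_natCast, map_natCast] at h
    exact h
  have hXg : (X : ZMod p) = (b.g : ZMod p) ^ b.i := by rw [hXchi, l.chiP_eq, hexpo]
  refine ⟨σa, X, fun z hz => ?_, fun h => ?_, ?_, ?_, ?_, hXchi, fun C => ?_⟩
  · rw [IsCyclotomicExtension.Rat.galEquivZMod_apply_of_pow_eq (p ^ (m + 1)) F σa
      (show z ^ p ^ (m + 1) = 1 by rw [pow_succ', pow_mul, hz, one_pow])]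
    refine pow_eq_pow_of_modEq ((ZMod.natCast_eq_natCast_iff _ _ _).1 ?_) hz
    exact hexpo
  · exact pow_ne_zero b.i (FA.IwasawaMinus.gen_ne_zero b.hg)
      (hXg.symm.trans ((ZMod.natCast_eq_zero_iff _ _).2 h))
  · rw [hXg, ← pow_zero (b.g : ZMod p)]
    exact pow_weight_ne b (Nat.zero_le 1)
  · rw [hXg]
    simpa using pow_weight_ne b (e := 1) le_rfl
  · intro h
    rw [hXg, ← pow_mul] at h
    have h1 : (b.g : ZMod p) ^ (2 * b.i - 1) = 1 := by
      refine mul_right_cancel₀ (FA.IwasawaMinus.gen_ne_zero b.hg) ?_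
      rw [one_mul, ← pow_succ, show 2 * b.i - 1 + 1 = b.i * 2 by have := b.hi3; omega, h]
    have h2 := FA.IwasawaMinus.orderOf_gen_mod b.hg ▸ orderOf_dvd_of_pow_eq_one h1
    obtain ⟨d, hd⟩ := h2
    obtain ⟨c, hc⟩ := hp.out.odd_of_ne_two b.ne_two
    have := b.hi3
    have : 2 * c * d = 2 * b.i - 1 := by rw [hd, hc]; simp
    rw [mul_assoc] at this
    omega
  · rw [pr_galCl, ← l.smul_congr (Nat.le_succ _) hred, Nat.cast_smul_eq_nsmul]

variable {Ω : Type*} [Field Ω] [CharZero Ω] [IsAlgClosed Ω] [Algebra.IsAlgebraic ℚ Ω]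
  {ι : F →+* Ω}

/-- **The new prime in a class.** -/
theorem exists_new (hι : IsCycBase (p ^ (m + 1)) ι) {c : ℕ} (hs : Setup p (p ^ (m + 1)) k c)
    {T : Finset ℕ} (hT : ∀ s ∈ T, IsAdm p (p ^ (m + 1)) k s) {r : ℕ}
    (hr : r.Prime) (a : l.A) {ν : Type*} [Fintype ν] (μ : ν → Fˣ)
    (hindep : ∀ e : ν → ℕ, (∃ y : Fˣ, y ^ p = ∏ i, l.eta (μ i) ^ e i) → ∀ i, p ∣ e i)
    (lam : ν → ZMod p) {bad : Set ℕ} (hbad : bad.Finite) :
    ∃ (q : ℕ) (v : HeightOneSpectrum (𝓞 F)), q ∉ bad ∧ IsAdm p (p ^ (m + 1)) k q ∧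
      (∀ s ∈ T, s ∣ q - 1) ∧ q ≠ r ∧ (∃ ρ : ℕ, ρ ^ (p ^ k * p ^ (m + 1)) ≡ r [MOD q]) ∧
      IsDeg1 (p ^ k) v q ∧ l.prCls v = a ∧
      ∀ i j, LogAt v q (l.eta (μ i)) j → (p ∣ j ↔ lam i = 0) := by
  haveI := IsCyclotomicExtension.isGalois {p ^ (m + 1)} ℚ F
  obtain ⟨σa, X, hσ, hX0, hX1, hXa, hX2, hXchi, hfX⟩ := l.exists_sigma
  obtain ⟨q, v, hqb, hq, hqT, hqr, hρ, hN, -, hcls, hlog⟩ :=
    exists_prime hι hs hT hr hσ
      (fun h => FA.IwasawaMinus.gen_ne_zero b.hg ((ZMod.natCast_eq_zero_iff _ _).2 h))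
      hX0 hX1 hXa hX2 (K := pLvl p F)
      (fun x : l.A => by
        rw [← Nat.cast_smul_eq_nsmul (LRing p m), Nat.cast_pow]
        exact l.natCast_pow_smul x)
      l.pr l.pr_surjective hfX a (fun i => l.eta (μ i)) (fun i => l.galU_eta (μ i) hXchi)
      hindep lam hbad
  exact ⟨q, v, hqb, hq, hqT, hqr, hρ,
    ⟨hq.prime, hN, hq.dvd_pow, fun _ => ord_natCast_eq_one hι hs.pos.ne' hq.prime
      (coprime_of_dvd_sub_one hq.prime hq.dvd_base) v (hN ▸ Ideal.absNorm_mem v.asIdeal)⟩,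
    hcls, hlog⟩

variable (hι : IsCycBase (p ^ (m + 1)) ι) (hs : Setup p (p ^ (m + 1)) k b.g)

/-- **A state of the descent.** -/
structure St (l : Lvl b m F) (ι : F →+* Ω) (k : ℕ) {t : ℕ} (C : Fin (t + 1) → l.A)
    (j : Fin (t + 1)) where
  /-- the chosen prime numbers -/
  T : Finset ℕ
  /-- a generator for the auxiliary prime -/
  gg : ℕ
  /-- the primes -/
  w : Fin (t + 1) → HeightOneSpectrum (𝓞 F)
  /-- their norms -/
  q : Fin (t + 1) → ℕ
  /-- the class -/
  x : Fˣ
  hT : ∀ s ∈ T, IsAdm p (p ^ (m + 1)) k s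
  hA : IsAux (p ^ (m + 1)) T (q 0) gg
  hdeg : ∀ i ≤ j, IsDeg1 1 (w i) (q i)
  hcls : ∀ i ≤ j, l.prCls (w i) = C i
  hinj : Set.InjOn q (Set.Iic j)
  hTq : ∀ s, s ∈ T ↔ ∃ i, 0 < i ∧ i ≤ j ∧ q i = s
  hx : IsKappa Ω (p ^ (m + 1)) b.g (q 0) gg p k T (ι x)

variable {t : ℕ} {C : Fin (t + 1) → l.A} {j : Fin (t + 1)}

/-- The row of a state. -/
def St.row {l : Lvl b m F} {C : Fin (t + 1) → l.A} (S : St l ι k C j) (i : Fin (t + 1)) :
    LRing p m :=
  if i ≤ j then l.trOrd (S.w i) S.x else 0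

include hι hs in
/-- The orders of the class away from its primes. -/
theorem St.dvd_ord (S : St l ι k C j) (w : HeightOneSpectrum (𝓞 F))
    (hw : ∀ i ≤ j, (S.q i : 𝓞 F) ∉ w.asIdeal) : ((p ^ k : ℕ) : ℤ) ∣ ord w S.x := by
  refine IsKappa.dvd_ord hι hs S.hT S.hA S.hx w (fun s hs' => ?_) (hw 0 (Fin.zero_le j))
  obtain ⟨i, -, hi, rfl⟩ := (S.hTq s).1 hs'
  exact hw i hi

include hι hs in
/-- The primes of a state extend to a free family in all the classes. -/
theorem St.exists_ext (S : St l ι k C j) :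
    ∃ (W : Fin (t + 1) → HeightOneSpectrum (𝓞 F)) (Q : Fin (t + 1) → ℕ), Function.Injective Q ∧
      (∀ i, IsDeg1 1 (W i) (Q i)) ∧ (∀ i, l.prCls (W i) = C i) ∧
      ∀ i ≤ j, W i = S.w i ∧ Q i = S.q i := by
  suffices h : ∀ s : Finset (Fin (t + 1)), ∃ (W : Fin (t + 1) → HeightOneSpectrum (𝓞 F))
      (Q : Fin (t + 1) → ℕ), (∀ i ≤ j, W i = S.w i ∧ Q i = S.q i) ∧
      ∀ i, i ≤ j ∨ i ∈ s → IsDeg1 1 (W i) (Q i) ∧ l.prCls (W i) = C i ∧
        ∀ i', i' ≤ j ∨ i' ∈ s → Q i = Q i' → i = i' by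
    obtain ⟨W, Q, hWQ, h⟩ := h Finset.univ
    exact ⟨W, Q, fun i i' hii => (h i (Or.inr (Finset.mem_univ i))).2.2 i'
      (Or.inr (Finset.mem_univ i')) hii, fun i => (h i (Or.inr (Finset.mem_univ i))).1,
      fun i => (h i (Or.inr (Finset.mem_univ i))).2.1, hWQ⟩
  intro s
  induction s using Finset.induction_on with
  | empty =>
    refine ⟨S.w, S.q, fun i _ => ⟨rfl, rfl⟩, fun i hi => ?_⟩
    replace hi : i ≤ j := hi.resolve_right (Finset.notMem_empty i)
    exact ⟨S.hdeg i hi, S.hcls i hi,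
      fun i' hi' => S.hinj hi (hi'.resolve_right (Finset.notMem_empty i'))⟩
  | insert a s has ih =>
    obtain ⟨W, Q, hWQ, h⟩ := ih
    by_cases ha : a ≤ j ∨ a ∈ s
    · refine ⟨W, Q, hWQ, fun i hi => ?_⟩
      have hmem : ∀ i, i ≤ j ∨ i ∈ insert a s → i ≤ j ∨ i ∈ s := fun i hi => by
        rcases hi with hi | hi
        · exact Or.inl hi
        · rcases Finset.mem_insert.1 hi with rfl | hi
          exacts [ha, Or.inr hi]
      exact ⟨(h i (hmem i hi)).1, (h i (hmem i hi)).2.1,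
        fun i' hi' => (h i (hmem i hi)).2.2 i' (hmem i' hi')⟩
    obtain ⟨q, v, hqb, -, -, -, -, hv, hcls, -⟩ := l.exists_new hι hs
      (T := ∅) (by simp) Nat.prime_two (C a) (ν := Empty) Empty.elim (fun _ _ i => i.elim)
      Empty.elim (Set.finite_range Q)
    have hold : ∀ i, i ≤ j ∨ i ∈ s → i ≠ a := fun i hi hia => ha (hia ▸ hi)
    refine ⟨Function.update W a v, Function.update Q a q, fun i hi => ?_, fun i hi => ?_⟩
    · rw [Function.update_of_ne (hold i (Or.inl hi)), Function.update_of_ne (hold i (Or.inl hi))]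
      exact hWQ i hi
    have hcase : ∀ i, i ≤ j ∨ i ∈ insert a s → i = a ∨ (i ≠ a ∧ (i ≤ j ∨ i ∈ s)) := fun i hi => by
      rcases eq_or_ne i a with h | h
      · exact Or.inl h
      · exact Or.inr ⟨h, hi.imp_right fun h' => (Finset.mem_insert.1 h').resolve_left h⟩
    rcases hcase i hi with rfl | ⟨hia, hi'⟩
    · rw [Function.update_self, Function.update_self]
      refine ⟨⟨hv.prime, hv.norm, one_dvd _, hv.ord_r⟩, hcls, fun i' hi' he => ?_⟩
      by_contra hne
      rw [Function.update_of_ne (Ne.symm hne)] at he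
      exact hqb ⟨i', he.symm⟩
    · rw [Function.update_of_ne hia, Function.update_of_ne hia]
      refine ⟨(h i hi').1, (h i hi').2.1, fun i' hi'' he => ?_⟩
      rcases hcase i' hi'' with rfl | ⟨hia', hi'''⟩
      · rw [Function.update_self] at he
        exact absurd ⟨i, he⟩ hqb
      · rw [Function.update_of_ne hia'] at he
        exact (h i hi').2.2 i' hi''' he

omit hι hs in
include l in
/-- A place outside the orbits avoids the primes. -/
theorem notMem_of_isOff {W : Fin (t + 1) → HeightOneSpectrum (𝓞 F)} {Q : Fin (t + 1) → ℕ}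
    (hW : ∀ i, IsDeg1 1 (W i) (Q i)) {w : HeightOneSpectrum (𝓞 F)} (hw : IsOff W w)
    (i : Fin (t + 1)) : (Q i : 𝓞 F) ∉ w.asIdeal := fun hmem => by
  haveI := IsCyclotomicExtension.isGalois {p ^ (m + 1)} ℚ F
  obtain ⟨σ, hσ⟩ := exists_galPrime_eq (hW i).prime
    ((hW i).norm ▸ Ideal.absNorm_mem (W i).asIdeal) hmem
  exact hw i σ hσ

include hι hs in
/-- The transforms of the class along an extended family. -/
theorem St.red_trOrd (S : St l ι k C j) {W : Fin (t + 1) → HeightOneSpectrum (𝓞 F)}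
    {Q : Fin (t + 1) → ℕ} (hQ : Function.Injective Q) (hW : ∀ i, IsDeg1 1 (W i) (Q i))
    (hWQ : ∀ i ≤ j, W i = S.w i ∧ Q i = S.q i) (i : Fin (t + 1)) :
    red p m k (l.trOrd (W i) S.x) = red p m k (S.row i) := by
  haveI := IsCyclotomicExtension.isGalois {p ^ (m + 1)} ℚ F
  rw [St.row]
  split_ifs with hi
  · rw [(hWQ i hi).1]
  · rw [map_zero]
    refine l.red_trOrd_eq_zero fun σ => S.dvd_ord l hι hs _ fun i' hi' => ?_
    rw [← (hWQ i' hi').2]
    exact natCast_notMem_of_mem (hW i).prime (hW i').prime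
      (fun he => hi (hQ he ▸ hi'))
      (((hW i).gal σ).norm ▸ Ideal.absNorm_mem (galPrime σ (W i)).asIdeal)

variable {M : Matrix (Fin (t + 1)) (Fin (t + 1)) (LRing p m)}

include hι hs in
/-- **The row is a relation.** -/
theorem St.exists_row (hk : pLvl p F ≤ k) (hM : IsRel C M) (S : St l ι k C j) :
    ∃ c, S.row = c ᵥ* M := by
  haveI := IsCyclotomicExtension.isGalois {p ^ (m + 1)} ℚ F
  obtain ⟨W, Q, hQ, hW, hWC, hWQ⟩ := S.exists_ext l hι hs
  refine hM.span _ (Eq.trans (Finset.sum_congr rfl fun i _ => ?_) (l.sum_trOrd_smul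
    (isFam_of_norm hQ hW) hk fun w hw => S.dvd_ord l hι hs w fun i hi => by
      rw [← (hWQ i hi).2]
      exact notMem_of_isOff l hW hw i))
  rw [hWC, l.smul_congr hk (S.red_trOrd l hι hs hQ hW hWQ i)]

omit hι hs in
/-- A vector killed by the matrix of relations is zero. -/
theorem eq_zero_of_vecMul_eq_zero (hM : IsRel C M) {f : Fin (t + 1) → LRing p m}
    (h : f ᵥ* M = 0) : f = 0 := by
  funext i
  refine hM.det_regular (e := pLvl p F) (fun a => l.natCast_pow_smul a) ?_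
  have h1 := congrFun (congrArg (fun u => u ᵥ* M.adjugate) h) i
  simp only [vecMul_vecMul, mul_adjugate, vecMul_smul, vecMul_one, zero_vecMul, Pi.smul_apply,
    Pi.zero_apply, smul_eq_mul] at h1
  rwa [mul_comm]

omit hι hs in
/-- **Independence** of the lifts of the relations. -/
theorem indep_of_lift (hk : pLvl p F < k) (hM : IsRel C M)
    {W : Fin (t + 1) → HeightOneSpectrum (𝓞 F)} (hWC : ∀ i, l.prCls (W i) = C i) (hW : IsFam W)
    {μ : Fin (t + 1) → Fˣ}
    (hμ : ∀ i i', red p m k (l.trOrd (W i') (μ i)) = red p m k (M i i'))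
    (hμoff : ∀ i w, IsOff W w → ord w (μ i) = 0) (e : Fin (t + 1) → ℕ)
    (he : ∃ y : Fˣ, y ^ p = ∏ i, l.eta (μ i) ^ e i) (i : Fin (t + 1)) : p ∣ e i := by
  obtain ⟨y, hy⟩ := he
  have hyoff : ∀ w, IsOff W w → ((p ^ k : ℕ) : ℤ) ∣ ord w y := fun w hw => by
    have h : (p : ℤ) * ord w y = 0 := by
      rw [← ord_pow, hy, ord_prod]
      refine Finset.sum_eq_zero fun i _ => ?_
      rw [ord_pow, eta, ord_prod, Finset.sum_eq_zero, mul_zero]
      intro σ _
      rw [ord_pow, show w = galPrime σ⁻¹ (galPrime σ w) by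
        rw [← galPrime_mul, inv_mul_cancel, galPrime_one], ord_galU, hμoff i _ (hw.gal σ),
        mul_zero]
    rw [(mul_eq_zero.1 h).resolve_left (by exact_mod_cast hp.out.ne_zero)]
    exact dvd_zero _
  obtain ⟨c', hc'⟩ := hM.span (fun i' => l.trOrd (W i') y) (by
    simp only [← hWC]
    exact l.sum_trOrd_smul hW hk.le hyoff)
  set f : Fin (t + 1) → LRing p m := fun i => (e i : LRing p m) * l.theta
  have hdvd : ∀ i', ∃ E, ((f - (p : LRing p m) • c') ᵥ* M) i' = (p : LRing p m) ^ k * E := fun i' =>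
    red_eq_zero_iff.1 (by
      rw [sub_vecMul, smul_vecMul, Pi.sub_apply, Pi.smul_apply, ← congrFun hc' i', smul_eq_mul,
        ← l.trOrd_pow, hy, trOrd_prod, vecMul, dotProduct, map_sub, map_sum, map_sum, sub_eq_zero]
      refine Finset.sum_congr rfl fun i _ => ?_
      rw [trOrd_eta, ← mul_assoc, map_mul, ← hμ, ← map_mul])
  choose E hE using hdvd
  obtain ⟨c'', hc''⟩ := hM.span (fun i' => (p : LRing p m) ^ pLvl p F * E i') (by
    exact Finset.sum_eq_zero fun i' _ => by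
      rw [mul_comm, mul_smul, l.natCast_pow_smul, smul_zero])
  have h0 := eq_zero_of_vecMul_eq_zero l hM
    (f := f - (p : LRing p m) • c' - (p : LRing p m) ^ (k - pLvl p F) • c'') (by
      funext i'
      rw [sub_vecMul, Pi.sub_apply, smul_vecMul, Pi.smul_apply, hE, ← congrFun hc'' i',
        smul_eq_mul, ← mul_assoc, ← pow_add, Nat.sub_add_cancel hk.le, sub_self, Pi.zero_apply])
  refine l.dvd_of_red_mul_theta (red_eq_zero_iff.2 ⟨c' i +
    (p : LRing p m) ^ (k - pLvl p F - 1) * c'' i, ?_⟩)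
  have h1 := congrFun h0 i
  simp only [Pi.sub_apply, Pi.smul_apply, smul_eq_mul, Pi.zero_apply, f] at h1
  rw [show k - pLvl p F = k - pLvl p F - 1 + 1 by omega, pow_succ] at h1
  rw [pow_one]
  linear_combination h1

include hι hs in
/-- The comparison of the logarithms of a class and of the lifts of the relations. -/
theorem St.psi_eq (S : St l ι k C j) (hk : pLvl p F < k)
    {W : Fin (t + 1) → HeightOneSpectrum (𝓞 F)} {Q : Fin (t + 1) → ℕ} (hQ : Function.Injective Q)
    (hW : ∀ i, IsDeg1 1 (W i) (Q i)) (hWQ : ∀ i ≤ j, W i = S.w i ∧ Q i = S.q i)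
    {μ : Fin (t + 1) → Fˣ}
    (hμ : ∀ i i', red p m k (l.trOrd (W i') (μ i)) = red p m k (M i i'))
    (hμoff : ∀ i w, IsOff W w → ord w (μ i) = 0) {c : Fin (t + 1) → LRing p m}
    (hc : S.row = c ᵥ* M) {v : HeightOneSpectrum (𝓞 F)} {q : ℕ} (hv : IsDeg1 (p ^ k) v q) :
    (p : RMod p m k) ^ pLvl p F *
      (l.psi k v q S.x - ∑ i, red p m k (c i) * l.psi k v q (μ i)) = 0 := by
  choose e he using fun i => l.exists_tr_eq k (c i)
  set u : Fˣ := ∏ a : Fin (t + 1) × (F ≃ₐ[ℚ] F), galU a.2 (μ a.1) ^ e a.1 a.2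
  set z := S.x * u⁻¹
  have hzu : z * u = S.x := inv_mul_cancel_right _ _
  have htr : ∀ i', red p m k (l.trOrd (W i') u) = red p m k (S.row i') := fun i' => by
    rw [trOrd_prod, Fintype.sum_prod_type, map_sum, hc, vecMul, dotProduct, map_sum]
    refine Finset.sum_congr rfl fun i _ => ?_
    rw [map_mul, ← he i, ← hμ i i', ← map_mul, tr_apply, Finset.sum_mul, map_sum, map_sum]
    exact Finset.sum_congr rfl fun σ _ => by rw [trOrd_galU, Int.cast_natCast, mul_assoc]
  have hpsi : l.psi k v q u = ∑ i, red p m k (c i) * l.psi k v q (μ i) := by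
    rw [l.psi_prod hv, Fintype.sum_prod_type]
    refine Finset.sum_congr rfl fun i _ => ?_
    rw [← he i, tr_apply, map_sum, Finset.sum_mul]
    refine Finset.sum_congr rfl fun σ _ => ?_
    rw [l.psi_galU hv, Int.cast_natCast, map_mul, map_natCast, mul_assoc]
  have hz : l.psi k v q z = l.psi k v q S.x - ∑ i, red p m k (c i) * l.psi k v q (μ i) := by
    rw [← hpsi, eq_sub_iff_add_eq, ← l.psi_mul hv, hzu]
  rw [← hz]
  refine l.psi_eq_of_trOrd hv (vs := W) (by omega) (fun i' => ?_) fun w hw => ?_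
  · rw [show l.trOrd (W i') z = l.trOrd (W i') S.x - l.trOrd (W i') u by
        rw [eq_sub_iff_add_eq, ← trOrd_mul, hzu],
      map_sub, htr, S.red_trOrd l hι hs hQ hW hWQ i', sub_self]
  · have hu : ord w u = 0 := by
      rw [ord_prod]
      refine Finset.sum_eq_zero fun a _ => ?_
      rw [ord_pow, show w = galPrime a.2 (galPrime a.2⁻¹ w) by
        rw [← galPrime_mul, mul_inv_cancel, galPrime_one], ord_galU, hμoff a.1 _ (hw.gal _),
        mul_zero]
    have h1 := ord_mul w z u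
    rw [hzu, hu, add_zero] at h1
    rw [← h1]
    refine S.dvd_ord l hι hs w fun i hi => ?_
    rw [← (hWQ i hi).2]
    exact notMem_of_isOff l hW hw i

include hι hs in
/-- **One step of the descent**, with the pivot `L`. -/
theorem St.exists_step (hk : pLvl p F < k) (hM : IsRel C M) {i₀ : Fin t}
    (S : St l ι k C i₀.castSucc) {c : Fin (t + 1) → LRing p m} (hc : S.row = c ᵥ* M)
    (L : Fin (t + 1)) :
    ∃ (S' : St l ι k C i₀.succ) (Ψ : Fin (t + 1) → LRing p m),
      (∀ i, PadicInt.toZMod (aug p m (Ψ i)) = 0 ↔ i ≠ L) ∧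
      (p : LRing p m) ^ (k - pLvl p F) ∣ S'.row i₀.succ + ∑ i, c i * Ψ i := by
  haveI : NeZero (p ^ k) := ⟨pow_ne_zero _ hp.out.ne_zero⟩
  haveI := IsCyclotomicExtension.isGalois {p ^ (m + 1)} ℚ F
  have hk0 : 0 < k := by omega
  obtain ⟨W, Q, hQ, hW, hWC, hWQ⟩ := S.exists_ext l hι hs
  have hfam := isFam_of_norm hQ hW
  have hlift := fun i => l.exists_lift hfam hk.le (r := M i) (by simpa only [hWC] using hM.rel i)
  choose μ hμ hμoff using hlift
  obtain ⟨q, v, -, hq, hqT, hqr, ⟨ρ, hρ⟩, hv, hcls, hlog⟩ := l.exists_new hι hs S.hT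
    S.hA.prime (C i₀.succ) μ (indep_of_lift l hk hM hWC hfam hμ hμoff)
    (fun i => if i = L then 1 else 0) Set.finite_empty
  obtain ⟨r', g', vr', hA', hvr', hclsr, hdl⟩ := exists_replace hι hs S.hT S.hA
    (S.hdeg 0 (Fin.zero_le _)).norm hq hqT hqr.symm hρ
  have hqT' : q ∉ S.T := fun h => by
    have h1 := Nat.le_of_dvd (by have := hq.prime.two_le; omega) (hqT q h)
    have := hq.prime.two_le
    omega
  set T' := insert q S.T with hT'
  have hT'a : ∀ s ∈ T', IsAdm p (p ^ (m + 1)) k s := fun s hs' =>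
    (Finset.mem_insert.1 hs').elim (fun h => h ▸ hq) (S.hT s)
  have hr' : r' ∉ T' := hA'.notMem
  have hA'T := hA'.mono (Finset.subset_insert q S.T)
  obtain ⟨x₁, hx₁⟩ := exists_isKappa_base hι hs S.hT hA'T
  obtain ⟨x', hx'⟩ := exists_isKappa_base hι hs hT'a hA'
  set w' := Function.update (Function.update S.w i₀.succ v) 0 vr' with hw'
  set q' := Function.update (Function.update S.q i₀.succ q) 0 r' with hq'
  have hq'0 : q' 0 = r' := Function.update_self _ _ _
  have hw'0 : w' 0 = vr' := Function.update_self _ _ _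
  have hq's : q' i₀.succ = q := by
    rw [hq', Function.update_of_ne (Fin.succ_ne_zero i₀), Function.update_self]
  have hw's : w' i₀.succ = v := by
    rw [hw', Function.update_of_ne (Fin.succ_ne_zero i₀), Function.update_self]
  have hcase : ∀ i, i ≤ i₀.succ → i = 0 ∨ i = i₀.succ ∨
      (0 < i ∧ i ≤ i₀.castSucc ∧ q' i = S.q i ∧ w' i = S.w i) := fun i hi => by
    rcases eq_or_ne i 0 with h0 | h0
    · exact Or.inl h0
    rcases hi.eq_or_lt with h | h
    · exact Or.inr (Or.inl h)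
    refine Or.inr (Or.inr ⟨Fin.pos_iff_ne_zero.2 h0, Fin.le_castSucc_iff.2 h, ?_, ?_⟩)
    · rw [hq', Function.update_of_ne h0, Function.update_of_ne h.ne]
    · rw [hw', Function.update_of_ne h0, Function.update_of_ne h.ne]
  have hmemT : ∀ i, 0 < i → i ≤ i₀.castSucc → S.q i ∈ S.T := fun i h1 h2 =>
    (S.hTq _).2 ⟨i, h1, h2, rfl⟩
  let S' : St l ι k C i₀.succ :=
    { T := T'
      gg := g'
      w := w'
      q := q'
      x := x'
      hT := hT'a
      hA := hq'0 ▸ hA'
      hdeg := fun i hi => by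
        rcases hcase i hi with rfl | rfl | ⟨-, hi', e1, e2⟩
        · rw [hw'0, hq'0]
          exact isDeg1_one hι hs hA'.prime (hA'.coprime _ (Finset.mem_insert_self _ _)) hvr'
        · rw [hw's, hq's]
          exact ⟨hv.prime, hv.norm, one_dvd _, hv.ord_r⟩
        · rw [e1, e2]
          exact S.hdeg i hi'
      hcls := fun i hi => by
        rcases hcase i hi with rfl | rfl | ⟨-, hi', -, e2⟩
        · rw [hw'0, ← S.hcls 0 (Fin.zero_le _), prCls, prCls, hclsr]
        · rw [hw's, hcls]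
        · rw [e2]
          exact S.hcls i hi'
      hinj := by
        intro i hi i' hi' he
        rcases hcase i hi with rfl | rfl | ⟨h0, hle, e1, -⟩ <;>
          rcases hcase i' hi' with rfl | rfl | ⟨h0', hle', e1', -⟩
        · rfl
        · rw [hq'0, hq's] at he
          exact absurd (he ▸ Finset.mem_insert_self q S.T) hr'
        · rw [hq'0, e1'] at he
          exact absurd (he ▸ Finset.mem_insert_of_mem (hmemT _ h0' hle')) hr'
        · rw [hq'0, hq's] at he
          exact absurd (he ▸ Finset.mem_insert_self q S.T) hr'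
        · rfl
        · rw [hq's, e1'] at he
          exact absurd (he ▸ hmemT _ h0' hle') hqT'
        · rw [hq'0, e1] at he
          exact absurd (he.symm ▸ Finset.mem_insert_of_mem (hmemT _ h0 hle)) hr'
        · rw [hq's, e1] at he
          exact absurd (he.symm ▸ hmemT _ h0 hle) hqT'
        · rw [e1, e1'] at he
          exact S.hinj hle hle' he
      hTq := fun s => by
        rw [hT', Finset.mem_insert, S.hTq]
        constructor
        · rintro (rfl | ⟨i, h1, h2, rfl⟩)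
          · exact ⟨i₀.succ, Fin.succ_pos i₀, le_rfl, hq's⟩
          · refine ⟨i, h1, h2.trans i₀.castSucc_lt_succ.le, ?_⟩
            rw [hq', Function.update_of_ne h1.ne',
              Function.update_of_ne (h2.trans_lt i₀.castSucc_lt_succ).ne]
        · rintro ⟨i, h1, h2, rfl⟩
          rcases hcase i h2 with rfl | rfl | ⟨-, hle, e1, -⟩
          · exact absurd h1 (lt_irrefl 0)
          · exact Or.inl hq's
          · exact Or.inr ⟨i, h1, hle, e1.symm⟩
      hx := hq'0.symm ▸ hx' }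
  refine ⟨S', fun i => l.tr fun σ => ((dlog (p ^ k) (galPrime σ v) q (μ i)).val : ℤ),
    fun i => ?_, ?_⟩
  · obtain ⟨jj, hjj⟩ := exists_logAt hv (l.eta (μ i))
    have h := l.toResidue_psi hv hk0 (μ i) hjj
    rw [psi, toResidue_red] at h
    rw [h, ZMod.natCast_eq_zero_iff, hlog i jj hjj]
    simp
  -- the order of the new class at the new prime
  have hneg : red p m k (l.trOrd v x') = -l.psi k v q S.x := by
    rw [eq_neg_iff_add_eq_zero, psi, ← map_add, trOrd, trDiv, ← map_add, ← map_zero (red p m k),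
      ← map_zero l.tr]
    refine l.red_tr_congr fun σ => ?_
    have hvσ := hv.gal σ
    obtain ⟨jj, hjj⟩ := exists_logAt hvσ x₁
    have h := IsKappa.dvd_ord_add_log hι hs hT'a hA' (Finset.mem_insert_self q S.T) (galPrime σ v)
      (hvσ.norm ▸ Ideal.absNorm_mem _) hx' (y := x₁)
      (by rw [hT', Finset.erase_insert hqT']; exact hx₁) hjj
    rw [Pi.add_apply, toAdd_ordHom, Pi.zero_apply, Int.cast_add, Int.cast_natCast,
      ZMod.natCast_zmod_val, ← hdl _ hvσ.norm S.x x₁ S.hx hx₁, dlog_eq hvσ hjj, Int.cast_zero]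
    rw [← ZMod.intCast_zmod_eq_zero_iff_dvd, Int.cast_add, Int.cast_natCast] at h
    exact h
  have hrow : S'.row i₀.succ = l.trOrd v x' := by
    rw [St.row, if_pos le_rfl]
    show l.trOrd (w' i₀.succ) x' = _
    rw [hw's]
  rw [hrow]
  have hp0 := S.psi_eq l hι hs hk hQ hW hWQ hμ hμoff hc hv
  simp only [psi] at hp0 hneg
  simp only [← map_mul, ← map_sum, ← map_sub, ← map_pow, ← map_natCast (red p m k),
    red_eq_zero_iff] at hp0
  rw [← sub_eq_zero, sub_neg_eq_add, ← map_add, red_eq_zero_iff] at hneg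
  obtain ⟨E, hE⟩ := hp0
  have hd : l.tr (fun σ => ((dlog (p ^ k) (galPrime σ v) q S.x).val : ℤ)) -
      ∑ i, c i * l.tr (fun σ => ((dlog (p ^ k) (galPrime σ v) q (μ i)).val : ℤ)) =
      (p : LRing p m) ^ (k - pLvl p F) * E := by
    refine sub_eq_zero.1 (eq_zero_of_natCast_pow_mul (k := pLvl p F) ?_)
    rw [mul_sub, hE, ← mul_assoc, ← pow_add, Nat.add_sub_cancel' hk.le, sub_self]
  obtain ⟨E', hE'⟩ := (pow_dvd_pow (p : LRing p m) (Nat.sub_le k (pLvl p F))).trans hneg
  exact ⟨E' - E, by linear_combination hE' - hd⟩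

end Lvl

end FA.GaussTower
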