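import Fermat.Agent.GaussTower.Gal
import Fermat.Agent.GaussTower.Step
import Fermat.Agent.IwasawaControl.Control

/-!
# Two levels compared

For `n ≤ m` the extension of classes maps the weight part of the level `n` onto
`ν A_m`, `ν = ω_m / ω_n` (`phi_eq_nuH`, `exists_phi_eq`), semilinearly (`phi_smul`); hence a
square relation matrix of the level `m` gives one for this quotient of the level `n`
(`isRel_down`), and the determinants are comparable (`down_det_dvd`, `associated_down_det`).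
-/

set_option autoImplicit false
set_option linter.unusedSectionVars false
set_option linter.style.haveILetI false

noncomputable section

open NumberField IsDedekindDomain Polynomial Matrix FA.ArtinRec FA.AmbClass
open scoped Classical

namespace FA.GaussTower

open FA.CycloTower (actCl)
open FA.GaussKolyvagin (Setup isCycBase_cyclotomic)
open FA.IwasawaMinus (omega)
open FA.IwasawaControl (pLvl wPart)
open LRing

variable {p : ℕ} [hp : Fact p.Prime] {n m : ℕ} {b : Brn p}

/-- The weight parts for two names of the same level. -/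
theorem mem_wPart_congr {a c : ℕ} (h : a = c) {F : Type} [Field F] [NumberField F] [NeZero a]
    [NeZero c] [IsCyclotomicExtension {a} ℚ F] [IsCyclotomicExtension {c} ℚ F] {i : ℕ}
    {x : ClassGroup (𝓞 F)} : x ∈ wPart p a F i ↔ x ∈ wPart p c F i := by
  subst h
  rfl

namespace Lvl

/-- **A prime of degree one with norm `1` modulo a high power of `p` in a class.** -/
theorem exists_deg1 {m : ℕ} {F : Type} [Field F] [NumberField F]
    [IsCyclotomicExtension {p ^ (m + 1)} ℚ F] (l : Lvl b m F) (M : ℕ) (a : l.A) :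
    ∃ (q : ℕ) (v : HeightOneSpectrum (𝓞 F)), q.Prime ∧ Ideal.absNorm v.asIdeal = q ∧
      q ≡ 1 [MOD p ^ M] ∧ l.prCls v = a := by
  haveI : NeZero (p ^ (m + 1)) := ⟨pow_ne_zero _ hp.out.ne_zero⟩
  haveI : Algebra.IsAlgebraic ℚ (AlgebraicClosure F) :=
    Algebra.IsAlgebraic.trans ℚ F (AlgebraicClosure F)
  have hs : Setup p (p ^ (m + 1)) (M + 1) 2 := ⟨hp.out, b.hp5, M.succ_pos, le_rfl,
    (show 2 < p by have := b.hp5; omega).trans_le (Nat.le_self_pow m.succ_ne_zero p),
    fun h => b.ne_two ((Nat.prime_dvd_prime_iff_eq hp.out Nat.prime_two).1 h), ⟨m, rfl⟩⟩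
  obtain ⟨q, v, -, hq, -, -, -, hv, hcls, -⟩ := l.exists_new
    (isCycBase_cyclotomic (p ^ (m + 1)) F) hs (T := ∅) (by simp) Nat.prime_two a (ν := Empty)
    Empty.elim (fun _ _ i => i.elim) Empty.elim Set.finite_empty
  exact ⟨q, v, hq.prime, hv.norm,
    ((Nat.modEq_iff_dvd' hq.prime.one_le).2 ((pow_dvd_pow p M.le_succ).trans hq.dvd_pow)).symm,
    hcls⟩

section levels

variable {K L : Type} [Field K] [NumberField K] [IsCyclotomicExtension {p ^ (n + 1)} ℚ K]
  [Field L] [NumberField L] [IsCyclotomicExtension {p ^ (m + 1)} ℚ L] [Algebra K L]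
  (lK : Lvl b n K) (lL : Lvl b m L)

variable (K) in
/-- The extension of a class followed by the projection. -/
def extPr : Additive (ClassGroup (𝓞 K)) →+ lL.A :=
  lL.pr.comp (MonoidHom.toAdditive (ClassGroup.extendedHom (𝓞 K) (𝓞 L)))

theorem extPr_galCl {σ : L ≃ₐ[ℚ] L} {σ₀ : K ≃ₐ[ℚ] K}
    (hσ : ∀ z, σ (algebraMap K L z) = algebraMap K L (σ₀ z)) (c : ClassGroup (𝓞 K)) :
    lL.extPr K (Additive.ofMul (galCl σ₀ c)) = lL.chi σ • lL.extPr K (Additive.ofMul c) := by
  show lL.pr (Additive.ofMul (ClassGroup.extendedHom (𝓞 K) (𝓞 L) (galCl σ₀ c))) =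
    lL.chi σ • lL.pr (Additive.ofMul (ClassGroup.extendedHom (𝓞 K) (𝓞 L) c))
  rw [← lL.pr_galCl]
  exact congrArg (fun y => lL.pr (Additive.ofMul y))
    (FA.IwasawaControl.extendedHom_actCl hσ c)

include lK in
/-- **A split prime.** -/
theorem extPr_below (h : n ≤ m) {q : ℕ} (hq : q.Prime) {Q : HeightOneSpectrum (𝓞 L)}
    (hN : Ideal.absNorm Q.asIdeal = q) (hq1 : q ≡ 1 [MOD p ^ (m + 1)]) :
    Ideal.absNorm (belowP K Q).asIdeal = q ∧
      lL.extPr K (Additive.ofMul (primeCls (belowP K Q))) = nuH p n m • lL.prCls Q := by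
  haveI : IsScalarTower ℚ K L := IsScalarTower.of_algebraMap_eq' (Subsingleton.elim _ _)
  haveI : IsGalois ℚ L := IsCyclotomicExtension.isGalois {p ^ (m + 1)} ℚ L
  haveI : IsGalois K L := IsGalois.tower_top_of_isGalois ℚ K L
  haveI : Fact q.Prime := ⟨hq⟩
  have hqQ : (q : 𝓞 L) ∈ Q.asIdeal := hN ▸ Ideal.absNorm_mem Q.asIdeal
  have hqv : (q : 𝓞 K) ∈ (belowP K Q).asIdeal := by
    show algebraMap (𝓞 K) (𝓞 L) (q : 𝓞 K) ∈ Q.asIdeal
    rwa [map_natCast]
  have hNv : Ideal.absNorm (belowP K Q).asIdeal = q :=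
    FA.IwasawaControl.absNorm_eq_of_modEq hq
      (hq1.of_dvd (pow_dvd_pow p (show n + 1 ≤ m + 1 by omega))) _ hqv
  have hQm : ((p ^ (m + 1) : ℕ) : 𝓞 L) ∉ Q.asIdeal := fun h' => by
    obtain ⟨c, hc⟩ := (Nat.modEq_iff_dvd' hq.one_le).1 hq1.symm
    have h1 : ((q - 1 : ℕ) : 𝓞 L) ∈ Q.asIdeal := by
      rw [hc, Nat.cast_mul]
      exact Q.asIdeal.mul_mem_right _ h'
    rw [Nat.cast_sub hq.one_le, Nat.cast_one] at h1
    exact Q.isPrime.ne_top ((Q.asIdeal.eq_top_iff_one).2 (by simpa using Q.asIdeal.sub_mem hqQ h1))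
  obtain ⟨π, hπ⟩ := FA.Ext.exists_residue_hom (K := L) (q := q) (v := Q.asIdeal) hN
  have hle : (belowP K Q).asIdeal.map (algebraMap (𝓞 K) (𝓞 L)) ≤ Q.asIdeal := Ideal.map_comap_le
  have hprod := FA.IwasawaControl.map_eq_prod_smul Q.isPrime Q.ne_bot hle (hN.trans hNv.symm)
    fun g hg => FA.IwasawaControl.eq_one_of_smul_prime hπ Q.isPrime Q.ne_bot hQm hg
  have hext : ClassGroup.extendedHom (𝓞 K) (𝓞 L) (primeCls (belowP K Q)) =
      ∏ g : L ≃ₐ[K] L, actCl g (primeCls Q) :=
    FA.IwasawaControl.extendedHom_eq_prod_actCl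
      ⟨_, mem_nonZeroDivisors_iff_ne_zero.mpr (belowP K Q).ne_bot⟩
      ⟨_, mem_nonZeroDivisors_iff_ne_zero.mpr Q.ne_bot⟩ hprod
  refine ⟨hNv, ?_⟩
  show lL.pr (Additive.ofMul (ClassGroup.extendedHom (𝓞 K) (𝓞 L) (primeCls (belowP K Q)))) = _
  rw [hext, ofMul_prod, map_sum, ← lK.sum_chi_gal lL h, Finset.sum_smul]
  refine Finset.sum_congr rfl fun g _ => ?_
  rw [← FA.IwasawaControl.actCl_restrictScalars, prCls, ← lL.pr_galCl]
  rfl

/-- Scalars act through the lower level on what `ω_n` kills. -/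
theorem smul_eq_of_down (h : n ≤ m) {k : ℕ} (hk : pLvl p L ≤ k) {r r' : LRing p m}
    (hr : red p n k (down p h r) = red p n k (down p h r')) {y : lL.A}
    (hy : cls p m (omega n) • y = 0) : r • y = r' • y := by
  obtain ⟨d, hd⟩ := red_eq_iff.1 hr
  obtain ⟨d', rfl⟩ := down_surjective h d
  obtain ⟨e, he⟩ := (down_eq_zero_iff h).1
    (show down p h (r - r' - (p : LRing p m) ^ k * d') = 0 by
      rw [map_sub, map_sub, map_mul, map_pow, map_natCast, hd, sub_self])
  rw [← sub_eq_zero, ← sub_smul, eq_add_of_sub_eq he, add_smul, mul_comm, mul_smul, hy, smul_zero,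
    zero_add, mul_comm, mul_smul, lL.natCast_pow_smul_of_le hk, smul_zero]

include lK in
/-- A combination of the conjugates of a class under the extension. -/
theorem exists_extPr_sum (h : n ≤ m) (k : ℕ) (e : (K ≃ₐ[ℚ] K) → ℕ) :
    ∃ R : LRing p m, down p h R = lK.tr (fun σ => (e σ : ℤ)) ∧
      ∀ c : ClassGroup (𝓞 K), lL.extPr K (Additive.ofMul (∏ σ, galCl σ c ^ e σ)) =
        R • lL.extPr K (Additive.ofMul c) := by
  choose E hE using lK.exists_extend lL h
  refine ⟨∑ σ, (e σ : LRing p m) * lL.chi (E σ), ?_, fun c => ?_⟩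
  · rw [map_sum, tr_apply]
    exact Finset.sum_congr rfl fun σ _ => by
      rw [map_mul, map_natCast, lK.down_chi lL h (hE σ), Int.cast_natCast]
  · rw [ofMul_prod, map_sum, Finset.sum_smul]
    refine Finset.sum_congr rfl fun σ _ => ?_
    rw [ofMul_pow, map_nsmul, lL.extPr_galCl (hE σ), mul_smul, Nat.cast_smul_eq_nsmul]

/-- The extension on the weight parts. -/
def phi : lK.A →+ lL.A := (lL.extPr K).comp lK.val

/-- The extension of the projection of a class. -/
theorem phi_pr (h : n ≤ m) {c : ClassGroup (𝓞 K)}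
    (hc : cls p m (omega n) • lL.extPr K (Additive.ofMul c) = 0) :
    lK.phi lL (lK.pr (Additive.ofMul c)) = lL.extPr K (Additive.ofMul c) := by
  set k := pLvl p K + pLvl p L
  have hk : pLvl p K ≤ k := Nat.le_add_right _ _
  have hpr : lK.ofMem (lK.projCls k c) (lK.projCls_mem hk c) = lK.pr (Additive.ofMul c) := by
    rw [← lK.pr_val (lK.ofMem _ _), val_ofMem, projCls, ofMul_prod, map_sum,
      ← one_smul (LRing p n) (lK.pr (Additive.ofMul c)), ← lK.smul_congr hk
        (lK.red_tr_projExp.trans (map_one (red p n k)).symm), tr_apply, Finset.sum_smul]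
    refine Finset.sum_congr rfl fun σ _ => ?_
    rw [ofMul_pow, map_nsmul, Int.cast_natCast, mul_smul, Nat.cast_smul_eq_nsmul, ← lK.pr_galCl]
    rfl
  obtain ⟨R, hR, hRc⟩ := lK.exists_extPr_sum lL h k (lK.projExp k)
  rw [← hpr]
  show lL.extPr K (Additive.ofMul (lK.projCls k c)) = _
  refine (hRc c).trans ?_
  refine (lL.smul_eq_of_down h (k := k) (r' := 1) (Nat.le_add_left _ _) ?_ hc).trans (one_smul _ _)
  rw [hR, map_one, map_one]
  exact lK.red_tr_projExp

theorem omega_smul_nuH (h : n ≤ m) (x : lL.A) :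
    cls p m (omega n) • nuH p n m • x = 0 := by
  rw [← mul_smul, omega_mul_nuH h, zero_smul]

/-- **The extensions are norms.** -/
theorem phi_eq_nuH (h : n ≤ m) (a : lK.A) : ∃ x, lK.phi lL a = nuH p n m • x := by
  obtain ⟨q, v, hq, hN, hq1, rfl⟩ := lK.exists_deg1 (m + 1) a
  obtain ⟨Q, hv⟩ := exists_belowP K L v
  have hqQ : (q : 𝓞 L) ∈ Q.asIdeal := by
    have h1 : (q : 𝓞 K) ∈ (belowP K Q).asIdeal := hv.symm ▸ hN ▸ Ideal.absNorm_mem v.asIdeal
    have h2 : algebraMap (𝓞 K) (𝓞 L) (q : 𝓞 K) ∈ Q.asIdeal := h1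
    rwa [map_natCast] at h2
  obtain ⟨-, hext⟩ := lK.extPr_below lL h hq
    (FA.IwasawaControl.absNorm_eq_of_modEq hq hq1 Q hqQ) hq1
  rw [hv] at hext
  exact ⟨lL.prCls Q, (lK.phi_pr lL h (by rw [hext]; exact lL.omega_smul_nuH h _)).trans hext⟩

/-- **The norms are extensions.** -/
theorem exists_phi_eq (h : n ≤ m) (x : lL.A) : ∃ a, lK.phi lL a = nuH p n m • x := by
  obtain ⟨q, Q, hq, hN, hq1, rfl⟩ := lL.exists_deg1 (m + 1) x
  obtain ⟨-, hext⟩ := lK.extPr_below lL h hq hN hq1
  exact ⟨_, (lK.phi_pr lL h (by rw [hext]; exact lL.omega_smul_nuH h _)).trans hext⟩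

theorem omega_smul_phi (h : n ≤ m) (a : lK.A) : cls p m (omega n) • lK.phi lL a = 0 := by
  obtain ⟨x, hx⟩ := lK.phi_eq_nuH lL h a
  rw [hx, omega_smul_nuH _ h]

/-- **Semilinearity.** -/
theorem phi_smul (h : n ≤ m) (r : LRing p m) (a : lK.A) :
    lK.phi lL (down p h r • a) = r • lK.phi lL a := by
  set k := pLvl p K + pLvl p L
  obtain ⟨e, he⟩ := lK.exists_tr_eq k (down p h r)
  rw [← lK.smul_congr (Nat.le_add_right _ _) he, tr_smul, map_sum]
  obtain ⟨R, hR, hRc⟩ := lK.exists_extPr_sum lL h k e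
  refine Eq.trans ?_ (lL.smul_eq_of_down h (k := k) (Nat.le_add_left _ _) (by rw [hR, he])
    (lK.omega_smul_phi lL h a) : R • lK.phi lL a = r • lK.phi lL a)
  refine Eq.trans ?_ (hRc (Additive.toMul (lK.val a)))
  rw [ofMul_prod, map_sum]
  refine Finset.sum_congr rfl fun σ _ => ?_
  rw [ofMul_pow, natCast_zsmul, map_nsmul, map_nsmul]
  rfl

/-- The kernel of the extension. -/
def phiKer (h : n ≤ m) : Submodule (LRing p n) lK.A where
  carrier := {a | lK.phi lL a = 0}
  add_mem' {a c} ha hc := by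
    show lK.phi lL (a + c) = 0
    rw [map_add, show lK.phi lL a = 0 from ha, show lK.phi lL c = 0 from hc, add_zero]
  zero_mem' := map_zero (lK.phi lL)
  smul_mem' r a ha := by
    obtain ⟨r', rfl⟩ := down_surjective h r
    show lK.phi lL (down p h r' • a) = 0
    rw [phi_smul, show lK.phi lL a = 0 from ha, smul_zero]

variable {t : ℕ} {C : Fin (t + 1) → lL.A} {M : Matrix (Fin (t + 1)) (Fin (t + 1)) (LRing p m)}

/-- **A square relation matrix of the image.** -/
theorem isRel_down (h : n ≤ m) (hM : IsRel C M) {B : Type*} [AddCommGroup B]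
    [Module (LRing p n) B] (π : lK.A →ₗ[LRing p n] B) (hπ : Function.Surjective π)
    (hker : ∀ a, π a = 0 ↔ lK.phi lL a = 0) {u : Fin (t + 1) → lK.A}
    (hu : ∀ i, lK.phi lL (u i) = nuH p n m • C i) :
    IsRel (π ∘ u) (M.map (down p h)) := by
  have hsum : ∀ f : Fin (t + 1) → LRing p m,
      lK.phi lL (∑ i, down p h (f i) • u i) = nuH p n m • ∑ i, f i • C i := fun f => by
    rw [map_sum, Finset.smul_sum]
    exact Finset.sum_congr rfl fun i _ => by rw [phi_smul, hu, smul_comm]
  have hπs : ∀ f : Fin (t + 1) → LRing p n, ∑ i, f i • (π ∘ u) i = π (∑ i, f i • u i) := fun f => by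
    rw [map_sum]
    exact Finset.sum_congr rfl fun i _ => (map_smul π _ _).symm
  refine ⟨fun y => ?_, fun j => ?_, fun f hf => ?_⟩
  · obtain ⟨a, rfl⟩ := hπ y
    obtain ⟨x, hx⟩ := lK.phi_eq_nuH lL h a
    obtain ⟨f, rfl⟩ := hM.gen x
    refine ⟨fun i => down p h (f i), ?_⟩
    rw [hπs, ← sub_eq_zero, ← map_sub, hker, map_sub, hsum, hx, sub_self]
  · simp only [Matrix.map_apply]
    rw [hπs, hker, hsum, hM.rel, smul_zero]
  · choose f' hf' using fun i => down_surjective h (f i)
    rw [hπs, hker, show (∑ i, f i • u i) = ∑ i, down p h (f' i) • u i from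
      Finset.sum_congr rfl fun i _ => by rw [hf'], hsum, Finset.smul_sum] at hf
    obtain ⟨c, hc⟩ := hM.span (fun i => nuH p n m * f' i) (by
      rw [← hf]
      exact Finset.sum_congr rfl fun i _ => mul_smul _ _ _)
    have hωc : cls p m (omega n) • c = 0 := lL.eq_zero_of_vecMul_eq_zero hM (by
      rw [smul_vecMul, ← hc]
      funext i
      rw [Pi.smul_apply, smul_eq_mul, ← mul_assoc, omega_mul_nuH h, zero_mul, Pi.zero_apply])
    choose c' hc' using fun i => exists_eq_nuH_mul h (a := c i) (congrFun hωc i)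
    refine ⟨fun i => down p h (c' i), funext fun i => ?_⟩
    have h1 : (f' i - (c' ᵥ* M) i) * nuH p n m = 0 := by
      rw [sub_mul, sub_eq_zero, mul_comm, congrFun hc i, vecMul, dotProduct, vecMul, dotProduct,
        Finset.sum_mul]
      exact Finset.sum_congr rfl fun j _ => by rw [hc' j]; ring
    have h2 := down_eq_zero_of_mul_nuH h h1
    rw [map_sub, sub_eq_zero, hf', RingHom.map_vecMul] at h2
    exact h2

/-- **The determinant of the higher level divides.** -/
theorem down_det_dvd (h : n ≤ m) (hM : IsRel C M) {t' : ℕ} {C' : Fin (t' + 1) → lK.A}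
    {M' : Matrix (Fin (t' + 1)) (Fin (t' + 1)) (LRing p n)} (hM' : IsRel C' M') :
    down p h M.det ∣ M'.det := by
  choose u hu using fun i => lK.exists_phi_eq lL h (C i)
  have hrel := lK.isRel_down lL h hM (lK.phiKer lL h).mkQ (Submodule.mkQ_surjective _)
    (fun a => Submodule.Quotient.mk_eq_zero _) hu
  rw [RingHom.map_det, RingHom.mapMatrix_apply]
  have h1 := hM'.det_dvd_of_surjective (lK.phiKer lL h).mkQ (Submodule.mkQ_surjective _) hrel
  convert h1 using 2

/-- **If no class becomes trivial the determinants are associated.** -/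
theorem associated_down_det (h : n ≤ m) (hinj : Function.Injective (lK.phi lL)) (hM : IsRel C M)
    {t' : ℕ} {C' : Fin (t' + 1) → lK.A}
    {M' : Matrix (Fin (t' + 1)) (Fin (t' + 1)) (LRing p n)} (hM' : IsRel C' M') :
    Associated (down p h M.det) M'.det := by
  choose u hu using fun i => lK.exists_phi_eq lL h (C i)
  have hrel := lK.isRel_down lL h hM LinearMap.id Function.surjective_id
    (fun a => (map_eq_zero_iff _ hinj).symm) hu
  rw [RingHom.map_det, RingHom.mapMatrix_apply]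
  convert hrel.associated hM' (e := pLvl p K) lK.natCast_pow_smul using 2

end levels

section base

variable {K L : Type} [Field K] [NumberField K] [IsCyclotomicExtension {p ^ (0 + 1)} ℚ K]
  [Field L] [NumberField L] [IsCyclotomicExtension {p ^ (m + 1)} ℚ L] [Algebra K L]
  (lK : Lvl b 0 K) (lL : Lvl b m L)

/-- The extension from the bottom is injective. -/
theorem phi_injective : Function.Injective (lK.phi lL) := by
  haveI : IsCyclotomicExtension {p} ℚ K := by
    have h : IsCyclotomicExtension {p ^ (0 + 1)} ℚ K := inferInstance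
    simpa using h
  haveI : NeZero (p ^ (0 + 1)) := ⟨pow_ne_zero _ hp.out.ne_zero⟩
  haveI : NeZero p := ⟨hp.out.ne_zero⟩
  refine (injective_iff_map_eq_zero _).2 fun a ha => lK.val_injective ?_
  set y := Additive.toMul (lK.val a)
  have hy : y ∈ wPart p p K b.i := (mem_wPart_congr (by simp)).1 (lK.val_mem a)
  have hext := FA.IwasawaControl.extendedHom_mem_wPart m (L := L) hy
  have h1 := congrArg lL.val ha
  rw [map_zero] at h1
  have h2 : lL.val (lK.phi lL a) = Additive.ofMul (ClassGroup.extendedHom (𝓞 K) (𝓞 L) y) := by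
    show lL.val (lL.pr (Additive.ofMul (ClassGroup.extendedHom (𝓞 K) (𝓞 L) y))) = _
    rw [val_pr, FA.IwasawaControl.wProj_of_mem FA.IwasawaControl.dvd_level hext]
  rw [h2] at h1
  have h3 := FA.IwasawaControl.extended_injective m b.ne_two b.hi hy (ofMul_eq_zero.1 h1)
  rw [map_zero]
  exact congrArg Additive.ofMul h3

include lK in
/-- **The classes killed by `X` are norms.** -/
theorem hfix (a : lL.A) (ha : varR p m • a = 0) : ∃ x, a = nuR p m • x := by
  haveI : IsCyclotomicExtension {p} ℚ K := by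
    have h : IsCyclotomicExtension {p ^ (0 + 1)} ℚ K := inferInstance
    simpa using h
  haveI : NeZero (p ^ (0 + 1)) := ⟨pow_ne_zero _ hp.out.ne_zero⟩
  haveI : NeZero p := ⟨hp.out.ne_zero⟩
  have hω : cls p m (omega 0) = varR p m := by rw [varR, omega, pow_zero, pow_one]; ring_nf
  have hfixed : ∀ g : L ≃ₐ[K] L,
      actCl g (Additive.toMul (lL.val a)) = Additive.toMul (lL.val a) := fun g => by
    obtain ⟨d, hd⟩ := (down_eq_zero_iff (Nat.zero_le m)).1
      (show down p (Nat.zero_le m) (lL.chi (g.restrictScalars ℚ) - 1) = 0 by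
        rw [map_sub, map_one, lK.down_chi lL (Nat.zero_le m) (σ₀ := 1) fun z => g.commutes z,
          map_one, sub_self])
    have h1 : lL.chi (g.restrictScalars ℚ) • a = a := by
      rw [eq_add_of_sub_eq hd, add_smul, one_smul, hω, mul_comm, mul_smul, ha, smul_zero, zero_add]
    rw [← FA.IwasawaControl.actCl_restrictScalars, ← val_gal, ← chi_smul, h1]
  obtain ⟨y, hy, hya⟩ := (FA.IwasawaControl.fixed_iff p m b.ne_two b.hi).1
    ⟨lL.val_mem a, hfixed⟩
  obtain ⟨x, hx⟩ := lK.phi_eq_nuH lL (Nat.zero_le m)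
    (lK.ofMem y ((mem_wPart_congr (by simp)).2 hy))
  refine ⟨x, ?_⟩
  have hnu : nuR p m = nuH p 0 m := by
    rw [nuR, nuH, nuPol, FA.IwasawaControl.nuPoly]
    simp
  rw [hnu, ← hx]
  show a = lL.pr (Additive.ofMul (ClassGroup.extendedHom (𝓞 K) (𝓞 L) y))
  rw [hya]
  exact (lL.pr_val a).symm

end base

end Lvl

end FA.GaussTower
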