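import Fermat.Agent.GaussTower.Series
import Mathlib.Analysis.Polynomial.Basic
import Mathlib.FieldTheory.IsAlgClosed.Basic
import Mathlib.Topology.Algebra.Polynomial

/-!
# From an inequality on the open disc to equality of ideals

Two systems over the rings of the levels, whose constant terms are associated and such that at
every point of the open disc the first is not bigger than the second at all high levels, are
associated: `associated_of_norm_le`.
-/

set_option autoImplicit false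
set_option linter.unusedSectionVars false

noncomputable section

open Polynomial Filter
open scoped Classical Topology

namespace FA.GaussTower

open FA.IwasawaMinus (omega Compatible ev emb norm_emb)
open LRing

variable {p : ℕ} [hp : Fact p.Prime]

/-- The evaluation, as a ring map. -/
def evHom (x : PadicAlgCl p) : ℤ_[p][X] →+* PadicAlgCl p := eval₂RingHom emb x

theorem evHom_apply (x : PadicAlgCl p) (f : ℤ_[p][X]) : evHom x f = ev x f := rfl

theorem norm_evHom_sub_le {x : PadicAlgCl p} (hx : ‖x‖ ≤ 1) {m : ℕ} {f g : ℤ_[p][X]}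
    (h : cls p m f = cls p m g) : ‖evHom x f - evHom x g‖ ≤ ‖evHom x (omega m)‖ := by
  rw [← sub_eq_zero, ← map_sub, cls_eq_zero_iff] at h
  obtain ⟨q, hq⟩ := h
  rw [← map_sub, hq, map_mul, norm_mul]
  exact mul_le_of_le_one_right (norm_nonneg _) (norm_ev_le_one hx q)

theorem norm_evHom_unit {x : PadicAlgCl p} (hx : ‖x‖ < 1) {m : ℕ} {f : ℤ_[p][X]}
    (h : IsUnit (cls p m f)) : ‖evHom x f‖ = 1 := by
  have h1 : ‖f.coeff 0‖ = 1 := PadicInt.isUnit_iff.1 (by rw [← aug_cls (m := m)]; exact h.map _)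
  have h0 : ‖emb (f.coeff 0)‖ = 1 := by rw [norm_emb, h1]
  have hlt : ‖x * evHom x f.divX‖ < ‖emb (f.coeff 0)‖ := by
    rw [h0, norm_mul]
    exact (mul_le_of_le_one_right (norm_nonneg _) (norm_ev_le_one hx.le _)).trans_lt hx
  conv_lhs => rw [← f.X_mul_divX_add]
  rw [map_add, map_mul, show evHom x X = x from eval₂_X _ _,
    show evHom x (C (f.coeff 0)) = emb (f.coeff 0) from eval₂_C _ _,
    IsUltrametricDist.norm_add_eq_max_of_norm_ne_norm hlt.ne, max_eq_right hlt.le, h0]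

/-- **A small remainder vanishes.** -/
theorem eq_zero_of_norm_eval_le {P R : (PadicAlgCl p)[X]} (hP : P.Monic)
    (hroot : ∀ α ∈ P.roots, ‖α‖ < 1) (hdeg : R.degree < P.degree)
    (hle : ∀ x, ‖x‖ < 1 → ‖R.eval x‖ ≤ ‖P.eval x‖) : R = 0 := by
  by_contra hR
  refine (Polynomial.degree_le_of_dvd ?_ hR).not_gt hdeg
  refine (IsAlgClosed.splits P).dvd_of_roots_le_roots hP.ne_zero 
    (Multiset.le_iff_count.2 fun α => ?_)
  rw [count_roots, count_roots]
  rcases Nat.eq_zero_or_pos (P.rootMultiplicity α) with h | h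
  · rw [h]
    exact Nat.zero_le _
  have hα : ‖α‖ < 1 := hroot α ((mem_roots hP.ne_zero).2
    ((rootMultiplicity_pos hP.ne_zero).1 h))
  by_contra hlt
  set e := P.rootMultiplicity α
  set f := R.rootMultiplicity α
  set S := R /ₘ (X - C α) ^ f
  set T := P /ₘ (X - C α) ^ e
  have hS : S.eval α ≠ 0 := eval_divByMonic_pow_rootMultiplicity_ne_zero α hR
  have hR' := pow_mul_divByMonic_rootMultiplicity_eq R α
  have hP' := pow_mul_divByMonic_rootMultiplicity_eq P α
  set t : ℕ → PadicAlgCl p := fun s => (p : PadicAlgCl p) ^ (s + 1)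
  have hp1 : (p : ℝ)⁻¹ < 1 := inv_lt_one_of_one_lt₀ (Nat.one_lt_cast.2 hp.out.one_lt)
  have ht : ∀ s, ‖t s‖ < 1 := fun s => by
    rw [norm_pow, FA.IwasawaMinus.norm_p]
    exact pow_lt_one₀ (by positivity) hp1 (Nat.succ_ne_zero s)
  have ht0 : ∀ s, t s ≠ 0 := fun s => pow_ne_zero _ (Nat.cast_ne_zero.2 hp.out.ne_zero)
  have hlim : Tendsto t atTop (𝓝 0) :=
    (tendsto_pow_atTop_nhds_zero_of_norm_lt_one
      (by rw [FA.IwasawaMinus.norm_p]; exact hp1)).comp (tendsto_add_atTop_nat 1)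
  have hineq : ∀ s, ‖S.eval (α + t s)‖ ≤ ‖t s * T.eval (α + t s)‖ := fun s => by
    have hx : ‖α + t s‖ < 1 := (IsUltrametricDist.norm_add_le_max _ _).trans_lt (max_lt hα (ht s))
    have h1 := hle _ hx
    rw [← hR', ← hP'] at h1
    simp only [eval_mul, eval_pow, eval_sub, eval_X, eval_C, add_sub_cancel_left, norm_mul,
      norm_pow] at h1
    have h2 : (0 : ℝ) < ‖t s‖ ^ f := pow_pos (norm_pos_iff.2 (ht0 s)) _
    rw [norm_mul]
    refine le_of_mul_le_mul_left ?_ h2
    refine h1.trans ?_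
    rw [← mul_assoc, ← pow_succ]
    exact mul_le_mul_of_nonneg_right
      (pow_le_pow_of_le_one (norm_nonneg _) (ht s).le (by omega)) (norm_nonneg _)
  have hαt : Tendsto (fun s => α + t s) atTop (𝓝 α) := by simpa using hlim.const_add α
  have hS' := ((S.continuous.tendsto α).comp hαt).norm
  have hT' : Tendsto (fun s => ‖t s * T.eval (α + t s)‖) atTop (𝓝 0) := by
    simpa using (hlim.mul ((T.continuous.tendsto α).comp hαt)).norm
  exact hS (norm_le_zero_iff.1 (le_of_tendsto_of_tendsto' hS' hT' hineq))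

/-- Systems associated level by level can be made compatible. -/
theorem exists_compatible {d : ∀ n, LRing p n}
    (hd : ∀ n, Associated (down p (Nat.le_succ n) (d (n + 1))) (d n)) :
    ∃ e : ∀ n, LRing p n, (∀ n, Associated (d n) (e n)) ∧
      ∀ n, down p (Nat.le_succ n) (e (n + 1)) = e n := by
  have step : ∀ n (a : LRing p n), Associated (d n) a →
      ∃ b, Associated (d (n + 1)) b ∧ down p (Nat.le_succ n) b = a := by
    intro n a ha
    obtain ⟨v, hv⟩ := (hd n).trans ha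
    obtain ⟨w, hw⟩ := down_surjective (Nat.le_succ n) (v : LRing p n)
    have hwu : IsUnit w := isUnit_iff.2 (by
      rw [← aug_down (Nat.le_succ n), hw]
      exact v.isUnit.map _)
    exact ⟨d (n + 1) * w, associated_mul_unit_right _ _ hwu, by rw [map_mul, hw, hv]⟩
  choose b hb1 hb2 using step
  let e : ∀ n, {a : LRing p n // Associated (d n) a} :=
    fun n => Nat.rec ⟨d 0, Associated.refl _⟩ (fun k a => ⟨b k a.1 a.2, hb1 k a.1 a.2⟩) n
  exact ⟨fun n => (e n).1, fun n => (e n).2, fun n => hb2 n _ _⟩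

/-- **Equality of the systems.** -/
theorem associated_of_norm_le {θ : ℕ → ℤ_[p][X]} (hθ : Compatible θ) {d : ∀ n, LRing p n}
    (hd : ∀ n, Associated (down p (Nat.le_succ n) (d (n + 1))) (d n))
    (h0 : (θ 0).coeff 0 ≠ 0) (h0' : Associated (aug p 0 (d 0)) ((θ 0).coeff 0))
    (m₀ : ℕ) (hle : ∀ x : PadicAlgCl p, ‖x‖ < 1 → ∀ m, m₀ ≤ m →
      ‖ev x (omega m)‖ < ‖ev x (θ m)‖ ^ 2 → ∀ f, cls p m f = d m →
        ‖ev x (θ m)‖ ≤ ‖ev x f‖) (n : ℕ) :
    Associated (d n) (cls p n (θ n)) := by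
  obtain ⟨e, hde, hec⟩ := exists_compatible hd
  choose H hH using fun n => cls_surjective (e n)
  have hHc : Compatible H := fun n => by
    rw [← cls_eq_zero_iff, map_sub, sub_eq_zero, ← down_cls (Nat.le_succ n), hH, hH, hec]
  obtain ⟨F, hF⟩ := exists_series hHc
  obtain ⟨Θ, hΘ⟩ := exists_series hθ
  have hle' : ∀ x : PadicAlgCl p, ‖x‖ < 1 → ∀ m, m₀ ≤ m →
      ‖evHom x (omega m)‖ < ‖evHom x (θ m)‖ ^ 2 → ‖evHom x (θ m)‖ ≤ ‖evHom x (H m)‖ := by
    intro x hx m hm hlt
    obtain ⟨v, hv⟩ := (hde m).symm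
    obtain ⟨w, hw⟩ := cls_surjective (v : LRing p m)
    have h := hle x hx m hm hlt (H m * w) (by rw [map_mul, hH, hw, hv])
    rw [← evHom_apply, ← evHom_apply, map_mul, norm_mul,
      norm_evHom_unit hx (f := w) (m := m) (hw ▸ v.isUnit), mul_one] at h
    exact h
  have heaug : Associated (F.constantCoeff) ((θ 0).coeff 0) := by
    rw [← aug_piLvl (m := 0), hF, hH]
    exact ((hde 0).symm.map (aug p 0 : LRing p 0 →* ℤ_[p])).trans h0'
  have hF0 : F ≠ 0 := fun h => by
    rw [h, map_zero] at heaug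
    exact h0 (heaug.eq_zero_iff.1 rfl)
  obtain ⟨μ, P, U, hP, hU, hFeq⟩ := exists_factor hF0
  have hdiv := hP.isWeierstrassDivisorAt'.isWeierstrassDivisionAt_div_mod Θ
  set Q₀ := hP.isWeierstrassDivisorAt'.div Θ
  set R₀ := hP.isWeierstrassDivisorAt'.mod Θ
  set R := R₀ %ₘ P
  set Q : PowerSeries ℤ_[p] := Q₀ + ((R₀ /ₘ P : ℤ_[p][X]) : PowerSeries ℤ_[p])
  have hΘeq : Θ = (P : PowerSeries ℤ_[p]) * Q + (R : PowerSeries ℤ_[p]) := by
    rw [hdiv.2, mul_add, add_assoc, ← Polynomial.coe_mul, ← Polynomial.coe_add,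
      add_comm (P * _), modByMonic_add_div R₀ P]
  have hθm : ∀ m, ∀ q, cls p m q = piLvl p m Q → cls p m (θ m) = cls p m (P * q + R) := by
    intro m q hq
    rw [← hΘ, hΘeq, map_add, map_mul, piLvl_coe, piLvl_coe, map_add (cls p m),
      map_mul (cls p m), hq]
  have hHm : ∀ m, ∀ u, cls p m u = piLvl p m U →
      cls p m (H m) = cls p m (C ((p : ℤ_[p]) ^ μ) * (P * u)) := by
    intro m u hu
    rw [← hF, hFeq, map_mul, map_mul, piLvl_coe, ← Polynomial.coe_C, piLvl_coe,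
      map_mul (cls p m), map_mul (cls p m), hu]
  have hevC : ∀ (x : PadicAlgCl p) (j : ℕ),
      ‖evHom x (C ((p : ℤ_[p]) ^ j))‖ = (p : ℝ)⁻¹ ^ j := fun x j => by
    rw [show evHom x (C ((p : ℤ_[p]) ^ j)) = emb ((p : ℤ_[p]) ^ j) from eval₂_C _ _, norm_emb,
      norm_pow, PadicInt.norm_p]
  -- the remainder vanishes
  have hR : R = 0 := by
    have hroots : ∀ α ∈ (P.map emb).roots, ‖α‖ < 1 := fun α hα => by
      rw [mem_roots (hP.monic.map _).ne_zero, IsRoot.def, eval_map] at hα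
      by_contra h
      have h1 := norm_ev_distinguished hP (x := α) (Or.inr (not_lt.1 h))
      rw [show ev α P = 0 from hα, norm_zero] at h1
      exact (pow_pos (one_pos.trans_le (not_lt.1 h)) _).ne h1
    refine map_injective emb FA.IwasawaMinus.emb_injective ?_
    rw [Polynomial.map_zero]
    refine eq_zero_of_norm_eval_le (hP.monic.map _) hroots ?_ fun x hx => ?_
    · rw [degree_map_eq_of_injective FA.IwasawaMinus.emb_injective,
        degree_map_eq_of_injective FA.IwasawaMinus.emb_injective]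
      exact degree_modByMonic_lt _ hP.monic
    rw [eval_map, eval_map]
    show ‖evHom x R‖ ≤ ‖evHom x P‖
    by_contra! hlt
    have hR0 : 0 < ‖evHom x R‖ := (norm_nonneg _).trans_lt hlt
    have hR1 : ‖evHom x R‖ ≤ 1 := norm_ev_le_one hx.le R
    obtain ⟨m, hω, hm⟩ := (((tendsto_norm_ev_omega hx).eventually
      (gt_mem_nhds (pow_pos hR0 2))).and (eventually_ge_atTop m₀)).exists
    rw [← evHom_apply] at hω
    have hω' : ‖evHom x (omega m)‖ < ‖evHom x R‖ :=
      hω.trans_le (pow_le_of_le_one hR0.le hR1 two_ne_zero)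
    obtain ⟨q, hq⟩ := cls_surjective (piLvl p m Q)
    obtain ⟨u, hu⟩ := cls_surjective (piLvl p m U)
    have hPq : ‖evHom x (P * q)‖ ≤ ‖evHom x P‖ := by
      rw [map_mul, norm_mul]
      exact mul_le_of_le_one_right (norm_nonneg _) (norm_ev_le_one hx.le q)
    have hPR : ‖evHom x (P * q + R)‖ = ‖evHom x R‖ := by
      rw [map_add, IsUltrametricDist.norm_add_eq_max_of_norm_ne_norm (hPq.trans_lt hlt).ne,
        max_eq_right (hPq.trans hlt.le)]
    have hθ1 : ‖evHom x (θ m)‖ = ‖evHom x R‖ := by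
      have h1 := (norm_evHom_sub_le hx.le (hθm m q hq)).trans_lt hω'
      rw [show evHom x (θ m) = evHom x (P * q + R) + (evHom x (θ m) - evHom x (P * q + R)) by ring,
        IsUltrametricDist.norm_add_eq_max_of_norm_ne_norm (by rw [hPR]; exact h1.ne'), hPR,
        max_eq_left h1.le]
    have h2 := hle' x hx m hm (by rw [hθ1]; exact hω)
    have h3 : ‖evHom x (H m)‖ < ‖evHom x R‖ := by
      have h4 := (norm_evHom_sub_le hx.le (hHm m u hu)).trans_lt hω'
      rw [show evHom x (H m) = evHom x (C ((p : ℤ_[p]) ^ μ) * (P * u)) +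
        (evHom x (H m) - evHom x (C ((p : ℤ_[p]) ^ μ) * (P * u))) by ring]
      refine (IsUltrametricDist.norm_add_le_max _ _).trans_lt (max_lt ?_ h4)
      rw [map_mul, norm_mul, map_mul, norm_mul]
      refine (mul_le_of_le_one_left (by positivity) (norm_ev_le_one hx.le _)).trans_lt ?_
      exact (mul_le_of_le_one_right (norm_nonneg _) (norm_ev_le_one hx.le u)).trans_lt hlt
    exact absurd h3 (hθ1 ▸ h2).not_gt
  rw [hR, Polynomial.coe_zero, add_zero] at hΘeq
  have hQ0 : Q ≠ 0 := fun h => h0 (by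
    rw [← aug_cls (m := 0), ← hΘ, hΘeq, h, mul_zero, map_zero, map_zero])
  obtain ⟨β, P', U', hP', hU', hQeq⟩ := exists_factor hQ0
  -- the powers of `p`
  have hβ : μ ≤ β := by
    by_contra! hlt
    set k := P.natDegree + P'.natDegree + 1
    set φ := (p - 1) * p ^ k
    have hkφ : P.natDegree + P'.natDegree < φ :=
      (Nat.lt_succ_self _).trans ((Nat.lt_pow_self hp.out.one_lt).trans_le
        (Nat.le_mul_of_pos_left _ (Nat.sub_pos_of_lt hp.out.one_lt)))
    have : NeZero (p ^ (k + 1)) := ⟨pow_ne_zero _ hp.out.ne_zero⟩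
    obtain ⟨ζ, hζ⟩ := HasEnoughRootsOfUnity.exists_primitiveRoot (PadicAlgCl p) (p ^ (k + 1))
    set x := ζ - 1
    have hxφ : ‖x‖ ^ φ = (p : ℝ)⁻¹ := FA.IwasawaMinus.norm_sub_one_pow hζ
    have hx : ‖x‖ < 1 := FA.IwasawaMinus.norm_sub_one_lt hζ
    have hx0 : 0 < ‖x‖ := norm_pos_iff.2 (hζ.sub_one_ne_zero
      (Nat.one_lt_pow (Nat.succ_ne_zero k) hp.out.one_lt))
    have hP1 : ‖evHom x P‖ = ‖x‖ ^ P.natDegree := norm_ev_distinguished hP
      (Or.inl (hxφ ▸ pow_lt_pow_right_of_lt_one₀ hx0 hx (by omega)))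
    have hP2 : ‖evHom x P'‖ = ‖x‖ ^ P'.natDegree := norm_ev_distinguished hP'
      (Or.inl (hxφ ▸ pow_lt_pow_right_of_lt_one₀ hx0 hx (by omega)))
    set a := (p : ℝ)⁻¹ ^ β * ‖x‖ ^ (P.natDegree + P'.natDegree) with hadef
    have hp0 : (0 : ℝ) < (p : ℝ)⁻¹ := inv_pos.2 (Nat.cast_pos.2 hp.out.pos)
    have hp1 : (p : ℝ)⁻¹ < 1 := inv_lt_one_of_one_lt₀ (Nat.one_lt_cast.2 hp.out.one_lt)
    have ha0 : 0 < a := mul_pos (pow_pos hp0 _) (pow_pos hx0 _)
    have ha1 : a ≤ 1 := mul_le_one₀ (pow_le_one₀ hp0.le hp1.le) (by positivity)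
      (pow_le_one₀ hx0.le hx.le)
    obtain ⟨m, hω, hm⟩ := (((tendsto_norm_ev_omega hx).eventually
      (gt_mem_nhds (pow_pos ha0 2))).and (eventually_ge_atTop m₀)).exists
    rw [← evHom_apply] at hω
    have hω' : ‖evHom x (omega m)‖ < a := hω.trans_le (pow_le_of_le_one ha0.le ha1 two_ne_zero)
    obtain ⟨u, hu⟩ := cls_surjective (piLvl p m U)
    obtain ⟨u', hu'⟩ := cls_surjective (piLvl p m U')
    have hq : cls p m (C ((p : ℤ_[p]) ^ β) * (P' * u')) = piLvl p m Q := by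
      rw [hQeq, map_mul (piLvl p m), map_mul (piLvl p m), piLvl_coe, ← Polynomial.coe_C, piLvl_coe,
        map_mul (cls p m), map_mul (cls p m), hu']
    have hθ1 : ‖evHom x (θ m)‖ = a := by
      have h1 := (norm_evHom_sub_le hx.le (hθm m _ hq)).trans_lt hω'
      have h2 : ‖evHom x (P * (C ((p : ℤ_[p]) ^ β) * (P' * u')) + R)‖ = a := by
        rw [hR, add_zero, map_mul, map_mul, map_mul, norm_mul, norm_mul, norm_mul, hP1, hP2, hevC,
          norm_evHom_unit hx (m := m) (hu' ▸ hU'.map _), hadef, pow_add]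
        ring
      rw [show evHom x (θ m) = evHom x (P * (C ((p : ℤ_[p]) ^ β) * (P' * u')) + R) +
        (evHom x (θ m) - evHom x (P * (C ((p : ℤ_[p]) ^ β) * (P' * u')) + R)) by ring,
        IsUltrametricDist.norm_add_eq_max_of_norm_ne_norm (by rw [h2]; exact h1.ne'), h2,
        max_eq_left h1.le]
    have h2 := hle' x hx m hm (by rw [hθ1]; exact hω)
    have hsmall : (p : ℝ)⁻¹ ^ μ * ‖x‖ ^ P.natDegree < a := by
      have h5 : (p : ℝ)⁻¹ ^ μ ≤ (p : ℝ)⁻¹ ^ β * ‖x‖ ^ φ := by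
        rw [hxφ, ← pow_succ]
        exact pow_le_pow_of_le_one hp0.le hp1.le hlt
      calc (p : ℝ)⁻¹ ^ μ * ‖x‖ ^ P.natDegree
          ≤ (p : ℝ)⁻¹ ^ β * ‖x‖ ^ φ * ‖x‖ ^ P.natDegree := by gcongr
        _ = (p : ℝ)⁻¹ ^ β * ‖x‖ ^ (φ + P.natDegree) := by rw [pow_add, mul_assoc]
        _ < a := mul_lt_mul_of_pos_left
            (pow_lt_pow_right_of_lt_one₀ hx0 hx (by omega)) (pow_pos hp0 _)
    have h3 : ‖evHom x (H m)‖ < a := by
      have h4 := (norm_evHom_sub_le hx.le (hHm m u hu)).trans_lt hω'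
      rw [show evHom x (H m) = evHom x (C ((p : ℤ_[p]) ^ μ) * (P * u)) +
        (evHom x (H m) - evHom x (C ((p : ℤ_[p]) ^ μ) * (P * u))) by ring]
      refine (IsUltrametricDist.norm_add_le_max _ _).trans_lt (max_lt ?_ h4)
      rwa [map_mul, norm_mul, map_mul, norm_mul, hP1, hevC,
        norm_evHom_unit hx (m := m) (hu ▸ hU.map _), mul_one]
    exact absurd h3 (hθ1 ▸ h2).not_gt
  -- the quotient
  obtain ⟨v, hv⟩ := hU
  set c : PowerSeries ℤ_[p] := PowerSeries.C ((p : ℤ_[p]) ^ (β - μ)) * (P' * U') * ↑v⁻¹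
  have hΘF : Θ = F * c := by
    rw [hΘeq, hQeq, hFeq, ← hv]
    conv_lhs => rw [show β = μ + (β - μ) by omega, pow_add, map_mul]
    simp only [c]
    linear_combination (-((P : PowerSeries ℤ_[p]) * PowerSeries.C ((p : ℤ_[p]) ^ μ) *
      PowerSeries.C ((p : ℤ_[p]) ^ (β - μ)) * (P' * U'))) * v.mul_inv
  have hc : IsUnit c.constantCoeff := by
    obtain ⟨w, hw⟩ := heaug
    have h1 : (θ 0).coeff 0 = F.constantCoeff * c.constantCoeff := by
      rw [← aug_cls (m := 0), ← hΘ, aug_piLvl, hΘF, map_mul]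
    have hne : F.constantCoeff ≠ 0 := fun h => h0 (by rw [h1, h, zero_mul])
    rw [← mul_left_cancel₀ hne (hw.trans h1)]
    exact w.isUnit
  refine (hde n).trans ⟨(isUnit_iff.2 (by rwa [aug_piLvl]) : IsUnit (piLvl p n c)).unit, ?_⟩
  rw [IsUnit.unit_spec, ← hH, ← hF, ← map_mul, ← hΘF, hΘ]

end FA.GaussTower
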