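import Mathlib.Analysis.Normed.Field.Basic
import Mathlib.Analysis.Normed.Group.Ultra
import Mathlib.LinearAlgebra.Matrix.Block
import Mathlib.LinearAlgebra.Matrix.Determinant.Basic
import Mathlib.Algebra.BigOperators.Fin

/-!
# The size of a determinant from an approximately triangular descent

Over an ultrametric field: if `z M` is lower triangular up to `ε`, the corner has size `θ`, and
each following diagonal entry is as large as the previous row of `z`, then `θ ≤ ‖det M‖`.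
-/

set_option autoImplicit false

noncomputable section

open scoped Classical

namespace FA.GaussTower

variable {K : Type*} [NormedField K] [IsUltrametricDist K]

theorem norm_prod_sub_prod_le {ι : Type*} (s : Finset ι) {a b : ι → K} {δ : ℝ} (hδ : 0 ≤ δ)
    (ha : ∀ i, ‖a i‖ ≤ 1) (hb : ∀ i, ‖b i‖ ≤ 1) (hab : ∀ i, ‖a i - b i‖ ≤ δ) :
    ‖∏ i ∈ s, a i - ∏ i ∈ s, b i‖ ≤ δ := by
  induction s using Finset.induction_on with
  | empty => simpa using hδ
  | insert i t hit ih =>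
    rw [Finset.prod_insert hit, Finset.prod_insert hit,
      show a i * ∏ j ∈ t, a j - b i * ∏ j ∈ t, b j =
        a i * (∏ j ∈ t, a j - ∏ j ∈ t, b j) + (a i - b i) * ∏ j ∈ t, b j by ring]
    refine (IsUltrametricDist.norm_add_le_max _ _).trans (max_le ?_ ?_)
    · rw [norm_mul]
      exact (mul_le_of_le_one_left (norm_nonneg _) (ha i)).trans ih
    · rw [norm_mul, norm_prod]
      exact (mul_le_of_le_one_right (norm_nonneg _)
        (Finset.prod_le_one (fun _ _ => norm_nonneg _) fun j _ => hb j)).trans (hab i)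

/-- Determinants of integral matrices are continuous. -/
theorem norm_det_sub_det_le {ι : Type*} [Fintype ι] [DecidableEq ι] {A B : Matrix ι ι K} {δ : ℝ}
    (hδ : 0 ≤ δ) (hA : ∀ i j, ‖A i j‖ ≤ 1) (hB : ∀ i j, ‖B i j‖ ≤ 1)
    (hAB : ∀ i j, ‖A i j - B i j‖ ≤ δ) : ‖A.det - B.det‖ ≤ δ := by
  rw [Matrix.det_apply', Matrix.det_apply', ← Finset.sum_sub_distrib]
  refine IsUltrametricDist.norm_sum_le_of_forall_le_of_nonneg hδ fun σ _ => ?_
  rw [← mul_sub, norm_mul]
  refine (mul_le_of_le_one_left (norm_nonneg _) ?_).trans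
    (norm_prod_sub_prod_le _ hδ (fun i => hA _ i) (fun i => hB _ i) fun i => hAB _ i)
  rcases Int.units_eq_one_or (Equiv.Perm.sign σ) with h | h <;> simp [h]

/-- Determinants of integral matrices are integral. -/
theorem norm_det_le_one {ι : Type*} [Fintype ι] [DecidableEq ι] {A : Matrix ι ι K}
    (hA : ∀ i j, ‖A i j‖ ≤ 1) : ‖A.det‖ ≤ 1 := by
  rw [Matrix.det_apply']
  refine IsUltrametricDist.norm_sum_le_of_forall_le_of_nonneg zero_le_one fun σ _ => ?_
  rw [norm_mul, norm_prod]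
  refine mul_le_one₀ ?_ (by positivity) (Finset.prod_le_one (fun _ _ => norm_nonneg _)
    fun j _ => hA _ j)
  rcases Int.units_eq_one_or (Equiv.Perm.sign σ) with h | h <;> simp [h]

theorem norm_dotProduct_le {ι : Type*} [Fintype ι] {a b : ι → K} {c : ℝ} (hc : 0 ≤ c)
    (ha : ∀ i, ‖a i‖ ≤ c) (hb : ∀ i, ‖b i‖ ≤ 1) : ‖∑ i, a i * b i‖ ≤ c := by
  refine IsUltrametricDist.norm_sum_le_of_forall_le_of_nonneg hc fun i _ => ?_
  rw [norm_mul]
  exact (mul_le_of_le_one_right (norm_nonneg _) (hb i)).trans (ha i)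

/-- **The descent inequality.** -/
theorem norm_le_norm_det {t : ℕ} {z D M : Matrix (Fin (t + 1)) (Fin (t + 1)) K} {ε θ : ℝ}
    (hz : ∀ j l, ‖z j l‖ ≤ 1) (hM : ∀ j l, ‖M j l‖ ≤ 1)
    (hrel : ∀ j l, ‖(z * M) j l - D j l‖ ≤ ε) (hup : ∀ j l, j < l → D j l = 0)
    (h0 : ‖D 0 0‖ = θ)
    (hstep : ∀ (j : Fin t) (l₀ : Fin (t + 1)), (∀ l, ‖z j.castSucc l‖ ≤ ‖z j.castSucc l₀‖) →
      ε < ‖z j.castSucc l₀‖ → ‖D j.succ j.succ‖ = ‖z j.castSucc l₀‖)
    (hε : ε < θ ^ 2) (hθ : θ ≤ 1) : θ ≤ ‖M.det‖ := by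
  have hε0 : 0 ≤ ε := (norm_nonneg _).trans (hrel 0 0)
  have hθ0 : 0 < θ := by
    refine lt_of_le_of_ne (h0 ▸ norm_nonneg _) fun h => ?_
    rw [← h, zero_pow two_ne_zero] at hε
    exact absurd hε hε0.not_gt
  have hεθ : ε < θ := hε.trans_le (by rw [sq]; exact mul_le_of_le_one_left hθ0.le hθ)
  -- the largest entry of each row
  choose L hL using fun j : Fin (t + 1) => Finite.exists_max fun l => ‖z j l‖
  set σ := fun j => ‖z j (L j)‖
  have hdiag : ∀ j, θ ≤ ‖D j j‖ ∧ ‖D j j‖ ≤ σ j := by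
    have key : ∀ j, θ ≤ ‖D j j‖ → ‖D j j‖ ≤ σ j := fun j hj => by
      have hsum : ‖(z * M) j j‖ ≤ σ j :=
        norm_dotProduct_le (norm_nonneg _) (hL j) fun i => hM i j
      have h1 : ‖D j j‖ ≤ max (σ j) ε := by
        rw [show D j j = (z * M) j j + -((z * M) j j - D j j) by ring]
        refine (IsUltrametricDist.norm_add_le_max _ _).trans (max_le_max hsum ?_)
        rw [norm_neg]
        exact hrel j j
      exact (le_max_iff.1 h1).resolve_right (hεθ.trans_le hj).not_ge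
    intro j
    induction j using Fin.induction with
    | zero => exact ⟨h0.ge, key 0 h0.ge⟩
    | succ i ih =>
      have hs : ‖D i.succ i.succ‖ = σ i.castSucc :=
        hstep i _ (hL _) (hεθ.trans_le (ih.1.trans ih.2))
      exact ⟨hs ▸ ih.1.trans ih.2, key _ (hs ▸ ih.1.trans ih.2)⟩
  have hσpos : ∀ j, 0 < σ j := fun j => hθ0.trans_le ((hdiag j).1.trans (hdiag j).2)
  -- the normalised matrices
  set W : Matrix (Fin (t + 1)) (Fin (t + 1)) K := Matrix.of fun j l => (z j (L j))⁻¹ * z j l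
  set T : Matrix (Fin (t + 1)) (Fin (t + 1)) K := Matrix.of fun j l => (z j (L j))⁻¹ * D j l
  have hW : ∀ j l, ‖W j l‖ ≤ 1 := fun j l => by
    show ‖(z j (L j))⁻¹ * z j l‖ ≤ 1
    rw [norm_mul, norm_inv, inv_mul_le_one₀ (hσpos j)]
    exact hL j l
  have hP : ∀ j l, ‖(W * M) j l‖ ≤ 1 := fun j l =>
    norm_dotProduct_le zero_le_one (hW j) fun i => hM i l
  have hPT : ∀ j l, ‖(W * M) j l - T j l‖ ≤ ε / θ := fun j l => by
    have h : (W * M) j l = (z j (L j))⁻¹ * (z * M) j l := by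
      simp [W, Matrix.mul_apply, Finset.mul_sum, mul_assoc]
    rw [h, show T j l = (z j (L j))⁻¹ * D j l from rfl, ← mul_sub, norm_mul, norm_inv,
      inv_mul_eq_div]
    exact div_le_div₀ hε0 (hrel j l) hθ0 ((hdiag j).1.trans (hdiag j).2)
  have hεθ1 : ε / θ ≤ 1 := (div_le_one hθ0).2 hεθ.le
  have hT : ∀ j l, ‖T j l‖ ≤ 1 := fun j l => by
    rw [show T j l = (W * M) j l + -((W * M) j l - T j l) by ring]
    refine (IsUltrametricDist.norm_add_le_max _ _).trans (max_le (hP j l) ?_)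
    rw [norm_neg]
    exact (hPT j l).trans hεθ1
  have hcont := norm_det_sub_det_le (div_nonneg hε0 hθ0.le) hP hT hPT
  have hTdet : ‖T.det‖ = θ / σ (Fin.last t) := by
    rw [Matrix.det_of_isLowerTriangular T fun j l hjl => by
      show (z j (L j))⁻¹ * D j l = 0
      rw [hup j l hjl, mul_zero], norm_prod]
    simp only [T, Matrix.of_apply, norm_mul, norm_inv]
    have hnum : ∏ j, ‖D j j‖ = θ * ∏ i : Fin t, σ i.castSucc := by
      rw [Fin.prod_univ_succ, h0]
      congr 1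
      exact Finset.prod_congr rfl fun i _ =>
        hstep i _ (hL _) (hεθ.trans_le ((hdiag _).1.trans (hdiag _).2))
    have hne' : ∏ i : Fin t, σ i.castSucc ≠ 0 :=
      (Finset.prod_pos fun i _ => hσpos _).ne'
    rw [Finset.prod_mul_distrib, hnum, Finset.prod_inv_distrib, Fin.prod_univ_castSucc (f := σ)]
    have hl := (hσpos (Fin.last t)).ne'
    field_simp
  have hlast : σ (Fin.last t) ≤ 1 := hz _ _
  have hθT : θ ≤ ‖T.det‖ := hTdet ▸ le_div_self hθ0.le (hσpos _) hlast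
  have hne : ε / θ < ‖T.det‖ :=
    ((div_lt_iff₀ hθ0).2 (by rwa [← sq])).trans_le hθT
  have hPdet : ‖(W * M).det‖ = ‖T.det‖ := by
    have hlt := hcont.trans_lt hne
    rw [show (W * M).det = T.det + ((W * M).det - T.det) by ring,
      IsUltrametricDist.norm_add_eq_max_of_norm_ne_norm hlt.ne', max_eq_left hlt.le]
  refine hθT.trans (hPdet ▸ ?_)
  rw [Matrix.det_mul, norm_mul]
  exact mul_le_of_le_one_left (norm_nonneg _) (norm_det_le_one hW)

end FA.GaussTower
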