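import Fermat.Agent.GaussTower.Step
import Fermat.Agent.GaussTower.Triangular
import Fermat.Agent.GaussTower.Disc

/-!
# The descent in a level

`Lvl.norm_sys_le_norm_det`: at a point `x` of the open disc where `ω_m` is small against the square
of the system, the system is at most as large as the determinant of a square relation matrix of the
weight part.
-/

set_option autoImplicit false
set_option linter.unusedSectionVars false
set_option linter.style.haveILetI false

noncomputable section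

open Finset NumberField IsDedekindDomain Polynomial Matrix
open scoped Classical

namespace FA.GaussTower

open FA.GaussKolyvagin (Setup IsAux exists_isKappa_base isCycBase_cyclotomic)
open FA.IwasawaMinus (omega ev emb norm_emb sys)
open FA.IwasawaControl (pLvl)
open FA.Kolyvagin (gen gen_spec)
open LRing

variable {p : ℕ} [hp : Fact p.Prime] {m : ℕ}

/-- Evaluations of congruent elements. -/
theorem norm_evHom_sub_le_of_dvd {x : PadicAlgCl p} (hx : ‖x‖ ≤ 1) {f g : ℤ_[p][X]} {e : ℕ}
    (h : (p : LRing p m) ^ e ∣ cls p m f - cls p m g) :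
    ‖evHom x f - evHom x g‖ ≤ max ‖evHom x (omega m)‖ ((p : ℝ)⁻¹ ^ e) := by
  refine norm_ev_sub_le hx ?_
  obtain ⟨d, hd⟩ := h
  obtain ⟨d, rfl⟩ := cls_surjective d
  rw [← map_natCast (cls p m), ← map_pow, ← map_mul, ← map_sub, ← sub_eq_zero, ← map_sub,
    cls_eq_zero_iff] at hd
  obtain ⟨q, hq⟩ := hd
  refine Ideal.mem_span_pair.2 ⟨q, d, ?_⟩
  linear_combination -hq

/-- An element with residue `0` is small on the disc. -/
theorem norm_evHom_le_of_residue {x : PadicAlgCl p} (hx : ‖x‖ ≤ 1) {f : ℤ_[p][X]}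
    (h : PadicInt.toZMod (f.coeff 0) = 0) : ‖evHom x f‖ ≤ max (p : ℝ)⁻¹ ‖x‖ := by
  conv_lhs => rw [← f.X_mul_divX_add]
  rw [map_add, map_mul, show evHom x X = x from eval₂_X _ _,
    show evHom x (C (f.coeff 0)) = emb (f.coeff 0) from eval₂_C _ _, max_comm]
  refine (IsUltrametricDist.norm_add_le_max _ _).trans (max_le_max ?_ ?_)
  · rw [norm_mul]
    exact mul_le_of_le_one_right (norm_nonneg _) (norm_ev_le_one hx _)
  · rw [← RingHom.mem_ker, PadicInt.ker_toZMod, PadicInt.maximalIdeal_eq_span_p,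
      Ideal.mem_span_singleton] at h
    obtain ⟨c, hc⟩ := h
    rw [norm_emb, hc, norm_mul, PadicInt.norm_p]
    exact mul_le_of_le_one_right (by positivity) (PadicInt.norm_le_one c)

variable {b : Brn p} {F : Type} [Field F] [NumberField F] [IsCyclotomicExtension {p ^ (m + 1)} ℚ F]

namespace Lvl

variable (l : Lvl b m F)

/-- **The descent.** -/
theorem norm_sys_le_norm_det (hgP : b.g < p ^ (m + 1)) {x : PadicAlgCl p} (hx : ‖x‖ < 1)
    (hω : ‖evHom x (omega m)‖ < ‖evHom x (sys b.hg b.u m)‖ ^ 2) {t : ℕ} {C : Fin (t + 1) → l.A}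
    {M : Matrix (Fin (t + 1)) (Fin (t + 1)) (LRing p m)} (hM : IsRel C M) {f : ℤ_[p][X]}
    (hf : cls p m f = M.det) : ‖evHom x (sys b.hg b.u m)‖ ≤ ‖evHom x f‖ := by
  set θ := ‖evHom x (sys b.hg b.u m)‖ with hθdef
  have hθ1 : θ ≤ 1 := norm_ev_le_one hx.le _
  have hθ2 : 0 < θ ^ 2 := (norm_nonneg _).trans_lt hω
  have hp1 : (p : ℝ)⁻¹ < 1 := inv_lt_one_of_one_lt₀ (Nat.one_lt_cast.2 hp.out.one_lt)
  obtain ⟨n, hn⟩ := exists_pow_lt_of_lt_one hθ2 hp1
  set k := pLvl p F + n + 1 with hkdef
  have hk : pLvl p F < k := by omega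
  set ε := max ‖evHom x (omega m)‖ ((p : ℝ)⁻¹ ^ (k - pLvl p F)) with hεdef
  have hpow : ∀ {e e' : ℕ}, e' ≤ e → ((p : ℝ)⁻¹) ^ e ≤ (p : ℝ)⁻¹ ^ e' := fun h =>
    pow_le_pow_of_le_one (by positivity) hp1.le h
  have hε : ε < θ ^ 2 := max_lt hω ((hpow (by omega)).trans_lt hn)
  have hωε : ‖evHom x (omega m)‖ ≤ ε := le_max_left _ _
  have hεθ : ε < θ := hε.trans_le (by rw [sq]; exact mul_le_of_le_one_left (norm_nonneg _) hθ1)
  have hs : Setup p (p ^ (m + 1)) k b.g := ⟨hp.out, b.hp5, by omega, b.hg.1, hgP,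
    fun h => FA.IwasawaMinus.gen_ne_zero b.hg ((ZMod.natCast_eq_zero_iff _ _).2 h), ⟨m, rfl⟩⟩
  haveI : NeZero (p ^ (m + 1)) := ⟨pow_ne_zero _ hp.out.ne_zero⟩
  haveI : Algebra.IsAlgebraic ℚ (AlgebraicClosure F) :=
    Algebra.IsAlgebraic.trans ℚ F (AlgebraicClosure F)
  set ι := algebraMap F (AlgebraicClosure F)
  have hι : FA.GaussKolyvagin.IsCycBase (p ^ (m + 1)) ι := isCycBase_cyclotomic _ F
  -- the first state
  obtain ⟨q₀, v₀, -, hq₀, -, -, -, hv₀, hcls₀, -⟩ := l.exists_new hι hs (T := ∅) (by simp)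
    Nat.prime_two (C 0) (ν := Empty) Empty.elim (fun _ _ i => i.elim) Empty.elim Set.finite_empty
  have hA₀ : IsAux (p ^ (m + 1)) ∅ q₀ (gen q₀) :=
    ⟨hv₀.prime, gen_spec hv₀.prime, hq₀.dvd_base, by simp⟩
  obtain ⟨x₀, hx₀⟩ := exists_isKappa_base (F := F) hι hs
    (T := ∅) (by simp) hA₀
  let S₀ : St l ι k C 0 :=
    { T := ∅
      gg := gen q₀
      w := fun _ => v₀
      q := fun _ => q₀
      x := x₀
      hT := by simp
      hA := hA₀
      hdeg := fun i _ => ⟨hv₀.prime, hv₀.norm, one_dvd _, hv₀.ord_r⟩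
      hcls := fun i hi => by rw [Fin.le_zero_iff.1 hi]; exact hcls₀
      hinj := fun i hi i' hi' _ => (Fin.le_zero_iff.1 hi).trans (Fin.le_zero_iff.1 hi').symm
      hTq := fun s => by
        simp only [Finset.notMem_empty, false_iff, not_exists]
        exact fun i h => absurd (h.1.trans_le h.2.1) (lt_irrefl 0)
      hx := hx₀ }
  -- the lifts and the sequence of the states
  set lf : LRing p m → ℤ_[p][X] := Function.surjInv cls_surjective
  have hlf : ∀ r, cls p m (lf r) = r := Function.surjInv_eq _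
  let cR : ∀ j, St l ι k C j → Fin (t + 1) → LRing p m := fun j S =>
    (S.exists_row l hι hs hk.le hM).choose
  have hcR : ∀ j (S : St l ι k C j), S.row = cR j S ᵥ* M := fun j S =>
    (S.exists_row l hι hs hk.le hM).choose_spec
  choose Lm hLm using fun (j : Fin (t + 1)) (S : St l ι k C j) =>
    Finite.exists_max fun i => ‖evHom x (lf (cR j S i))‖
  choose nx Ψ hΨ hnx using fun (i : Fin t) (S : St l ι k C i.castSucc) =>
    S.exists_step l hι hs hk hM (hcR _ S) (Lm _ S)
  let Ss : ∀ j, St l ι k C j := fun j => Fin.induction (motive := fun j => St l ι k C j) S₀ nx j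
  have hS0 : Ss 0 = S₀ := rfl
  have hSs : ∀ i : Fin t, Ss i.succ = nx i (Ss i.castSucc) := fun i =>
    Fin.induction_succ (motive := fun j => St l ι k C j) S₀ nx i
  set z : Matrix (Fin (t + 1)) (Fin (t + 1)) (PadicAlgCl p) :=
    Matrix.of fun j i => evHom x (lf (cR j (Ss j) i))
  set D : Matrix (Fin (t + 1)) (Fin (t + 1)) (PadicAlgCl p) :=
    Matrix.of fun j i => if i ≤ j then evHom x (lf ((Ss j).row i)) else 0
  set Ml : Matrix (Fin (t + 1)) (Fin (t + 1)) ℤ_[p][X] := M.map lf
  have key : θ ≤ ‖((evHom x).mapMatrix Ml).det‖ := by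
    refine norm_le_norm_det (z := z) (D := D) (fun j i => norm_ev_le_one hx.le _)
      (fun j i => norm_ev_le_one hx.le _) (ε := ε) (fun j i => ?_) (fun j i hji => ?_) ?_ ?_ hε hθ1
    · have hsum : (z * (evHom x).mapMatrix Ml) j i =
          evHom x (∑ i', lf (cR j (Ss j) i') * lf (M i' i)) := by
        simp [z, Ml, Matrix.mul_apply, RingHom.mapMatrix_apply]
      have hcls : cls p m (∑ i', lf (cR j (Ss j) i') * lf (M i' i)) = (Ss j).row i := by
        rw [hcR j (Ss j)]
        simp [vecMul, dotProduct, hlf]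
      rw [hsum]
      simp only [D, Matrix.of_apply]
      split_ifs with hi
      · exact (norm_evHom_sub_le hx.le (by rw [hcls, hlf])).trans hωε
      · rw [← map_zero (evHom x)]
        refine (norm_evHom_sub_le hx.le ?_).trans hωε
        rw [hcls, St.row, if_neg hi, map_zero]
    · simp [D, hji.not_ge]
    · simp only [D, Matrix.of_apply, le_refl, if_true, hS0, St.row]
      obtain ⟨u, hu, hred⟩ := l.trOrd_base hι hs hA₀ hv₀.norm hx₀
      obtain ⟨u, rfl⟩ := cls_surjective u
      rw [red_eq_iff] at hred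
      have h1 : ‖evHom x (lf (l.trOrd v₀ x₀)) - evHom x (u * sys b.hg b.u m)‖ < θ := by
        refine ((norm_evHom_sub_le_of_dvd hx.le (by rw [hlf, map_mul]; exact hred)).trans
          (max_le_max le_rfl (hpow (Nat.sub_le k (pLvl p F))))).trans_lt hεθ
      have h2 : ‖evHom x (u * sys b.hg b.u m)‖ = θ := by
        rw [map_mul, norm_mul, norm_evHom_unit hx hu, one_mul]
      show ‖evHom x (lf (l.trOrd v₀ x₀))‖ = θ
      rw [show evHom x (lf (l.trOrd v₀ x₀)) = evHom x (u * sys b.hg b.u m) +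
          (evHom x (lf (l.trOrd v₀ x₀)) - evHom x (u * sys b.hg b.u m)) by ring,
        IsUltrametricDist.norm_add_eq_max_of_norm_ne_norm (by rw [h2]; exact h1.ne'), h2,
        max_eq_left h1.le]
    · intro i l₀ hl₀ hε'
      simp only [D, Matrix.of_apply, le_refl, if_true, hSs]
      set S := Ss i.castSucc
      set c := cR i.castSucc S
      set L := Lm i.castSucc S
      set σ := ‖evHom x (lf (c L))‖
      have hσ : ‖z i.castSucc l₀‖ = σ := le_antisymm (hLm _ S l₀) (hl₀ L)
      rw [hσ] at hε' ⊢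
      have hσ0 : 0 < σ := ((norm_nonneg _).trans hωε).trans_lt hε'
      set N := (nx i S).row i.succ
      have hP : ‖evHom x (lf N) - evHom x (-∑ i', lf (c i') * lf (Ψ i S i'))‖ ≤ ε := by
        refine norm_evHom_sub_le_of_dvd hx.le ?_
        rw [hlf, map_neg, map_sum, sub_neg_eq_add]
        simp only [map_mul, hlf]
        exact hnx i S
      have hsum : ‖evHom x (-∑ i', lf (c i') * lf (Ψ i S i'))‖ = σ := by
        rw [map_neg, norm_neg, map_sum, ← Finset.add_sum_erase _ _ (Finset.mem_univ L)]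
        have hL : ‖evHom x (lf (c L) * lf (Ψ i S L))‖ = σ := by
          rw [map_mul, norm_mul, norm_evHom_unit hx
            (show IsUnit (cls p m (lf (Ψ i S L))) from by
              rw [hlf]
              exact isUnit_of_toZMod_ne fun h => (hΨ i S L).1 h rfl), mul_one]
        have hrest : ‖∑ i' ∈ Finset.univ.erase L, evHom x (lf (c i') * lf (Ψ i S i'))‖ < σ := by
          refine lt_of_le_of_lt (IsUltrametricDist.norm_sum_le_of_forall_le_of_nonneg
            (C := σ * max (p : ℝ)⁻¹ ‖x‖) (by positivity) fun i' hi' => ?_)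
            (mul_lt_of_lt_one_right hσ0 (max_lt hp1 hx))
          rw [map_mul, norm_mul]
          refine mul_le_mul (hLm _ S i') (norm_evHom_le_of_residue hx.le ?_) (norm_nonneg _) hσ0.le
          rw [← aug_cls (m := m), hlf]
          exact (hΨ i S i').2 (Finset.ne_of_mem_erase hi')
        rw [IsUltrametricDist.norm_add_eq_max_of_norm_ne_norm (by rw [hL]; exact hrest.ne'), hL,
          max_eq_left hrest.le]
      have hlt := hP.trans_lt hε'
      rw [show evHom x (lf N) = evHom x (-∑ i', lf (c i') * lf (Ψ i S i')) +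
          (evHom x (lf N) - evHom x (-∑ i', lf (c i') * lf (Ψ i S i'))) by ring,
        IsUltrametricDist.norm_add_eq_max_of_norm_ne_norm (by rw [hsum]; exact hlt.ne'), hsum,
        max_eq_left hlt.le]
  rw [← RingHom.map_det] at key
  have hdet : cls p m Ml.det = cls p m f := by
    rw [hf, RingHom.map_det]
    congr 1
    ext j i
    simp [Ml, hlf]
  have hclose := (norm_evHom_sub_le hx.le hdet).trans hωε
  by_contra hlt
  rw [not_le] at hlt
  rw [show evHom x Ml.det = (evHom x Ml.det - evHom x f) + evHom x f by ring] at key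
  exact absurd (key.trans (IsUltrametricDist.norm_add_le_max _ _))
    (not_le.2 (max_lt (hclose.trans_lt hεθ) hlt))

end Lvl

end FA.GaussTower
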