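import Fermat.Agent.GaussTower.Module
import Mathlib.NumberTheory.NumberField.Cyclotomic.Basic

/-!
# The characters of two levels

For levels `n ≤ m` with `K ⊆ L`: the generators and the characters are compatible (`down_chi`), and
the sum of the character over `Gal(L/K)` is `ν = ω_m / ω_n` (`sum_chi_gal`), whose annihilator is
`(ω_n)` and conversely.
-/

set_option autoImplicit false
set_option linter.unusedSectionVars false
set_option linter.style.haveILetI false

noncomputable section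

open NumberField Polynomial
open scoped Classical

namespace FA.GaussTower

open FA.IwasawaStructure (expo)
open FA.IwasawaMinus (omega res teich)
open LRing

variable {p : ℕ} [hp : Fact p.Prime] {n m : ℕ}

variable (p n m) in
/-- `ω_m / ω_n`. -/
def nuPol : ℤ_[p][X] := ∑ j ∈ Finset.range (p ^ (m - n)), (1 + X) ^ (p ^ n * j)

variable (p n m) in
/-- `ω_m / ω_n` in the ring of the level `m`. -/
def nuH : LRing p m := cls p m (nuPol p n m)

theorem omega_mul_nuPol (h : n ≤ m) : omega n * nuPol p n m = omega m := by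
  have h1 := geom_sum_mul ((1 + X : ℤ_[p][X]) ^ p ^ n) (p ^ (m - n))
  rw [← pow_mul, ← pow_add, Nat.add_sub_cancel' h] at h1
  rw [nuPol, mul_comm, omega, omega, ← h1]
  simp only [pow_mul]

theorem nuPol_ne_zero (h : n ≤ m) : nuPol p n m ≠ 0 := fun h0 => by
  have h1 := omega_mul_nuPol (p := p) h
  rw [h0, mul_zero] at h1
  exact (monic_omega m).ne_zero h1.symm

namespace LRing

theorem down_eq_zero_iff (h : n ≤ m) {a : LRing p m} :
    down p h a = 0 ↔ ∃ d, a = cls p m (omega n) * d := by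
  refine ⟨fun ha => ?_, ?_⟩
  · obtain ⟨f, rfl⟩ := cls_surjective a
    rw [down_cls, cls_eq_zero_iff] at ha
    obtain ⟨q, rfl⟩ := ha
    exact ⟨cls p m q, map_mul _ _ _⟩
  · rintro ⟨d, rfl⟩
    rw [map_mul, down_cls, cls_omega, zero_mul]

theorem omega_mul_nuH (h : n ≤ m) : cls p m (omega n) * nuH p n m = 0 := by
  rw [nuH, ← map_mul, omega_mul_nuPol h, cls_omega]

theorem down_eq_zero_of_mul_nuH (h : n ≤ m) {a : LRing p m} (ha : a * nuH p n m = 0) :
    down p h a = 0 := by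
  obtain ⟨f, rfl⟩ := cls_surjective a
  rw [nuH, ← map_mul, cls_eq_zero_iff, ← omega_mul_nuPol h] at ha
  rw [down_cls, cls_eq_zero_iff]
  exact (mul_dvd_mul_iff_right (nuPol_ne_zero h)).1 ha

theorem exists_eq_nuH_mul (h : n ≤ m) {a : LRing p m} (ha : cls p m (omega n) * a = 0) :
    ∃ d, a = nuH p n m * d := by
  obtain ⟨f, rfl⟩ := cls_surjective a
  rw [← map_mul, cls_eq_zero_iff, ← omega_mul_nuPol h] at ha
  obtain ⟨q, rfl⟩ := (mul_dvd_mul_iff_left (monic_omega (p := p) n).ne_zero).1 ha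
  exact ⟨cls p m q, map_mul _ _ _⟩

theorem down_refl_apply (a : LRing p m) : down p (le_refl m) a = a := by
  obtain ⟨f, rfl⟩ := cls_surjective a
  rw [down_cls]

end LRing

variable {b : Brn p} {K L : Type} [Field K] [NumberField K]
  [IsCyclotomicExtension {p ^ (n + 1)} ℚ K] [Field L] [NumberField L]
  [IsCyclotomicExtension {p ^ (m + 1)} ℚ L] [Algebra K L]

theorem down_wY (h : n ≤ m) : down p h (wY b m) = wY b n := rfl

namespace Lvl

variable (lK : Lvl b n K) (lL : Lvl b m L)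

include lK lL in
/-- The exponent of a restriction. -/
theorem expo_restrict (h : n ≤ m) {σ : L ≃ₐ[ℚ] L} {σ₀ : K ≃ₐ[ℚ] K}
    (hσ : ∀ z, σ (algebraMap K L z) = algebraMap K L (σ₀ z)) :
    ((expo (p ^ (n + 1)) σ₀ : ℕ) : ZMod (p ^ (n + 1))) = (expo (p ^ (m + 1)) σ : ℕ) := by
  haveI : NeZero (p ^ (n + 1)) := ⟨pow_ne_zero _ hp.out.ne_zero⟩
  haveI : NeZero (p ^ (m + 1)) := ⟨pow_ne_zero _ hp.out.ne_zero⟩
  have hz := IsCyclotomicExtension.zeta_spec (p ^ (n + 1)) ℚ K
  set z := IsCyclotomicExtension.zeta (p ^ (n + 1)) ℚ K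
  have hzm : algebraMap K L z ^ p ^ (m + 1) = 1 := by
    rw [← Nat.add_sub_cancel' (show n + 1 ≤ m + 1 by omega), pow_add, pow_mul, ← map_pow,
      hz.pow_eq_one,
      map_one, one_pow]
  have h1 := congrArg (algebraMap K L)
    (IsCyclotomicExtension.Rat.galEquivZMod_apply_of_pow_eq (p ^ (n + 1)) K σ₀ hz.pow_eq_one)
  rw [← hσ, map_pow,
    IsCyclotomicExtension.Rat.galEquivZMod_apply_of_pow_eq (p ^ (m + 1)) L σ hzm] at h1
  have hzL := hz.map_of_injective (algebraMap K L).injective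
  have h2 := (hzL.isOfFinOrder (NeZero.ne _)).pow_eq_pow_iff_modEq.1 h1
  rw [← hzL.eq_orderOf] at h2
  exact ((ZMod.natCast_eq_natCast_iff _ _ _).2 h2).symm

include lK lL in
/-- **The generators are compatible.** -/
theorem restrict_gen (h : n ≤ m) (z : K) :
    lL.γ (algebraMap K L z) = algebraMap K L (lK.γ z) := by
  haveI : IsScalarTower ℚ K L := IsScalarTower.of_algebraMap_eq' (Subsingleton.elim _ _)
  haveI : IsGalois ℚ K := IsCyclotomicExtension.isGalois {p ^ (n + 1)} ℚ K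
  haveI : NeZero (p ^ (n + 1)) := ⟨pow_ne_zero _ hp.out.ne_zero⟩
  have hσ : ∀ z, lL.γ (algebraMap K L z) = algebraMap K L (lL.γ.restrictNormal K z) :=
    fun z => (lL.γ.restrictNormal_commutes K z).symm
  rw [hσ]
  congr 1
  refine DFunLike.congr_fun ((IsCyclotomicExtension.Rat.galEquivZMod (p ^ (n + 1)) K).injective
    (Units.ext ?_)) z
  have h1 := lK.expo_restrict lL h hσ
  have h2 : ((expo (p ^ (m + 1)) lL.γ : ℕ) : ZMod (p ^ (n + 1))) =
      (expo (p ^ (n + 1)) lK.γ : ℕ) := by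
    rw [← pow_one lL.γ, lL.hexp, ← pow_one lK.γ, lK.hexp, res, res, pow_one, pow_one,
      ZMod.natCast_zmod_val, ZMod.natCast_val,
      ← ZMod.castHom_apply (h := pow_dvd_pow p (show n + 1 ≤ m + 1 by omega))
        (R := ZMod (p ^ (n + 1))),
      map_natCast]
  rw [h2] at h1
  simpa only [FA.IwasawaStructure.expo, ZMod.natCast_zmod_val] using h1

include lK lL in
theorem restrict_inv_pow (h : n ≤ m) (j : ℕ) (z : K) :
    (lL.γ⁻¹ ^ j) (algebraMap K L z) = algebraMap K L ((lK.γ⁻¹ ^ j) z) := by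
  induction j generalizing z with
  | zero => rfl
  | succ j ih =>
    rw [pow_succ, pow_succ, AlgEquiv.mul_apply, AlgEquiv.mul_apply, ← ih]
    congr 1
    refine lL.γ.injective ?_
    rw [lK.restrict_gen lL h]
    show lL.γ (lL.γ.symm _) = algebraMap K L (lK.γ (lK.γ.symm z))
    rw [AlgEquiv.apply_symm_apply, AlgEquiv.apply_symm_apply]

include lK lL in
/-- Every automorphism restricts. -/
theorem exists_restrict (h : n ≤ m) (σ : L ≃ₐ[ℚ] L) :
    ∃ σ₀ : K ≃ₐ[ℚ] K, ∀ z, σ (algebraMap K L z) = algebraMap K L (σ₀ z) := by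
  obtain ⟨j, -, rfl⟩ := lL.eq_pow σ
  exact ⟨_, lK.restrict_inv_pow lL h j⟩

include lK lL in
/-- Every automorphism extends. -/
theorem exists_extend (h : n ≤ m) (σ₀ : K ≃ₐ[ℚ] K) :
    ∃ σ : L ≃ₐ[ℚ] L, ∀ z, σ (algebraMap K L z) = algebraMap K L (σ₀ z) := by
  obtain ⟨j, -, rfl⟩ := lK.eq_pow σ₀
  exact ⟨_, lK.restrict_inv_pow lL h j⟩

/-- **The characters are compatible.** -/
theorem down_chi (h : n ≤ m) {σ : L ≃ₐ[ℚ] L} {σ₀ : K ≃ₐ[ℚ] K}
    (hσ : ∀ z, σ (algebraMap K L z) = algebraMap K L (σ₀ z)) :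
    down p h (lL.chi σ) = lK.chi σ₀ := by
  obtain ⟨j, -, rfl⟩ := lL.eq_pow σ
  obtain rfl : σ₀ = lK.γ⁻¹ ^ j := AlgEquiv.ext fun z =>
    (algebraMap K L).injective ((hσ z).symm.trans (lK.restrict_inv_pow lL h j z))
  rw [chi_pow, chi_pow, map_pow, down_wY]

theorem chi_gen_pow : lL.chi (lL.γ ^ (p ^ m - 1)) = yR p m := by
  have h1 : lL.chi (lL.γ ^ (p ^ m - 1)) * wY b m ^ (p ^ m - 1) = 1 := by
    rw [← lL.chi_pow (p ^ m - 1), ← map_mul, ← (Commute.refl lL.γ).inv_right.mul_pow,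
      mul_inv_cancel, one_pow,
      map_one]
  have h2 : yR p m * wY b m ^ (p ^ m - 1) = 1 := by
    obtain ⟨d, hd⟩ := Nat.sub_one_dvd_pow_sub_one p m
    rw [wY_eq, mul_pow, mul_left_comm, ← pow_succ', Nat.sub_add_cancel
      (Nat.one_le_pow m p hp.out.pos), yR_pow, mul_one, hd, ← map_pow, ← C_pow, pow_mul,
      FA.IwasawaMinus.teich_pow_card, one_pow, map_one, map_one]
  exact (IsUnit.of_mul_eq_one _ ((mul_comm _ _).trans h2)).mul_right_cancel (h1.trans h2.symm)

include lK in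
/-- The degree. -/
theorem finrank_levels (h : n ≤ m) : Module.finrank K L = p ^ (m - n) := by
  haveI : IsScalarTower ℚ K L := IsScalarTower.of_algebraMap_eq' (Subsingleton.elim _ _)
  haveI : NeZero (p ^ (n + 1)) := ⟨pow_ne_zero _ hp.out.ne_zero⟩
  haveI : NeZero (p ^ (m + 1)) := ⟨pow_ne_zero _ hp.out.ne_zero⟩
  have h1 := Module.finrank_mul_finrank ℚ K L
  rw [IsCyclotomicExtension.Rat.finrank (p ^ (n + 1)) K,
    IsCyclotomicExtension.Rat.finrank (p ^ (m + 1)) L, Nat.totient_prime_pow_succ hp.out,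
    Nat.totient_prime_pow_succ hp.out] at h1
  refine Nat.eq_of_mul_eq_mul_left (Nat.mul_pos (pow_pos hp.out.pos n)
    (Nat.sub_pos_of_lt hp.out.one_lt)) (h1.trans ?_)
  rw [mul_right_comm, ← pow_add, Nat.add_sub_cancel' h]

include lK in
/-- **The sum of the character over the group of the levels.** -/
theorem sum_chi_gal (h : n ≤ m) :
    ∑ g : L ≃ₐ[K] L, lL.chi (g.restrictScalars ℚ) = nuH p n m := by
  haveI : IsScalarTower ℚ K L := IsScalarTower.of_algebraMap_eq' (Subsingleton.elim _ _)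
  haveI : IsGalois ℚ L := IsCyclotomicExtension.isGalois {p ^ (m + 1)} ℚ L
  haveI : IsGalois K L := IsGalois.tower_top_of_isGalois ℚ K L
  set τ := lL.γ ^ (p ^ m - 1)
  have hfix : ∀ (j : ℕ) (z : K), (τ ^ (p ^ n * j)) (algebraMap K L z) = algebraMap K L z := by
    intro j z
    have hres : ∀ (e : ℕ) (z : K),
        (lL.γ ^ e) (algebraMap K L z) = algebraMap K L ((lK.γ ^ e) z) := fun e => by
      induction e with
      | zero => intro z; rfl
      | succ e ih =>
        intro z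
        rw [pow_succ, pow_succ, AlgEquiv.mul_apply, AlgEquiv.mul_apply, lK.restrict_gen lL h, ih]
    obtain ⟨d, hd⟩ := Nat.sub_one_dvd_pow_sub_one p m
    rw [← pow_mul, hres, orderOf_dvd_iff_pow_eq_one.1 (show orderOf lK.γ ∣ _ from ?_)]
    · rfl
    · rw [lK.hγ, hd, phiN]
      exact ⟨d * j, by ring⟩
  let e : Fin (p ^ (m - n)) → (L ≃ₐ[K] L) := fun j =>
    AlgEquiv.ofRingEquiv (f := (τ ^ (p ^ n * (j : ℕ))).toRingEquiv) (hfix j)
  have he : ∀ j, (e j).restrictScalars ℚ = τ ^ (p ^ n * (j : ℕ)) := fun j =>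
    AlgEquiv.ext fun z => rfl
  have hinj : Function.Injective e := fun j j' hjj => by
    have h1 := (he j).symm.trans ((congrArg (AlgEquiv.restrictScalars ℚ) hjj).trans (he j'))
    have hord : orderOf τ = p ^ m := by
      have hcop : ((p - 1) * p ^ m).gcd (p ^ m - 1) = p - 1 := by
        obtain ⟨d, hd⟩ := Nat.sub_one_dvd_pow_sub_one p m
        refine Nat.dvd_antisymm ?_ (Nat.dvd_gcd (dvd_mul_right _ _) (Dvd.intro d hd.symm))
        refine Nat.Coprime.dvd_of_dvd_mul_right ?_ (Nat.gcd_dvd_left _ _)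
        have hc : (p ^ m - 1).Coprime (p ^ m) := by
          rw [Nat.coprime_comm, Nat.coprime_self_sub_right (Nat.one_le_pow m p hp.out.pos)]
          exact Nat.coprime_one_right _
        exact hc.coprime_dvd_left (Nat.gcd_dvd_right _ _)
      rw [orderOf_pow, lL.hγ, phiN, hcop, Nat.mul_div_cancel_left _
        (Nat.sub_pos_of_lt hp.out.one_lt)]
    have hlt : ∀ j : Fin (p ^ (m - n)), p ^ n * (j : ℕ) < orderOf τ := fun j => by
      rw [hord]
      calc p ^ n * (j : ℕ) < p ^ n * p ^ (m - n) :=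
            Nat.mul_lt_mul_of_pos_left j.2 (pow_pos hp.out.pos n)
        _ = p ^ m := by rw [← pow_add, Nat.add_sub_cancel' h]
    exact Fin.ext (Nat.eq_of_mul_eq_mul_left (pow_pos hp.out.pos n)
      (pow_injOn_Iio_orderOf (hlt j) (hlt j') h1))
  have hbij : Function.Bijective e := (Fintype.bijective_iff_injective_and_card e).2 ⟨hinj, by
    rw [Fintype.card_fin, ← Nat.card_eq_fintype_card, IsGalois.card_aut_eq_finrank,
      lK.finrank_levels h]⟩
  rw [← hbij.sum_comp, nuH, nuPol, map_sum, Finset.sum_range]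
  refine Finset.sum_congr rfl fun j _ => ?_
  rw [he, map_pow, lL.chi_gen_pow, yR, map_pow]

end Lvl

end FA.GaussTower
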