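import Mathlib.LinearAlgebra.FreeModule.Finite.Quotient
import Mathlib.LinearAlgebra.Determinant
import Mathlib.LinearAlgebra.Vandermonde
import Mathlib.NumberTheory.Padics.RingHoms
import Mathlib.RingTheory.Norm.Basic
import Mathlib.RingTheory.PowerSeries.Inverse

/-!
# Determinants and indices

* `exists_smith`: over a principal ideal domain the cokernel of an injective endomorphism of a free
  module is a product of `R / (a j)` with the determinant associated to `∏ a j`;
* `inv_natCard_quotient_range`: over `ℤ_p` the inverse of the index is the absolute value of the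
  determinant;
* `natCard_quotient_range_series`: over `𝔽_p⟦X⟧` the index is `p` to the order of the determinant;
* `norm_eq_prod`: a norm is the product of the values at enough homomorphisms separating the
  generator.
-/

set_option autoImplicit false

noncomputable section

open Matrix Module
open scoped Classical

namespace FA.GaussTower

/-- **Smith form of an injective endomorphism.** -/
theorem exists_smith {R M ι : Type*} [CommRing R] [IsDomain R] [IsPrincipalIdealRing R]
    [AddCommGroup M] [Module R M] [Fintype ι] (b : Basis ι R M) (f : M →ₗ[R] M)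
    (hf : Function.Injective f) :
    ∃ a : ι → R, (∀ j, a j ≠ 0) ∧ Associated (LinearMap.det f) (∏ j, a j) ∧
      Nonempty ((M ⧸ LinearMap.range f) ≃ₗ[R] ∀ j, R ⧸ Ideal.span {a j}) := by
  set N := LinearMap.range f
  have h : Module.finrank R N = Module.finrank R M := (LinearEquiv.ofInjective f hf).symm.finrank_eq
  set a := Submodule.smithNormalFormCoeffs b h with ha
  set b' := Submodule.smithNormalFormTopBasis b h with hb'
  set ab := Submodule.smithNormalFormBotBasis b h with hab
  refine ⟨a, Submodule.smithNormalFormCoeffs_ne_zero b h, ?_, ⟨N.quotientEquivPiSpan b h⟩⟩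
  have hd : LinearMap.det (N.subtype ∘ₗ ↑(b'.equiv ab (Equiv.refl ι))) = ∏ j, a j := by
    rw [← LinearMap.det_toMatrix b', ← Matrix.det_diagonal]
    congr 1
    ext j k
    rw [LinearMap.toMatrix_apply, LinearMap.comp_apply, LinearEquiv.coe_coe, b'.equiv_apply,
      Equiv.refl_apply, N.subtype_apply, hab, Submodule.smithNormalFormBotBasis_def, ← hb', ← ha,
      map_smul, b'.repr_self, Finsupp.smul_single, smul_eq_mul, mul_one, Finsupp.single_apply,
      Matrix.diagonal_apply]
    split_ifs <;> simp_all
  rw [← hd]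
  exact LinearMap.associated_det_comp_equiv N.subtype (LinearEquiv.ofInjective f hf) _

variable {p : ℕ} [hp : Fact p.Prime]

/-- The index of a principal ideal of `ℤ_p`. -/
theorem inv_natCard_quotient_span {a : ℤ_[p]} (ha : a ≠ 0) :
    (Nat.card (ℤ_[p] ⧸ Ideal.span {a}) : ℝ)⁻¹ = ‖a‖ := by
  have hI : Ideal.span {a} = Ideal.span {(p : ℤ_[p]) ^ a.valuation} :=
    Ideal.span_singleton_eq_span_singleton.2 ⟨(PadicInt.unitCoeff ha)⁻¹,
      (Units.mul_inv_eq_iff_eq_mul _).2 ((PadicInt.unitCoeff_spec ha).trans (mul_comm _ _))⟩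
  rw [hI, ← PadicInt.ker_toZModPow, Nat.card_congr (RingHom.quotientKerEquivOfSurjective
    (ZMod.ringHom_surjective _)).toEquiv, Nat.card_zmod, PadicInt.norm_eq_zpow_neg_valuation ha,
    _root_.zpow_neg, zpow_natCast, Nat.cast_pow]

/-- **The index of an endomorphism over `ℤ_p`.** -/
theorem inv_natCard_quotient_range {M ι : Type*} [AddCommGroup M] [Module ℤ_[p] M] [Fintype ι]
    (b : Basis ι ℤ_[p] M) (f : M →ₗ[ℤ_[p]] M) (hf : Function.Injective f) :
    (Nat.card (M ⧸ LinearMap.range f) : ℝ)⁻¹ = ‖LinearMap.det f‖ := by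
  obtain ⟨a, ha, ⟨w, hw⟩, ⟨e⟩⟩ := exists_smith b f hf
  rw [Nat.card_congr e.toEquiv, Nat.card_pi, Nat.cast_prod, ← Finset.prod_inv_distrib,
    Finset.prod_congr rfl fun j _ => inv_natCard_quotient_span (ha j), ← norm_prod, ← hw,
    norm_mul, PadicInt.norm_units, mul_one]

/-- The index of a power of the variable. -/
theorem natCard_quotient_X_pow (v : ℕ) :
    Nat.card (PowerSeries (ZMod p) ⧸ Ideal.span {(PowerSeries.X : PowerSeries (ZMod p)) ^ v}) =
      p ^ v := by
  let φ : PowerSeries (ZMod p) →+ (Fin v → ZMod p) :=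
    { toFun := fun F j => PowerSeries.coeff (j : ℕ) F
      map_zero' := funext fun j => map_zero _
      map_add' := fun F G => funext fun j => map_add _ F G }
  have hker : φ.ker = (Ideal.span {(PowerSeries.X : PowerSeries (ZMod p)) ^ v}).toAddSubgroup := by
    ext F
    rw [Submodule.mem_toAddSubgroup, Ideal.mem_span_singleton, PowerSeries.X_pow_dvd_iff]
    exact ⟨fun h j hj => congrFun h ⟨j, hj⟩, fun h => funext fun j => h _ j.2⟩
  have hsurj : Function.Surjective φ := fun c =>
    ⟨PowerSeries.mk fun j => if h : j < v then c ⟨j, h⟩ else 0, funext fun j => by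
      simp only [φ, AddMonoidHom.coe_mk, ZeroHom.coe_mk, PowerSeries.coeff_mk, dif_pos j.2]⟩
  show (Ideal.span {(PowerSeries.X : PowerSeries (ZMod p)) ^ v}).toAddSubgroup.index = p ^ v
  rw [← hker, AddSubgroup.index_ker, AddMonoidHom.range_eq_top.2 hsurj, AddSubgroup.card_top,
    Nat.card_fun, Nat.card_zmod, Nat.card_eq_fintype_card, Fintype.card_fin]

/-- **The index of an endomorphism over `𝔽_p⟦X⟧`.** -/
theorem natCard_quotient_range_series {M ι : Type*} [AddCommGroup M]
    [Module (PowerSeries (ZMod p)) M] [Fintype ι] (b : Basis ι (PowerSeries (ZMod p)) M)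
    (f : M →ₗ[PowerSeries (ZMod p)] M) (hf : Function.Injective f) {lam : ℕ}
    (hdet : Associated (LinearMap.det f) (PowerSeries.X ^ lam)) :
    Nat.card (M ⧸ LinearMap.range f) = p ^ lam := by
  obtain ⟨a, -, had, ⟨e⟩⟩ := exists_smith b f hf
  have hX : Prime (PowerSeries.X : PowerSeries (ZMod p)) := PowerSeries.X_prime
  have hprod := had.symm.trans hdet
  have hv : ∀ j, ∃ v, Associated (a j) (PowerSeries.X ^ v) := fun j => by
    obtain ⟨v, -, hv⟩ := (dvd_prime_pow hX lam).1
      ((Finset.dvd_prod_of_mem a (Finset.mem_univ j)).trans hprod.dvd)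
    exact ⟨v, hv⟩
  choose v hv using hv
  have hsum : ∑ j, v j = lam := by
    have h : Associated ((PowerSeries.X : PowerSeries (ZMod p)) ^ ∑ j, v j)
        (PowerSeries.X ^ lam) := by
      rw [← Finset.prod_pow_eq_pow_sum]
      exact (Associated.prod _ _ _ fun j _ => (hv j).symm).trans hprod
    exact le_antisymm ((pow_dvd_pow_iff hX.ne_zero hX.not_isUnit).1 h.dvd)
      ((pow_dvd_pow_iff hX.ne_zero hX.not_isUnit).1 h.dvd')
  rw [Nat.card_congr e.toEquiv, Nat.card_pi, ← hsum, ← Finset.prod_pow_eq_pow_sum]
  refine Finset.prod_congr rfl fun j _ => ?_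
  rw [Ideal.span_singleton_eq_span_singleton.2 (hv j), natCard_quotient_X_pow]

/-- **A norm as a product of values.** -/
theorem norm_eq_prod {R S T : Type*} [CommRing R] [CommRing S] [Algebra R S] [CommRing T]
    [IsDomain T] (pb : PowerBasis R S) (e : R →+* T) (φ : Fin pb.dim → S →+* T)
    (hφ : ∀ k r, φ k (algebraMap R S r) = e r)
    (hinj : Function.Injective fun k => φ k pb.gen) (a : S) :
    e (Algebra.norm R a) = ∏ k, φ k a := by
  set W := Matrix.vandermonde fun k => φ k pb.gen
  set B := (Algebra.leftMulMatrix pb.basis a).map e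
  have hW : W.det ≠ 0 := Matrix.det_vandermonde_ne_zero_iff.2 hinj
  have hmul : W * B = Matrix.diagonal (fun k => φ k a) * W := by
    ext k j
    rw [Matrix.diagonal_mul, Matrix.mul_apply]
    calc ∑ i, W k i * B i j
        = φ k (∑ i, Algebra.leftMulMatrix pb.basis a i j • pb.basis i) := by
          rw [map_sum]
          refine Finset.sum_congr rfl fun i _ => ?_
          rw [Algebra.smul_def, map_mul, hφ, pb.basis_eq_pow, map_pow]
          exact mul_comm _ _
      _ = φ k a * W k j := by
          simp only [Algebra.leftMulMatrix_eq_repr_mul, pb.basis.sum_repr, map_mul]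
          rw [pb.basis_eq_pow, map_pow]
          rfl
  have h := congrArg Matrix.det hmul
  rw [Matrix.det_mul, Matrix.det_mul, Matrix.det_diagonal, mul_comm] at h
  rw [Algebra.norm_eq_matrix_det pb.basis, RingHom.map_det]
  exact mul_right_cancel₀ hW h

end FA.GaussTower
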