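import Fermat.Agent.GaussTower.Compare
import Fermat.Agent.IwasawaControl.Branch
import Mathlib.GroupTheory.FiniteAbelian.Basic

/-!
# The bottom level

`Lvl.exists_isRel_zero`: the weight part of `ℚ(ζ_p)` has a square relation matrix whose determinant
is, up to a unit, the constant term of the system.
-/

set_option autoImplicit false
set_option linter.unusedSectionVars false
set_option linter.style.haveILetI false

noncomputable section

open NumberField Polynomial Matrix
open scoped Classical DirectSum

namespace FA.GaussTower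

open FA.IwasawaMinus (omega sys)
open FA.IwasawaControl (pLvl wPart)
open LRing

variable {p : ℕ} [hp : Fact p.Prime] {b : Brn p} {K : Type} [Field K] [NumberField K]
  [IsCyclotomicExtension {p ^ (0 + 1)} ℚ K]

namespace Lvl

variable (l : Lvl b 0 K)

theorem eq_cls_C_aug (r : LRing p 0) : r = cls p 0 (C (aug p 0 r)) := by
  obtain ⟨d, hd⟩ := exists_eq_aug_add r
  have hX : cls p 0 (X : ℤ_[p][X]) = 0 := by
    rw [cls_eq_zero_iff, omega, pow_zero, pow_one, add_sub_cancel_left]
  rw [hX, zero_mul, add_zero] at hd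
  exact hd

/-- The order of the weight part of the bottom level. -/
theorem card_A : Nat.card l.A = p ^ FA.GaussKolyvagin.bexp p b.i := by
  haveI : IsCyclotomicExtension {p} ℚ K := by
    have h : IsCyclotomicExtension {p ^ (0 + 1)} ℚ K := inferInstance
    simpa using h
  haveI : NeZero (p ^ (0 + 1)) := ⟨pow_ne_zero _ hp.out.ne_zero⟩
  haveI : NeZero p := ⟨hp.out.ne_zero⟩
  rw [← FA.IwasawaControl.card_wPart_base K b.hp5 b.hi b.hi3 b.hip]
  exact (Nat.card_congr Additive.toMul).trans
    (Nat.card_congr (Equiv.subtypeEquivRight fun x => mem_wPart_congr (by simp)))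

/-- **The bottom level.** -/
theorem exists_isRel_zero : ∃ (t : ℕ) (Cg : Fin (t + 1) → l.A)
    (M : Matrix (Fin (t + 1)) (Fin (t + 1)) (LRing p 0)), IsRel Cg M ∧
      Associated (aug p 0 M.det) ((sys b.hg b.u 0).coeff 0) := by
  obtain ⟨ι, _, q, hq, e, ⟨f₀⟩⟩ := AddCommGroup.equiv_directSum_zmod_of_finite (G := l.A)
  set N : ι → ℕ := fun i => q i ^ e i
  haveI : ∀ i, NeZero (N i) := fun i => ⟨pow_ne_zero _ (hq i).ne_zero⟩
  let f : l.A ≃+ (∀ i, ZMod (N i)) :=
    f₀.trans (DirectSum.linearEquivFunOnFintype ℕ ι fun i => ZMod (N i)).toAddEquiv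
  let n : Option ι → ℕ := fun o => o.elim 1 N
  let c : Option ι → l.A := fun o => o.elim 0 fun i => f.symm (Pi.single i 1)
  have hnone : c none = 0 := rfl
  have hsome : ∀ i, c (some i) = f.symm (Pi.single i 1) := fun i => rfl
  set a := pLvl p K
  haveI : NeZero (p ^ a) := ⟨pow_ne_zero _ hp.out.ne_zero⟩
  have hdvd : ∀ i, N i ∣ p ^ a := fun i => by
    have h := congrFun (congrArg f (l.natCast_pow_smul (c (some i)))) i
    rw [← Nat.cast_pow, Nat.cast_smul_eq_nsmul, map_nsmul, map_zero, hsome, f.apply_symm_apply,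
      Pi.smul_apply, Pi.single_eq_same, nsmul_one] at h
    exact (ZMod.natCast_eq_zero_iff _ _).1 h
  have hrel : IsRel c (Matrix.diagonal fun o => (n o : LRing p 0)) := by
    refine ⟨fun x => ⟨fun o => o.elim 0 fun i => ((f x i).val : LRing p 0), ?_⟩, fun o => ?_,
      fun g hg => ?_⟩
    · rw [Fintype.sum_option]
      simp only [Option.elim_none, Option.elim_some, zero_smul, zero_add, hsome,
        Nat.cast_smul_eq_nsmul]
      refine f.injective (funext fun j => ?_)
      simp only [map_sum, map_nsmul, AddEquiv.apply_symm_apply, Finset.sum_apply, Pi.smul_apply]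
      rw [Finset.sum_eq_single j
        (fun i _ hi => by rw [Pi.single_eq_of_ne (Ne.symm hi), smul_zero])
        (fun hn => absurd (Finset.mem_univ j) hn), Pi.single_eq_same, nsmul_one,
        ZMod.natCast_zmod_val]
    · rw [Finset.sum_eq_single o (fun o' _ ho => by
          rw [diagonal_apply_ne _ (Ne.symm ho), zero_smul])
        (fun ho => absurd (Finset.mem_univ o) ho), diagonal_apply_eq, Nat.cast_smul_eq_nsmul]
      rcases o with _ | i
      · rw [hnone, smul_zero]
      · refine f.injective (funext fun j => ?_)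
        rw [hsome, map_nsmul, f.apply_symm_apply, map_zero, Pi.smul_apply, Pi.zero_apply]
        rcases eq_or_ne j i with rfl | hj
        · rw [Pi.single_eq_same, nsmul_one]
          exact ZMod.natCast_self _
        · rw [Pi.single_eq_of_ne hj, smul_zero]
    · -- a relation
      set v : Option ι → ℕ := fun o => (PadicInt.toZModPow a (aug p 0 (g o))).val
      have hg' : ∀ o, ∃ d, g o = (v o : LRing p 0) + (p : LRing p 0) ^ a * d := fun o => by
        obtain ⟨d, hd⟩ := red_eq_iff.1 (red_natCast_val (m := 0) (k := a) (aug p 0 (g o))).symm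
        rw [← eq_cls_C_aug] at hd
        exact ⟨d, (eq_add_of_sub_eq hd).trans (add_comm _ _)⟩
      choose d hd using hg'
      have hv : ∀ i, N i ∣ v (some i) := fun i => by
        have h : f (∑ o, g o • c o) i = 0 := by rw [hg, map_zero, Pi.zero_apply]
        rw [Fintype.sum_option, hnone, smul_zero, zero_add] at h
        simp only [hd, add_smul, mul_comm ((p : LRing p 0) ^ a), mul_smul,
          show ∀ x : l.A, (p : LRing p 0) ^ a • x = 0 from l.natCast_pow_smul, smul_zero, add_zero,
          hsome, Nat.cast_smul_eq_nsmul, map_sum, map_nsmul, AddEquiv.apply_symm_apply,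
          Finset.sum_apply, Pi.smul_apply] at h
        rw [Finset.sum_eq_single i
          (fun i' _ hi => by rw [Pi.single_eq_of_ne (Ne.symm hi), smul_zero])
          (fun hn => absurd (Finset.mem_univ i) hn), Pi.single_eq_same, nsmul_one] at h
        exact (ZMod.natCast_eq_zero_iff _ _).1 h
      have hg2 : ∀ o, (n o : LRing p 0) ∣ g o := fun o => by
        rcases o with _ | i
        · simp [n]
        · rw [hd]
          refine dvd_add (Nat.cast_dvd_cast (hv i)) (Dvd.dvd.mul_right ?_ _)
          rw [← Nat.cast_pow]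
          exact Nat.cast_dvd_cast (hdvd i)
      choose c' hc' using hg2
      refine ⟨c', funext fun o => ?_⟩
      rw [vecMul_diagonal, hc', mul_comm]
  obtain ⟨t, ht⟩ : ∃ t, Fintype.card (Option ι) = t + 1 := ⟨_, Fintype.card_option⟩
  let σ : Fin (t + 1) ≃ Option ι := (Fintype.equivFinOfCardEq ht).symm
  refine ⟨t, _, _, hrel.reindex σ, ?_⟩
  have hcard : ∏ o, n o = p ^ FA.GaussKolyvagin.bexp p b.i := by
    rw [Fintype.prod_option, show n none = 1 from rfl, one_mul, ← l.card_A,
      Nat.card_congr f.toEquiv, Nat.card_pi]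
    exact Finset.prod_congr rfl fun i _ => (Nat.card_zmod _).symm
  rw [det_submatrix_equiv_self, det_diagonal, ← Nat.cast_prod, hcard, map_natCast, Nat.cast_pow]
  obtain ⟨-, -, hn⟩ := FA.IwasawaControl.branch_residue_spec b.hp5 b.hg b.hi b.hi3 b.hip b.hu
  set s := (sys b.hg b.u 0).coeff 0
  have hs : s ≠ 0 := fun h => by
    rw [h, norm_zero] at hn
    exact (pow_ne_zero _ (inv_ne_zero (Nat.cast_ne_zero.2 hp.out.ne_zero))) hn.symm
  have hv : s.valuation = FA.GaussKolyvagin.bexp p b.i := by
    rw [PadicInt.norm_eq_zpow_neg_valuation hs, _root_.zpow_neg, zpow_natCast, _root_.inv_pow,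
      _root_.inv_inj] at hn
    exact Nat.pow_right_injective hp.out.two_le (by exact_mod_cast hn)
  refine ⟨PadicInt.unitCoeff hs, ?_⟩
  rw [← hv, mul_comm]
  exact (PadicInt.unitCoeff_spec hs).symm

end Lvl

end FA.GaussTower
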