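import Fermat.Agent.GaussTower.Descent
import Fermat.Agent.GaussTower.LevelZero
import Mathlib.NumberTheory.Cyclotomic.PrimitiveRoots

/-!
# The minus part of the main conjecture

`associated_det_sys`: for every level the determinant of a square relation matrix of the weight
part is the system of the branch up to a unit of `ℤ_p[X] / (ω_n)`.
-/

set_option autoImplicit false
set_option linter.unusedSectionVars false
set_option linter.style.haveILetI false

noncomputable section

open NumberField Polynomial Matrix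
open scoped Classical

namespace FA.GaussTower

open FA.IwasawaMinus (omega sys sys_compatible Compatible)
open FA.IwasawaControl (pLvl)
open LRing

variable {p : ℕ} [hp : Fact p.Prime] {b : Brn p}

variable (p) in
/-- The standard level. -/
abbrev Fam (m : ℕ) : Type := CyclotomicField (p ^ (m + 1)) ℚ

variable (p) in
instance isCyclotomic_fam (m : ℕ) : IsCyclotomicExtension {p ^ (m + 1)} ℚ (Fam p m) := by
  haveI : NeZero ((p ^ (m + 1) : ℕ) : ℚ) := ⟨Nat.cast_ne_zero.2 (pow_ne_zero _ hp.out.ne_zero)⟩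
  convert CyclotomicField.isCyclotomicExtension (p ^ (m + 1)) ℚ
  all_goals rfl

/-- A level embeds in a higher one. -/
theorem exists_levelHom {n m : ℕ} (h : n ≤ m) (K L : Type) [Field K] [NumberField K]
    [IsCyclotomicExtension {p ^ (n + 1)} ℚ K] [Field L] [NumberField L]
    [IsCyclotomicExtension {p ^ (m + 1)} ℚ L] : Nonempty (K →+* L) := by
  haveI : NeZero (p ^ (n + 1)) := ⟨pow_ne_zero _ hp.out.ne_zero⟩
  haveI : NeZero (p ^ (m + 1)) := ⟨pow_ne_zero _ hp.out.ne_zero⟩
  have hz := IsCyclotomicExtension.zeta_spec (p ^ (n + 1)) ℚ K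
  have hL := (IsCyclotomicExtension.zeta_spec (p ^ (m + 1)) ℚ L).pow
    (pow_pos hp.out.pos _) (show p ^ (m + 1) = p ^ (m - n) * p ^ (n + 1) by
      rw [← pow_add]; congr 1; omega)
  exact ⟨((hz.embeddingsEquivPrimitiveRoots L (Polynomial.cyclotomic.irreducible_rat
    (NeZero.pos _))).symm ⟨_, (mem_primitiveRoots (NeZero.pos _)).2 hL⟩).toRingHom⟩

namespace Lvl

variable {m : ℕ} {L : Type} [Field L] [NumberField L] [IsCyclotomicExtension {p ^ (m + 1)} ℚ L]

/-- **Square relation matrices exist.** -/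
theorem exists_rel (l : Lvl b m L) : ∃ (t : ℕ) (C : Fin (t + 1) → l.A)
    (M : Matrix (Fin (t + 1)) (Fin (t + 1)) (LRing p m)), IsRel C M := by
  obtain ⟨φ⟩ := exists_levelHom (p := p) (Nat.zero_le m) (Fam p 0) L
  letI : Algebra (Fam p 0) L := φ.toAlgebra
  obtain ⟨lK⟩ := exists_lvl b 0 (Fam p 0)
  haveI : Fintype l.A := Fintype.ofFinite _
  obtain ⟨t, ht⟩ : ∃ t, Fintype.card l.A = t + 1 :=
    ⟨_, (Nat.sub_add_cancel (Fintype.card_pos (α := l.A))).symm⟩
  set C : Fin (t + 1) → l.A := fun j => (Fintype.equivFinOfCardEq ht).symm j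
  obtain ⟨M, hM⟩ := exists_isRel (lK.hfix l) C fun a =>
    ⟨Pi.single (Fintype.equivFinOfCardEq ht a) 1, by
      rw [Finset.sum_eq_single (Fintype.equivFinOfCardEq ht a)
        (fun i _ hi => by rw [Pi.single_eq_of_ne hi]; exact zero_smul _ (C i))
        (fun hn => absurd (Finset.mem_univ _) hn), Pi.single_eq_same, one_smul]
      exact (Fintype.equivFinOfCardEq ht).symm_apply_apply a⟩
  exact ⟨t, C, M, hM⟩

/-- **The constant term of a determinant.** -/
theorem associated_aug_det (l : Lvl b m L) {t : ℕ} {C : Fin (t + 1) → l.A}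
    {M : Matrix (Fin (t + 1)) (Fin (t + 1)) (LRing p m)} (hM : IsRel C M) :
    Associated (aug p m M.det) ((sys b.hg b.u 0).coeff 0) := by
  obtain ⟨φ⟩ := exists_levelHom (p := p) (Nat.zero_le m) (Fam p 0) L
  letI : Algebra (Fam p 0) L := φ.toAlgebra
  obtain ⟨lK⟩ := exists_lvl b 0 (Fam p 0)
  obtain ⟨t₀, C₀, M₀, hM₀, h₀⟩ := lK.exists_isRel_zero
  have h := lK.associated_down_det l (Nat.zero_le m) (lK.phi_injective l) hM hM₀
  rw [← aug_down (Nat.zero_le m)]
  exact (h.map (aug p 0 : LRing p 0 →* ℤ_[p])).trans h₀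

/-- **Two levels.** -/
theorem associated_down {n : ℕ} {K : Type} [Field K] [NumberField K]
    [IsCyclotomicExtension {p ^ (n + 1)} ℚ K] (lK : Lvl b n K) (l : Lvl b m L) (h : n ≤ m)
    {t : ℕ} {C : Fin (t + 1) → l.A}
    {M : Matrix (Fin (t + 1)) (Fin (t + 1)) (LRing p m)} (hM : IsRel C M)
    {t' : ℕ} {C' : Fin (t' + 1) → lK.A}
    {M' : Matrix (Fin (t' + 1)) (Fin (t' + 1)) (LRing p n)} (hM' : IsRel C' M') :
    Associated (down p h M.det) M'.det := by
  obtain ⟨φ⟩ := exists_levelHom (p := p) h K L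
  letI : Algebra K L := φ.toAlgebra
  obtain ⟨r, hr⟩ := lK.down_det_dvd l h hM hM'
  have h1 := l.associated_aug_det hM
  have h2 := lK.associated_aug_det hM'
  rw [hr, map_mul, aug_down] at h2
  have h3 := h2.trans h1.symm
  have hne : aug p m M.det ≠ 0 := fun h0 => by
    rw [h0] at h1
    have h4 := (FA.IwasawaControl.branch_residue_spec b.hp5 b.hg b.hi b.hi3 b.hip b.hu).2.2
    rw [h1.eq_zero_iff.1 rfl, norm_zero] at h4
    exact (pow_ne_zero _ (inv_ne_zero (Nat.cast_ne_zero.2 hp.out.ne_zero))) h4.symm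
  obtain ⟨w, hw⟩ := h3
  have hu : IsUnit r := isUnit_iff.2 (IsUnit.of_mul_eq_one (w : ℤ_[p])
    (mul_left_cancel₀ hne (by rw [← mul_assoc, hw, mul_one])))
  exact ⟨hu.unit, hr.symm⟩

end Lvl

variable (b) in
/-- The chosen determinants. -/
def detFam (m : ℕ) : LRing p m :=
  haveI : NeZero (p ^ (m + 1)) := ⟨pow_ne_zero _ hp.out.ne_zero⟩
  (Lvl.exists_rel (Classical.choice (exists_lvl b m (Fam p m)))).choose_spec.choose_spec.choose.det

theorem exists_detFam (m : ℕ) : ∃ (l : Lvl b m (Fam p m)) (t : ℕ) (C : Fin (t + 1) → l.A)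
    (M : Matrix (Fin (t + 1)) (Fin (t + 1)) (LRing p m)), IsRel C M ∧ M.det = detFam b m :=
  ⟨_, _, _, _, (Lvl.exists_rel (Classical.choice
    (exists_lvl b m (Fam p m)))).choose_spec.choose_spec.choose_spec, rfl⟩

/-- **The main conjecture**: the determinant is the system. -/
theorem Lvl.associated_det_sys {n : ℕ} {L : Type} [Field L] [NumberField L]
    [IsCyclotomicExtension {p ^ (n + 1)} ℚ L] (l : Lvl b n L) {t : ℕ} {C : Fin (t + 1) → l.A}
    {M : Matrix (Fin (t + 1)) (Fin (t + 1)) (LRing p n)} (hM : IsRel C M) :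
    Associated M.det (cls p n (sys b.hg b.u n)) := by
  obtain ⟨l₁, t₁, C₁, M₁, hM₁, hd₁⟩ := exists_detFam (b := b) n
  have hsame := l₁.associated_down l le_rfl hM hM₁
  rw [down_refl_apply, hd₁] at hsame
  refine hsame.trans (associated_of_norm_le (d := detFam b) (sys_compatible b.hg b.u)
    (fun j => ?_) ?_ ?_ b.g (fun x hx m hm hω f hf => ?_) n)
  · obtain ⟨la, ta, Ca, Ma, hMa, hda⟩ := exists_detFam (b := b) (j + 1)
    obtain ⟨lb, tb, Cb, Mb, hMb, hdb⟩ := exists_detFam (b := b) j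
    rw [← hda, ← hdb]
    exact lb.associated_down la _ hMa hMb
  · intro h0
    have h4 := (FA.IwasawaControl.branch_residue_spec b.hp5 b.hg b.hi b.hi3 b.hip b.hu).2.2
    rw [h0, norm_zero] at h4
    exact (pow_ne_zero _ (inv_ne_zero (Nat.cast_ne_zero.2 hp.out.ne_zero))) h4.symm
  · obtain ⟨la, ta, Ca, Ma, hMa, hda⟩ := exists_detFam (b := b) 0
    rw [← hda]
    exact la.associated_aug_det hMa
  · obtain ⟨la, ta, Ca, Ma, hMa, hda⟩ := exists_detFam (b := b) m
    exact la.norm_sys_le_norm_det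
      ((Nat.lt_pow_self hp.out.one_lt).trans_le
        (Nat.pow_le_pow_right hp.out.pos (hm.trans m.le_succ))) hx hω hMa (hf.trans hda.symm)

end FA.GaussTower
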