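import Fermat.Agent.GaussTower.Index
import Fermat.Agent.GaussTower.Main
import Fermat.Agent.IwasawaMinus.MuZero

/-!
# The order of the weight part at every level

* `Lvl.inv_natCard_A`: the inverse of the order is the product over the levels `s ≤ n` and the
  primitive `p^s`-th roots of unity `ζ` of the absolute values `‖bval p g s (θ(u) ζ)‖`;
* `levelFactor_eq_pow`: from some level on each new factor is `p^(-λ)`;
* `levelFactor_le`: if `B_{1,ω^(-i)}` is not a unit each new factor is at most `1/p`.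
-/

set_option autoImplicit false
set_option linter.unusedSectionVars false
set_option linter.style.haveILetI false

noncomputable section

open Polynomial Matrix
open scoped Classical

namespace FA.GaussTower

open FA.IwasawaMinus (omega sys ev emb theta bval Dominant sys_compatible norm_emb)
open FA.GaussKolyvagin (bexp)
open LRing

variable {p : ℕ} [hp : Fact p.Prime] {m : ℕ}

instance LRing.free (m : ℕ) : Module.Free ℤ_[p] (LRing p m) :=
  (monic_omega (p := p) m).free_adjoinRoot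

variable (p) in
/-- The powers of the variable. -/
def LRing.powBasis (m : ℕ) : PowerBasis ℤ_[p] (LRing p m) :=
  AdjoinRoot.powerBasis' (monic_omega (p := p) m)

theorem LRing.powBasis_dim : (powBasis p m).dim = p ^ m := natDegree_omega m

theorem LRing.powBasis_gen : (powBasis p m).gen = cls p m X := rfl

/-- The value at a point of a level. -/
def LRing.evLvl {x : PadicAlgCl p} (hx : (1 + x) ^ p ^ m = 1) : LRing p m →+* PadicAlgCl p :=
  Ideal.Quotient.lift (Ideal.span {omega (p := p) m}) (evHom x) fun f hf => by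
    rw [evHom_apply, FA.IwasawaMinus.ev_eq_of_dvd hx (g := 0)
      (by rw [sub_zero]; exact Ideal.mem_span_singleton.1 hf)]
    exact eval₂_zero ..

theorem LRing.evLvl_cls {x : PadicAlgCl p} (hx : (1 + x) ^ p ^ m = 1) (f : ℤ_[p][X]) :
    evLvl hx (cls p m f) = evHom x f := rfl

/-- **The norm from a level.** -/
theorem norm_cls_eq_prod (f : ℤ_[p][X]) :
    ‖Algebra.norm ℤ_[p] (cls p m f)‖ =
      ∏ ζ ∈ nthRootsFinset (p ^ m) (1 : PadicAlgCl p), ‖ev (ζ - 1) f‖ := by
  haveI : NeZero (p ^ m) := ⟨pow_ne_zero _ hp.out.ne_zero⟩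
  set S := nthRootsFinset (p ^ m) (1 : PadicAlgCl p)
  obtain ⟨z, hz⟩ := HasEnoughRootsOfUnity.exists_primitiveRoot (PadicAlgCl p) (p ^ m)
  have hS : S.card = (powBasis p m).dim := by rw [powBasis_dim]; exact hz.card_nthRootsFinset
  let e := (S.equivFinOfCardEq hS).symm
  have hx : ∀ k, (1 + ((e k : PadicAlgCl p) - 1)) ^ p ^ m = 1 := fun k => by
    rw [add_sub_cancel]
    exact (mem_nthRootsFinset (NeZero.pos _) _).1 (e k).2
  have hev : ∀ (k) (f : ℤ_[p][X]), evLvl (hx k) (cls p m f) = ev ((e k : PadicAlgCl p) - 1) f :=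
    fun k f => rfl
  have hinj : Function.Injective fun k => evLvl (hx k) (powBasis p m).gen := fun k k' h => by
    simp only [powBasis_gen, hev, ev, eval₂_X, sub_left_inj] at h
    exact e.injective (Subtype.ext h)
  rw [← norm_emb, norm_eq_prod (powBasis p m) emb (fun k => evLvl (hx k)) (fun k r => ?_) hinj,
    norm_prod, ← Finset.prod_coe_sort S]
  · exact Fintype.prod_equiv e _ _ fun k => congrArg _ (hev k f)
  · exact eval₂_C _ _

/-- Associated elements of a level have norms of the same size. -/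
theorem norm_norm_of_associated {x y : LRing p m} (h : Associated x y) :
    ‖Algebra.norm ℤ_[p] x‖ = ‖Algebra.norm ℤ_[p] y‖ := by
  obtain ⟨w, rfl⟩ := h
  rw [map_mul, norm_mul, PadicInt.isUnit_iff.1 (w.isUnit.map (Algebra.norm ℤ_[p])), mul_one]

/-- **The order of a module with a square matrix of relations.** -/
theorem inv_natCard_of_isRel {A ι : Type*} [AddCommGroup A] [Module (LRing p m) A] [Fintype ι]
    [DecidableEq ι] {C : ι → A} {M : Matrix ι ι (LRing p m)} (hM : IsRel C M) {e : ℕ}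
    (he : ∀ a : A, (p : LRing p m) ^ e • a = 0) :
    (Nat.card A : ℝ)⁻¹ = ‖Algebra.norm ℤ_[p] M.det‖ := by
  let f : (ι → LRing p m) →ₗ[LRing p m] (ι → LRing p m) := Matrix.toLin' Mᵀ
  have hf : ∀ x, f x = x ᵥ* M := fun x => mulVec_transpose M x
  have hinj : Function.Injective (f.restrictScalars ℤ_[p]) :=
    (injective_iff_map_eq_zero f).2 fun x hx => funext fun i => hM.det_regular he (by
      have h1 := congrFun (congrArg (fun u => u ᵥ* M.adjugate) ((hf x).symm.trans hx)) i
      simp only [vecMul_vecMul, mul_adjugate, vecMul_smul, vecMul_one, zero_vecMul, Pi.smul_apply,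
        Pi.zero_apply, smul_eq_mul] at h1
      rwa [mul_comm])
  let π : (ι → LRing p m) →+ A :=
    { toFun := fun x => ∑ j, x j • C j
      map_zero' := Finset.sum_eq_zero fun j _ => zero_smul (LRing p m) (C j)
      map_add' := fun x y => by
        rw [← Finset.sum_add_distrib]
        exact Finset.sum_congr rfl fun j _ => add_smul (x j) (y j) (C j) }
  have hπ : Function.Surjective π := hM.gen
  have hker : π.ker = (LinearMap.range (f.restrictScalars ℤ_[p])).toAddSubgroup := by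
    ext x
    refine ⟨fun hx => ?_, ?_⟩
    · obtain ⟨c, hc⟩ := hM.span x hx
      exact ⟨c, (hf c).trans hc.symm⟩
    · rintro ⟨c, rfl⟩
      show ∑ j, (f c) j • C j = 0
      rw [hf]
      exact hM.rel_vecMul c
  have hcard : Nat.card ((ι → LRing p m) ⧸ LinearMap.range (f.restrictScalars ℤ_[p])) =
      Nat.card A := by
    show (LinearMap.range (f.restrictScalars ℤ_[p])).toAddSubgroup.index = _
    rw [← hker, AddSubgroup.index_ker, AddMonoidHom.range_eq_top.2 hπ, AddSubgroup.card_top]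
  rw [← hcard,
    inv_natCard_quotient_range (Module.Free.chooseBasis ℤ_[p] (ι → LRing p m)) _ hinj,
    LinearMap.det_restrictScalars, LinearMap.det_toLin', det_transpose]

variable (b : Brn p)

/-- The factor of a level. -/
def levelFactor (s : ℕ) : ℝ :=
  ∏ ζ ∈ primitiveRoots (p ^ s) (PadicAlgCl p), ‖bval p b.g s (theta b.u * ζ)‖

theorem levelFactor_nonneg (s : ℕ) : 0 ≤ levelFactor b s :=
  Finset.prod_nonneg fun _ _ => norm_nonneg _

theorem Brn.spec : b.u ∈ FA.IwasawaMinus.oddU p ∧ b.u ≠ FA.IwasawaMinus.poleU b.hg ∧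
    ‖(sys b.hg b.u 0).coeff 0‖ = (p : ℝ)⁻¹ ^ bexp p b.i :=
  FA.IwasawaControl.branch_residue_spec b.hp5 b.hg b.hi b.hi3 b.hip b.hu

theorem levelFactor_zero : levelFactor b 0 = (p : ℝ)⁻¹ ^ bexp p b.i := by
  have h := FA.IwasawaMinus.norm_bval_base b.ne_two b.hg b.spec.1
  rw [FA.IwasawaMinus.den, if_neg b.spec.2.1, mul_one] at h
  rw [levelFactor, pow_zero, IsPrimitiveRoot.primitiveRoots_one, Finset.prod_singleton, mul_one,
    h, b.spec.2.2]

theorem levelFactor_succ (k : ℕ) : levelFactor b (k + 1) =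
    ∏ ζ ∈ primitiveRoots (p ^ (k + 1)) (PadicAlgCl p), ‖ev (ζ - 1) (sys b.hg b.u (k + 1))‖ := by
  refine Finset.prod_congr rfl fun ζ hζ => ?_
  have h := FA.IwasawaMinus.norm_bval_level b.ne_two b.hg b.spec.1
    ((mem_primitiveRoots (pow_pos hp.out.pos _)).1 hζ)
  rwa [FA.IwasawaMinus.den, if_neg b.spec.2.1, mul_one] at h

/-- The values at the roots of unity of a level. -/
theorem prod_norm_ev_sys (n : ℕ) :
    ∏ ζ ∈ nthRootsFinset (p ^ n) (1 : PadicAlgCl p), ‖ev (ζ - 1) (sys b.hg b.u n)‖ =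
      ∏ s ∈ Finset.range (n + 1), levelFactor b s := by
  rw [IsPrimitiveRoot.nthRoots_one_eq_biUnion_primitiveRoots,
    Finset.prod_biUnion fun j _ k _ hjk => IsPrimitiveRoot.disjoint hjk,
    Nat.divisors_prime_pow hp.out, Finset.prod_map]
  refine Finset.prod_congr rfl fun s hs => ?_
  have hsn : s ≤ n := Nat.lt_succ_iff.1 (Finset.mem_range.1 hs)
  have hev : ∀ ζ ∈ primitiveRoots (p ^ s) (PadicAlgCl p),
      ev (ζ - 1) (sys b.hg b.u n) = ev (ζ - 1) (sys b.hg b.u s) := fun ζ hζ =>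
    FA.IwasawaMinus.ev_eq_of_dvd
      (by rw [add_sub_cancel]
          exact ((mem_primitiveRoots (pow_pos hp.out.pos _)).1 hζ).pow_eq_one)
      ((sys_compatible b.hg b.u).dvd_sub hsn)
  show ∏ ζ ∈ primitiveRoots (p ^ s) (PadicAlgCl p), ‖ev (ζ - 1) (sys b.hg b.u n)‖ = _
  rw [Finset.prod_congr rfl fun ζ hζ => by rw [hev ζ hζ]]
  rcases s with _ | k
  · rw [levelFactor_zero, pow_zero, IsPrimitiveRoot.primitiveRoots_one, Finset.prod_singleton,
      sub_self,
      show ev (0 : PadicAlgCl p) (sys b.hg b.u 0) = emb ((sys b.hg b.u 0).coeff 0) from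
        eval₂_at_zero .., norm_emb, b.spec.2.2]
  · rw [levelFactor_succ]

theorem exists_dominant_branch : ∃ lam, Dominant (sys b.hg b.u) 0 lam := by
  obtain ⟨μ, lam, hD⟩ := FA.IwasawaMinus.exists_dominant_sys b.ne_two b.hg b.spec.1
  obtain rfl := FA.IwasawaMinus.mu_eq_zero b.ne_two b.hg b.spec.1 hD
  exact ⟨lam, hD⟩

/-- **The new factor is `p^(-λ)`.** -/
theorem levelFactor_eq_pow {lam k : ℕ} (hD : Dominant (sys b.hg b.u) 0 lam)
    (hk : lam < (p - 1) * p ^ k) : levelFactor b (k + 1) = (p : ℝ)⁻¹ ^ lam := by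
  haveI : NeZero (p ^ (k + 1)) := ⟨pow_ne_zero _ hp.out.ne_zero⟩
  obtain ⟨z, hz⟩ := HasEnoughRootsOfUnity.exists_primitiveRoot (PadicAlgCl p) (p ^ (k + 1))
  have hz1 := FA.IwasawaMinus.norm_sub_one_pow hz
  rw [levelFactor_succ, Finset.prod_congr rfl (g := fun _ => ‖z - 1‖ ^ lam) fun ζ hζ => ?_,
    Finset.prod_const, hz.card_primitiveRoots, Nat.totient_prime_pow_succ hp.out, ← pow_mul,
    mul_comm (p ^ k), mul_comm lam, pow_mul, hz1]
  have hζ' := (mem_primitiveRoots (NeZero.pos _)).1 hζ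
  have hζ1 := FA.IwasawaMinus.norm_sub_one_pow hζ'
  rw [FA.IwasawaMinus.norm_ev_eq (sys_compatible b.hg b.u) hD hk
    (by rw [add_sub_cancel]; exact hζ'.pow_eq_one) hζ1, pow_zero, one_mul,
    (pow_left_inj₀ (norm_nonneg _) (norm_nonneg _) (FA.IwasawaMinus.phi_pos k).ne').1
      (hζ1.trans hz1.symm)]

/-- **The new factor is small if the bottom one is.** -/
theorem levelFactor_le (hb : bexp p b.i ≠ 0) (k : ℕ) : levelFactor b (k + 1) ≤ (p : ℝ)⁻¹ := by
  haveI : NeZero (p ^ (k + 1)) := ⟨pow_ne_zero _ hp.out.ne_zero⟩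
  obtain ⟨z, hz⟩ := HasEnoughRootsOfUnity.exists_primitiveRoot (PadicAlgCl p) (p ^ (k + 1))
  have hz1 := FA.IwasawaMinus.norm_sub_one_pow hz
  have hp1 : (p : ℝ)⁻¹ ≤ 1 := inv_le_one_of_one_le₀ (Nat.one_le_cast.2 hp.out.one_le)
  have h0 : ‖(sys b.hg b.u (k + 1)).coeff 0‖ ≤ (p : ℝ)⁻¹ := by
    rw [FA.IwasawaControl.coeff_zero_sys, b.spec.2.2]
    exact (pow_le_pow_of_le_one (by positivity) hp1 (Nat.pos_of_ne_zero hb)).trans_eq (pow_one _)
  have hφ := (FA.IwasawaMinus.phi_pos (p := p) k).ne'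
  calc levelFactor b (k + 1)
      = ∏ ζ ∈ primitiveRoots (p ^ (k + 1)) (PadicAlgCl p),
          ‖ev (ζ - 1) (sys b.hg b.u (k + 1))‖ := levelFactor_succ b k
    _ ≤ ∏ _ζ ∈ primitiveRoots (p ^ (k + 1)) (PadicAlgCl p), ‖z - 1‖ := by
        refine Finset.prod_le_prod (fun _ _ => norm_nonneg _) fun ζ hζ => ?_
        have hζ' := (mem_primitiveRoots (NeZero.pos _)).1 hζ
        have hρ : ‖ζ - 1‖ = ‖z - 1‖ := (pow_left_inj₀ (norm_nonneg _) (norm_nonneg _) hφ).1
          ((FA.IwasawaMinus.norm_sub_one_pow hζ').trans hz1.symm)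
        have hlt := FA.IwasawaMinus.norm_sub_one_lt hζ'
        set F := sys b.hg b.u (k + 1)
        rw [← evHom_apply]
        conv_lhs => rw [← F.X_mul_divX_add]
        rw [map_add, map_mul, show evHom (ζ - 1) X = ζ - 1 from eval₂_X _ _,
          show evHom (ζ - 1) (C (F.coeff 0)) = emb (F.coeff 0) from eval₂_C _ _, ← hρ]
        refine (IsUltrametricDist.norm_add_le_max _ _).trans (max_le ?_ ?_)
        · rw [norm_mul]
          exact mul_le_of_le_one_right (norm_nonneg _) (norm_ev_le_one hlt.le _)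
        · rw [norm_emb]
          refine h0.trans ?_
          rw [← hz1, ← hρ]
          exact pow_le_of_le_one (norm_nonneg _) hlt.le hφ
    _ = (p : ℝ)⁻¹ := by
        rw [Finset.prod_const, hz.card_primitiveRoots, Nat.totient_prime_pow_succ hp.out,
          mul_comm, hz1]

theorem bexp_eq_zero_iff {lam : ℕ} (hD : Dominant (sys b.hg b.u) 0 lam) :
    bexp p b.i = 0 ↔ lam = 0 := by
  have hp0 : (0 : ℝ) < (p : ℝ)⁻¹ := inv_pos.2 (Nat.cast_pos.2 hp.out.pos)
  have hp1 : (p : ℝ)⁻¹ < 1 := inv_lt_one_of_one_lt₀ (Nat.one_lt_cast.2 hp.out.one_lt)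
  constructor <;> intro h
  · by_contra hl
    have hd := hD.below lam 0 le_rfl (Nat.pos_of_ne_zero hl)
    rw [zero_add, pow_one, FA.IwasawaControl.coeff_zero_sys, ← PadicInt.norm_lt_one_iff_dvd,
      b.spec.2.2, h, pow_zero] at hd
    exact lt_irrefl _ hd
  · subst h
    have hd := (hD.main 0 le_rfl).2
    rw [zero_add, pow_one, ← PadicInt.norm_lt_one_iff_dvd, not_lt, b.spec.2.2] at hd
    exact of_not_not fun hb => absurd hd (pow_lt_one₀ hp0.le hp1 hb).not_ge

variable {b}

namespace Lvl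

variable {n : ℕ} {L : Type} [Field L] [NumberField L] [IsCyclotomicExtension {p ^ (n + 1)} ℚ L]
variable (l : Lvl b n L)

/-- The order is the absolute value of the norm of the branch. -/
theorem inv_natCard_A_eq_norm :
    (Nat.card l.A : ℝ)⁻¹ = ‖Algebra.norm ℤ_[p] (cls p n (sys b.hg b.u n))‖ := by
  obtain ⟨t, C, M, hM⟩ := l.exists_rel
  rw [inv_natCard_of_isRel hM l.natCast_pow_smul,
    norm_norm_of_associated (l.associated_det_sys hM)]

/-- **The exact order.** -/
theorem inv_natCard_A :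
    (Nat.card l.A : ℝ)⁻¹ = ∏ s ∈ Finset.range (n + 1), levelFactor b s := by
  rw [l.inv_natCard_A_eq_norm, norm_cls_eq_prod, prod_norm_ev_sys]

theorem exists_natCard_A : ∃ v, Nat.card l.A = p ^ v := by
  have h := l.inv_natCard_A_eq_norm
  have hne : Algebra.norm ℤ_[p] (cls p n (sys b.hg b.u n)) ≠ 0 := fun h0 => by
    rw [h0, norm_zero, inv_eq_zero, Nat.cast_eq_zero] at h
    exact Nat.card_pos.ne' h
  rw [PadicInt.norm_eq_zpow_neg_valuation hne, _root_.zpow_neg, zpow_natCast, _root_.inv_inj] at h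
  exact ⟨_, by exact_mod_cast h⟩

end Lvl

end FA.GaussTower
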