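import Fermat.Agent.IwasawaControl.Algebra
import Fermat.Agent.IwasawaMinus.Roots
import Mathlib.RingTheory.Nakayama
import Mathlib.RingTheory.Polynomial.Eisenstein.Distinguished
import Mathlib.RingTheory.Ideal.Quotient.Operations

/-!
# The rings `ℤ_p[X] / (ω_m)`

`LRing p m = ℤ_p[X] / ((1 + X) ^ (p ^ m) - 1)`.

* `LRing.finite`: it is finite over `ℤ_p`, and `ω_m` is distinguished;
* `LRing.isUnit_iff`: an element is a unit iff its constant term is;
* `norm_ev_sub_le`: the evaluation at a point of the open disc is determined up to `‖ω_m x‖`.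
-/

set_option autoImplicit false
set_option linter.unusedSectionVars false

noncomputable section

open Polynomial
open scoped Classical

namespace FA.GaussTower

open FA.IwasawaMinus (omega ev emb norm_emb omega_dvd_succ)

variable {p : ℕ} [hp : Fact p.Prime]

theorem monic_omega (m : ℕ) : (omega (p := p) m).Monic := by
  rw [omega]
  refine Monic.sub_of_left (Monic.pow (by simpa [add_comm] using monic_X_add_C (1 : ℤ_[p])) _) ?_
  rw [degree_one, degree_pow, show ((1 : ℤ_[p][X]) + X) = X + C 1 by rw [add_comm, map_one],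
    degree_X_add_C, nsmul_eq_mul, mul_one, Nat.cast_pos]
  exact pow_pos hp.out.pos _

theorem natDegree_omega (m : ℕ) : (omega (p := p) m).natDegree = p ^ m := by
  rw [omega, natDegree_sub_eq_left_of_natDegree_lt]
  · rw [natDegree_pow, show ((1 : ℤ_[p][X]) + X) = X + C 1 by rw [add_comm, map_one],
      natDegree_X_add_C, mul_one]
  · rw [natDegree_one, natDegree_pow, show ((1 : ℤ_[p][X]) + X) = X + C 1 by
      rw [add_comm, map_one], natDegree_X_add_C, mul_one]
    exact pow_pos hp.out.pos _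

theorem coeff_zero_omega (m : ℕ) : (omega (p := p) m).coeff 0 = 0 := by
  simp [omega, coeff_zero_eq_eval_zero]

/-- `ω_m` is distinguished. -/
theorem distinguished_omega (m : ℕ) :
    (omega (p := p) m).IsDistinguishedAt (IsLocalRing.maximalIdeal ℤ_[p]) := by
  refine ⟨⟨fun {j} hj => ?_⟩, monic_omega m⟩
  rw [natDegree_omega] at hj
  obtain ⟨a, ha⟩ := FA.IwasawaControl.natCast_dvd_omega_sub (p := p) m
  rw [PadicInt.maximalIdeal_eq_span_p, Ideal.mem_span_singleton]
  refine ⟨a.coeff j, ?_⟩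
  have h := congrArg (fun f : ℤ_[p][X] => f.coeff j) ha
  simp only [coeff_sub, coeff_X_pow, if_neg hj.ne, sub_zero] at h
  rw [h, ← map_natCast (C : ℤ_[p] →+* ℤ_[p][X]), coeff_C_mul]

theorem omega_dvd_omega {n m : ℕ} (h : n ≤ m) : omega (p := p) n ∣ omega m := by
  induction m, h using Nat.le_induction with
  | base => exact dvd_rfl
  | succ k _ ih => exact ih.trans (omega_dvd_succ k)

variable (p) in
/-- The ring of the level. (A definition, so that its instances stay shallow.) -/
def LRing (m : ℕ) : Type := ℤ_[p][X] ⧸ Ideal.span {omega (p := p) m}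

variable (p) in
instance LRing.instCommRing (m : ℕ) : CommRing (LRing p m) :=
  inferInstanceAs (CommRing (ℤ_[p][X] ⧸ Ideal.span {omega (p := p) m}))

variable (p) in
instance LRing.instAlgebra (m : ℕ) : Algebra ℤ_[p] (LRing p m) :=
  inferInstanceAs (Algebra ℤ_[p] (ℤ_[p][X] ⧸ Ideal.span {omega (p := p) m}))

namespace LRing

variable {m n : ℕ}

variable (p m) in
/-- The class of a polynomial. -/
def cls : ℤ_[p][X] →+* LRing p m := Ideal.Quotient.mk (Ideal.span {omega (p := p) m})

theorem cls_surjective : Function.Surjective (cls p m) := Ideal.Quotient.mk_surjective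

theorem cls_eq_zero_iff {f : ℤ_[p][X]} : cls p m f = 0 ↔ omega m ∣ f :=
  (Ideal.Quotient.eq_zero_iff_mem (I := Ideal.span {omega (p := p) m})).trans
    Ideal.mem_span_singleton

theorem cls_omega : cls p m (omega m) = 0 := cls_eq_zero_iff.2 dvd_rfl

instance finite : Module.Finite ℤ_[p] (LRing p m) :=
  (monic_omega (p := p) m).finite_adjoinRoot

/-- The ring of the level has no `p`-torsion. -/
theorem eq_zero_of_natCast_pow_mul {a : LRing p m} {k : ℕ}
    (h : (p : LRing p m) ^ k * a = 0) : a = 0 := by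
  obtain ⟨f, rfl⟩ := cls_surjective a
  rw [← map_natCast (cls p m), ← map_pow, ← map_mul, cls_eq_zero_iff,
    ← modByMonic_eq_zero_iff_dvd (monic_omega m), ← map_natCast (C : ℤ_[p] →+* ℤ_[p][X]),
    ← map_pow, ← smul_eq_C_mul, smul_modByMonic, smul_eq_zero] at h
  rcases h with h | h
  · exact absurd h (pow_ne_zero _ (Nat.cast_ne_zero.2 hp.out.ne_zero))
  · exact cls_eq_zero_iff.2 ((modByMonic_eq_zero_iff_dvd (monic_omega m)).1 h)

variable (p m) in
/-- The constant term. -/
def aug : LRing p m →+* ℤ_[p] :=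
  Ideal.Quotient.lift (Ideal.span {omega (p := p) m}) (evalRingHom 0) fun f hf => by
    obtain ⟨g, rfl⟩ := Ideal.mem_span_singleton.1 hf
    rw [map_mul, coe_evalRingHom, ← coeff_zero_eq_eval_zero, coeff_zero_omega, zero_mul]

theorem aug_cls (f : ℤ_[p][X]) : aug p m (cls p m f) = f.coeff 0 := by
  rw [coeff_zero_eq_eval_zero]
  rfl

/-- An element is congruent to its constant term modulo `X`. -/
theorem exists_eq_aug_add (a : LRing p m) :
    ∃ b, a = cls p m (C (aug p m a)) + cls p m X * b := by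
  obtain ⟨f, rfl⟩ := cls_surjective a
  refine ⟨cls p m f.divX, ?_⟩
  rw [aug_cls, ← map_mul, ← map_add, add_comm, X_mul_divX_add]

/-- The powers of `X` become divisible by `p`. -/
theorem X_pow_mem_span (j : ℕ) :
    cls p m X ^ (p ^ m * j) ∈ Ideal.span {(p : LRing p m) ^ j} := by
  obtain ⟨a, ha⟩ := FA.IwasawaControl.natCast_dvd_omega_sub (p := p) m
  rw [pow_mul, ← map_pow, show (X : ℤ_[p][X]) ^ p ^ m = omega m - (p : ℤ_[p][X]) * a by
    rw [← ha]; ring, map_sub, cls_omega, zero_sub, map_mul, map_natCast]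
  exact Ideal.mem_span_singleton'.2 ⟨(-cls p m a) ^ j, by ring⟩

/-- **Nakayama over `ℤ_p`.** -/
theorem eq_top_of_le_sup {M : Type*} [AddCommGroup M] [Module ℤ_[p] M] [Module.Finite ℤ_[p] M]
    {N : Submodule ℤ_[p] M} (h : ∀ x : M, ∃ y ∈ N, ∃ z, x = y + (p : ℤ_[p]) • z) : N = ⊤ := by
  refine top_le_iff.1 (Submodule.le_of_le_smul_of_le_jacobson_bot
    (I := IsLocalRing.maximalIdeal ℤ_[p]) (Module.finite_def.1 inferInstance)
    (IsLocalRing.maximalIdeal_le_jacobson _) fun x _ => ?_)
  obtain ⟨y, hy, z, rfl⟩ := h x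
  refine Submodule.add_mem_sup hy (Submodule.smul_mem_smul ?_ Submodule.mem_top)
  rw [PadicInt.maximalIdeal_eq_span_p]
  exact Ideal.mem_span_singleton_self _

theorem smul_eq_cls (z : ℤ_[p]) (a : LRing p m) : z • a = cls p m (C z) * a :=
  Algebra.smul_def z a

/-- **Units are detected by the constant term.** -/
theorem isUnit_iff {a : LRing p m} : IsUnit a ↔ IsUnit (aug p m a) := by
  refine ⟨fun h => h.map _, fun h => ?_⟩
  obtain ⟨u, hu⟩ := h.exists_right_inv
  obtain ⟨b, hb⟩ := exists_eq_aug_add a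
  -- `a u = 1 + X c`
  set c := cls p m (C u) * b
  have ha : a * cls p m (C u) = 1 - (-(cls p m X * c)) := by
    rw [hb, add_mul, ← map_mul, ← map_mul C, hu, map_one, map_one]
    ring
  have hgeom := geom_sum_mul_neg (-(cls p m X * c)) (p ^ m)
  obtain ⟨d, hd⟩ := Ideal.mem_span_singleton.1
    (show cls p m X ^ (p ^ m) ∈ Ideal.span {(p : LRing p m)} by
      simpa using X_pow_mem_span (m := m) 1)
  let N : Submodule ℤ_[p] (LRing p m) := LinearMap.range (LinearMap.mulLeft ℤ_[p] a)
  have hN : N = ⊤ := eq_top_of_le_sup fun x => by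
    set s := ∑ i ∈ Finset.range (p ^ m), (-(cls p m X * c)) ^ i
    refine ⟨a * (cls p m (C u) * s * x), ⟨_, rfl⟩,
      (-1) ^ (p ^ m) * d * c ^ (p ^ m) * x, ?_⟩
    rw [smul_eq_cls, map_natCast, map_natCast]
    calc x = ((1 - (-(cls p m X * c))) * s + (-(cls p m X * c)) ^ (p ^ m)) * x := by
          rw [mul_comm (1 - _) s, hgeom, sub_add_cancel, one_mul]
      _ = _ := by
          rw [← ha, show -(cls p m X * c) = cls p m X * ((-1) * c) by ring, mul_pow, mul_pow, hd]
          ring
  obtain ⟨v, hv⟩ := (show (1 : LRing p m) ∈ N by rw [hN]; trivial)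
  exact IsUnit.of_mul_eq_one _ hv

variable (p) in
/-- The projection to a lower level. -/
def down {n m : ℕ} (h : n ≤ m) : LRing p m →+* LRing p n :=
  Ideal.Quotient.factor (S := Ideal.span {omega (p := p) m}) (T := Ideal.span {omega (p := p) n})
    (Ideal.span_singleton_le_span_singleton.2 (omega_dvd_omega h))

theorem down_cls (h : n ≤ m) (f : ℤ_[p][X]) : down p h (cls p m f) = cls p n f := rfl

theorem aug_down (h : n ≤ m) (a : LRing p m) : aug p n (down p h a) = aug p m a := by
  obtain ⟨f, rfl⟩ := cls_surjective a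
  rw [down_cls, aug_cls, aug_cls]

theorem down_surjective (h : n ≤ m) : Function.Surjective (down p h) := fun a => by
  obtain ⟨f, rfl⟩ := cls_surjective a
  exact ⟨cls p m f, rfl⟩

end LRing

section ev

variable {m : ℕ}

theorem norm_ev_le_one {x : PadicAlgCl p} (hx : ‖x‖ ≤ 1) (f : ℤ_[p][X]) : ‖ev x f‖ ≤ 1 :=
  FA.IwasawaMinus.norm_ev_le zero_le_one fun j =>
    mul_le_one₀ (by rw [norm_emb]; exact PadicInt.norm_le_one _) (by positivity)
      (pow_le_one₀ (norm_nonneg _) hx)

/-- Evaluation modulo `ω_m` and a power of `p`. -/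
theorem norm_ev_sub_le {x : PadicAlgCl p} (hx : ‖x‖ ≤ 1) {f g : ℤ_[p][X]} {k : ℕ}
    (h : f - g ∈ Ideal.span {omega m, (p : ℤ_[p][X]) ^ k}) :
    ‖ev x f - ev x g‖ ≤ max ‖ev x (omega m)‖ ((p : ℝ)⁻¹ ^ k) := by
  obtain ⟨a, b, hab⟩ := Ideal.mem_span_pair.1 h
  have he : ev x f - ev x g = ev x a * ev x (omega m) + ev x b * (p : PadicAlgCl p) ^ k := by
    simp only [ev]
    rw [← eval₂_sub, ← hab, eval₂_add, eval₂_mul, eval₂_mul, eval₂_pow, eval₂_natCast]
  rw [he]
  refine (IsUltrametricDist.norm_add_le_max _ _).trans (max_le_max ?_ ?_)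
  · rw [norm_mul]
    exact mul_le_of_le_one_left (norm_nonneg _) (norm_ev_le_one hx a)
  · rw [norm_mul, norm_pow, FA.IwasawaMinus.norm_p]
    exact mul_le_of_le_one_left (by positivity) (norm_ev_le_one hx b)

/-- `‖ω_m x‖` is at most `(1/p + ‖x‖)`-contracting in `m`. -/
theorem norm_ev_omega_le {x : PadicAlgCl p} (hx : ‖x‖ ≤ 1) (m : ℕ) :
    ‖ev x (omega (p := p) m)‖ ≤ max (p : ℝ)⁻¹ ‖x‖ ^ (m + 1) := by
  refine FA.IwasawaMinus.norm_ev_le (by positivity) fun j => ?_
  rcases lt_or_ge j (m + 1) with hj | hj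
  · have h := FA.IwasawaMinus.deep_omega (p := p) m j
    refine (mul_le_mul_of_nonneg_right (FA.IwasawaMinus.norm_emb_le_pow h) (by positivity)).trans ?_
    calc (p : ℝ)⁻¹ ^ (m + 1 - j) * ‖x‖ ^ j
        ≤ max (p : ℝ)⁻¹ ‖x‖ ^ (m + 1 - j) * max (p : ℝ)⁻¹ ‖x‖ ^ j := by
          gcongr
          · exact le_max_left _ _
          · exact le_max_right _ _
      _ = _ := by rw [← pow_add, Nat.sub_add_cancel hj.le]
  · refine (mul_le_of_le_one_left (by positivity)
      (by rw [norm_emb]; exact PadicInt.norm_le_one _)).trans ?_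
    exact (pow_le_pow_left₀ (norm_nonneg _) (le_max_right _ _) _).trans
      (pow_le_pow_of_le_one (by positivity) (max_le (inv_le_one_of_one_le₀
        (Nat.one_le_cast.2 hp.out.one_le)) hx) hj)

theorem tendsto_norm_ev_omega {x : PadicAlgCl p} (hx : ‖x‖ < 1) :
    Filter.Tendsto (fun m => ‖ev x (omega (p := p) m)‖) Filter.atTop (nhds 0) := by
  refine squeeze_zero (fun m => norm_nonneg _) (norm_ev_omega_le hx.le) ?_
  have h : max (p : ℝ)⁻¹ ‖x‖ < 1 :=
    max_lt (inv_lt_one_of_one_lt₀ (Nat.one_lt_cast.2 hp.out.one_lt)) hx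
  exact ((tendsto_pow_atTop_nhds_zero_of_lt_one (by positivity) h).comp
    (Filter.tendsto_add_atTop_nat 1))

end ev

end FA.GaussTower
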