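import Fermat.Agent.GaussTower.Transition
import Mathlib.RingTheory.AdicCompletion.Noetherian

/-!
# The limit of the levels

`exists_matrix`: one `λ × λ` matrix `N` over `ℤ_p` presents every level of the branch: `A_n` is
`ℤ_p ^ λ` modulo the image of `ω_n(N)`, with `X` acting as `N`.
-/

set_option autoImplicit false
set_option linter.unusedSectionVars false
set_option linter.style.haveILetI false

noncomputable section

open NumberField Polynomial Matrix
open scoped Classical

namespace FA.GaussTower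

open FA.IwasawaMinus (omega sys Dominant)
open FA.IwasawaControl (pLvl)
open LRing

variable {p : ℕ} [hp : Fact p.Prime] (b : Brn p)

/-- The chosen generator of a standard level. -/
def lF (k : ℕ) : Lvl b k (Fam p k) := Classical.choice (exists_lvl b k (Fam p k))

variable (p) in
/-- The chosen embedding of a standard level in the next. -/
def famHom (k : ℕ) : Fam p k →+* Fam p (k + 1) :=
  Classical.choice (exists_levelHom (p := p) k.le_succ (Fam p k) (Fam p (k + 1)))

/-- A step of the norm. -/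
def stepN (k : ℕ) : (lF b (k + 1)).A →+ (lF b k).A :=
  letI : Algebra (Fam p k) (Fam p (k + 1)) := (famHom p k).toAlgebra
  (lF b k).tN (lF b (k + 1)) k.le_succ

theorem stepN_cls_smul (k : ℕ) (f : ℤ_[p][X]) (x : (lF b (k + 1)).A) :
    stepN b k (cls p (k + 1) f • x) = cls p k f • stepN b k x :=
  letI : Algebra (Fam p k) (Fam p (k + 1)) := (famHom p k).toAlgebra
  (lF b k).tN_cls_smul (lF b (k + 1)) k.le_succ f x

theorem stepN_surjective (k : ℕ) : Function.Surjective (stepN b k) :=
  letI : Algebra (Fam p k) (Fam p (k + 1)) := (famHom p k).toAlgebra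
  (lF b k).tN_surjective (lF b (k + 1)) k.le_succ

theorem stepN_eq_zero_omega (k : ℕ) {x : (lF b (k + 1)).A} (hx : stepN b k x = 0) :
    ∃ y, x = cls p (k + 1) (omega k) • y :=
  letI : Algebra (Fam p k) (Fam p (k + 1)) := (famHom p k).toAlgebra
  ((lF b k).tN_eq_zero_iff (lF b (k + 1)) k.le_succ x).1 hx

variable {b} {lam : ℕ}

theorem stepN_eq_zero_iff (hD : Dominant (sys b.hg b.u) 0 lam) {k : ℕ} (hk : lam ≤ k)
    (x : (lF b (k + 1)).A) : stepN b k x = 0 ↔ p • x = 0 :=
  letI : Algebra (Fam p k) (Fam p (k + 1)) := (famHom p k).toAlgebra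
  (lF b k).tN_step_eq_zero_iff (lF b (k + 1)) hD hk x

theorem stepN_linA (k : ℕ) {ι : Type*} [Fintype ι] (g : ι → (lF b (k + 1)).A) (v : ι → ℤ_[p]) :
    stepN b k ((lF b (k + 1)).linA g v) = (lF b k).linA (fun j => stepN b k (g j)) v := by
  rw [Lvl.linA_apply, Lvl.linA_apply, map_sum]
  exact Finset.sum_congr rfl fun j _ => stepN_cls_smul b k _ _

/-- **Compatible generators.** -/
theorem exists_gens (hD : Dominant (sys b.hg b.u) 0 lam) :
    ∃ g : ∀ k, Fin lam → (lF b (lam + k)).A,
      (∀ k, Function.Surjective ((lF b (lam + k)).linA (g k))) ∧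
        ∀ k j, stepN b (lam + k) (g (k + 1) j) = g k j := by
  have hnext : ∀ k (g : Fin lam → (lF b (lam + k)).A),
      Function.Surjective ((lF b (lam + k)).linA g) →
      ∃ g' : Fin lam → (lF b (lam + k + 1)).A,
        Function.Surjective ((lF b (lam + k + 1)).linA g') ∧
          ∀ j, stepN b (lam + k) (g' j) = g j := fun k g hg => by
    choose g' hg' using fun j => stepN_surjective b (lam + k) (g j)
    refine ⟨g', ?_, hg'⟩
    letI : Algebra (Fam p (lam + k)) (Fam p (lam + k + 1)) := (famHom p (lam + k)).toAlgebra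
    refine (lF b (lam + k)).surjective_linA_of_tN (lF b (lam + k + 1)) hD (Nat.le_add_right _ _)
      g' ?_
    rw [← funext hg'] at hg
    exact hg
  choose nxt hn1 hn2 using hnext
  obtain ⟨g₀, hg₀⟩ := (lF b (lam + 0)).exists_gen hD
    (Nat.lt_pow_self (n := lam) hp.out.one_lt)
  let e : ∀ k, {g : Fin lam → (lF b (lam + k)).A //
      Function.Surjective ((lF b (lam + k)).linA g)} :=
    fun k => Nat.rec ⟨g₀, hg₀⟩ (fun j q => ⟨nxt j q.1 q.2, hn1 j q.1 q.2⟩) k
  exact ⟨fun k => (e k).1, fun k => (e k).2, fun k j => hn2 k _ _ j⟩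

section

variable {g : ∀ k, Fin lam → (lF b (lam + k)).A}

theorem stepN_pi (hg : ∀ k j, stepN b (lam + k) (g (k + 1) j) = g k j) (k : ℕ)
    (v : Fin lam → ℤ_[p]) :
    stepN b (lam + k) ((lF b (lam + k + 1)).linA (g (k + 1)) v) =
      (lF b (lam + k)).linA (g k) v := by
  rw [stepN_linA]
  exact congrArg (fun g' => (lF b (lam + k)).linA g' v) (funext (hg k))

variable (hD : Dominant (sys b.hg b.u) 0 lam)
  (hs : ∀ k, Function.Surjective ((lF b (lam + k)).linA (g k)))
  (hg : ∀ k j, stepN b (lam + k) (g (k + 1) j) = g k j)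

include hD hs in
/-- A relation is divisible by `p`. -/
theorem exists_eq_p_smul {k : ℕ} {v : Fin lam → ℤ_[p]}
    (hv : (lF b (lam + k)).linA (g k) v = 0) : ∃ w, v = (p : ℤ_[p]) • w := by
  set S : AddSubgroup (lF b (lam + k)).A :=
    (nsmulAddMonoidHom p : (lF b (lam + k)).A →+ (lF b (lam + k)).A).range
  let ψ := (QuotientAddGroup.mk' S).comp ((lF b (lam + k)).linA (g k))
  let φ := (PadicInt.toZMod (p := p)).toAddMonoidHom.compLeft (Fin lam)
  have hφk : ∀ x, x ∈ φ.ker → ∃ w, x = (p : ℤ_[p]) • w := fun x hx => by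
    choose w hw using fun j => toZMod_eq_zero_iff.1 (congrFun (show φ x = 0 from hx) j)
    exact ⟨w, funext fun j => hw j⟩
  have hle : φ.ker ≤ ψ.ker := fun x hx => by
    obtain ⟨w, rfl⟩ := hφk x hx
    refine (QuotientAddGroup.eq_zero_iff _).2 ⟨(lF b (lam + k)).linA (g k) w, ?_⟩
    rw [nsmulAddMonoidHom_apply, ← map_nsmul, Nat.cast_smul_eq_nsmul]
  have h1 : ψ.ker.index = p ^ lam := by
    rw [AddSubgroup.index_ker, AddMonoidHom.range_eq_top.2
      (show Function.Surjective ψ from (QuotientAddGroup.mk'_surjective S).comp (hs k)),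
      AddSubgroup.card_top]
    exact (lF b (lam + k)).natCard_quotient_nsmul hD
      (lt_of_le_of_lt (Nat.le_add_right _ _) (Nat.lt_pow_self hp.out.one_lt))
  have h2 : φ.ker.index = p ^ lam := by
    rw [AddSubgroup.index_ker, AddMonoidHom.range_eq_top.2 (Function.Surjective.comp_left
      (ZMod.ringHom_surjective (PadicInt.toZMod (p := p)))), AddSubgroup.card_top, Nat.card_fun,
      Nat.card_zmod, Nat.card_eq_fintype_card, Fintype.card_fin]
  have h3 := AddSubgroup.relIndex_mul_index hle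
  rw [h1, h2, mul_eq_right₀ (pow_ne_zero _ hp.out.ne_zero)] at h3
  refine hφk v (AddSubgroup.relIndex_eq_one.1 h3 ?_)
  show QuotientAddGroup.mk' S _ = 0
  rw [hv, map_zero]

include hD hs hg in
/-- A relation of a high level is deep. -/
theorem exists_eq_pow_smul (k : ℕ) {v : Fin lam → ℤ_[p]}
    (hv : (lF b (lam + k)).linA (g k) v = 0) : ∃ w, v = (p : ℤ_[p]) ^ (k + 1) • w := by
  induction k generalizing v with
  | zero => simpa using exists_eq_p_smul hD hs hv
  | succ k ih =>
    obtain ⟨w, rfl⟩ := exists_eq_p_smul hD hs hv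
    rw [Nat.cast_smul_eq_nsmul, map_nsmul] at hv
    obtain ⟨u, rfl⟩ := ih (v := w) (by
      rw [← stepN_pi hg k w]
      exact (stepN_eq_zero_iff hD (Nat.le_add_right _ _) _).2 hv)
    exact ⟨u, by rw [smul_smul, ← pow_succ']⟩

theorem linA_pow_smul_eq_zero {k e : ℕ} (he : pLvl p (Fam p (lam + k)) ≤ e)
    (g' : Fin lam → (lF b (lam + k)).A) (w : Fin lam → ℤ_[p]) :
    (lF b (lam + k)).linA g' ((p : ℤ_[p]) ^ e • w) = 0 := by
  rw [Lvl.linA_smul, map_pow, map_pow, map_natCast, map_natCast,
    (lF b (lam + k)).natCast_pow_smul_of_le he]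

include hD hs hg in
/-- **The matrix.** -/
theorem exists_mulVec : ∃ N : Matrix (Fin lam) (Fin lam) ℤ_[p], ∀ k v,
    (lF b (lam + k)).linA (g k) (N *ᵥ v) =
      cls p (lam + k) X • (lF b (lam + k)).linA (g k) v := by
  choose v hv using fun k j => hs k (cls p (lam + k) X • g k j)
  have hdiff : ∀ j k l, k ≤ l →
      (lF b (lam + k)).linA (g k) (v l j) = cls p (lam + k) X • g k j := fun j k l hkl => by
    obtain ⟨i, rfl⟩ := Nat.exists_eq_add_of_le hkl
    clear hkl
    induction i generalizing k with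
    | zero => exact hv k j
    | succ i ih =>
      have h1 := congrArg (stepN b (lam + k)) (ih (k + 1))
      rw [show k + 1 + i = k + (i + 1) by omega] at h1
      refine (stepN_pi hg k _).symm.trans (h1.trans ?_)
      exact (stepN_cls_smul b (lam + k) X _).trans (by rw [hg k j])
  have hdeep : ∀ j i k l, k ≤ l → (p : ℤ_[p]) ^ k ∣ v l j i - v k j i := fun j i k l hkl => by
    obtain ⟨w, hw⟩ := exists_eq_pow_smul hD hs hg k (v := v l j - v k j) (by
      rw [map_sub, hdiff j k l hkl, hdiff j k k le_rfl, sub_self])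
    have h := congrFun hw i
    rw [Pi.sub_apply, Pi.smul_apply, smul_eq_mul] at h
    exact h ▸ (pow_dvd_pow _ k.le_succ).trans (dvd_mul_right _ _)
  have hlim : ∀ j i, ∃ L : ℤ_[p], ∀ k, (p : ℤ_[p]) ^ k ∣ v k j i - L := fun j i => by
    obtain ⟨L, hL⟩ := IsPrecomplete.prec (I := IsLocalRing.maximalIdeal ℤ_[p])
      (inferInstance : IsPrecomplete (IsLocalRing.maximalIdeal ℤ_[p]) ℤ_[p])
      (f := fun k => v k j i) fun {k l} hkl => by
        rw [SModEq.sub_mem, smul_eq_mul, Ideal.mul_top, PadicInt.maximalIdeal_eq_span_p,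
          Ideal.span_singleton_pow, Ideal.mem_span_singleton, ← dvd_neg, neg_sub]
        exact hdeep j i k l hkl
    refine ⟨L, fun k => ?_⟩
    have h := hL k
    rwa [SModEq.sub_mem, smul_eq_mul, Ideal.mul_top, PadicInt.maximalIdeal_eq_span_p,
      Ideal.span_singleton_pow, Ideal.mem_span_singleton] at h
  choose N hN using hlim
  have hcol : ∀ k j, (lF b (lam + k)).linA (g k) (N j) = cls p (lam + k) X • g k j := fun k j => by
    set e := max k (pLvl p (Fam p (lam + k)))
    choose w hw using fun i => hN j i e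
    have hsplit : N j = v e j - (p : ℤ_[p]) ^ e • w := funext fun i => by
      rw [Pi.sub_apply, Pi.smul_apply, smul_eq_mul, ← hw i, sub_sub_cancel]
    rw [hsplit, map_sub, linA_pow_smul_eq_zero (le_max_right _ _), sub_zero,
      hdiff j k e (le_max_left _ _)]
  refine ⟨Matrix.of fun i j => N j i, fun k x => ?_⟩
  have hmul : (Matrix.of fun i j => N j i) *ᵥ x = ∑ j, x j • N j := funext fun i => by
    simp [Matrix.mulVec, dotProduct, Finset.sum_apply, mul_comm]
  rw [hmul, map_sum, Lvl.linA_apply _ (g k) x, Finset.smul_sum]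
  exact Finset.sum_congr rfl fun j _ => by rw [Lvl.linA_smul, hcol, smul_comm]

include hD hs hg in
/-- The relations of a level. -/
theorem exists_of_omega_smul {N : Matrix (Fin lam) (Fin lam) ℤ_[p]}
    (hN : ∀ k (f : ℤ_[p][X]) v, (lF b (lam + k)).linA (g k) (aeval N f *ᵥ v) =
      cls p (lam + k) f • (lF b (lam + k)).linA (g k) v)
    {n k : ℕ} (hk : n ≤ lam + k) {x : Fin lam → ℤ_[p]} {y : (lF b (lam + k)).A}
    (hy : (lF b (lam + k)).linA (g k) x = cls p (lam + k) (omega n) • y) :
    ∃ w, x = aeval N (omega (p := p) n) *ᵥ w := by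
  have hprop : ∀ i, ∃ z, (lF b (lam + (k + i))).linA (g (k + i)) x =
      cls p (lam + (k + i)) (omega n) • z := fun i => by
    induction i with
    | zero => exact ⟨y, hy⟩
    | succ i ih =>
      obtain ⟨z, hz⟩ := ih
      obtain ⟨z', rfl⟩ := stepN_surjective b (lam + (k + i)) z
      have h0 : stepN b (lam + (k + i)) ((lF b (lam + (k + i) + 1)).linA (g (k + i + 1)) x -
          cls p (lam + (k + i) + 1) (omega n) • z') = 0 := by
        rw [map_sub, stepN_cls_smul, stepN_pi hg, hz, sub_self]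
      obtain ⟨z'', hz''⟩ := stepN_eq_zero_omega b _ h0
      obtain ⟨c, hc⟩ := omega_dvd_omega (p := p) (hk.trans (by omega : lam + k ≤ lam + (k + i)))
      refine ⟨z' + cls p (lam + (k + i) + 1) c • z'', ?_⟩
      show (lF b (lam + (k + i) + 1)).linA (g (k + i + 1)) x = cls p (lam + (k + i) + 1) (omega n) •
        (z' + cls p (lam + (k + i) + 1) c • z'')
      rw [smul_add, ← mul_smul, ← map_mul, ← hc, ← hz'']
      exact (add_sub_cancel _ _).symm
  set Q := (Fin lam → ℤ_[p]) ⧸ LinearMap.range (Matrix.mulVecLin (aeval N (omega (p := p) n)))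
  have hq : (Submodule.Quotient.mk x : Q) = 0 := by
    refine IsHausdorff.haus (inferInstance : IsHausdorff (IsLocalRing.maximalIdeal ℤ_[p]) Q) _
      fun e => ?_
    obtain ⟨z, hz⟩ := hprop e
    obtain ⟨w, rfl⟩ := hs (k + e) z
    rw [← hN, ← sub_eq_zero, ← map_sub] at hz
    obtain ⟨u, hu⟩ := exists_eq_pow_smul hD hs hg (k + e) hz
    rw [SModEq.zero, eq_add_of_sub_eq hu, Submodule.Quotient.mk_add,
      (Submodule.Quotient.mk_eq_zero _ (x := aeval N (omega (p := p) n) *ᵥ w)).2
        (LinearMap.mem_range.2 ⟨w, Matrix.mulVecLin_apply _ _⟩),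
      add_zero,
      show k + e + 1 = e + (k + 1) by omega, pow_add, mul_smul, Submodule.Quotient.mk_smul,
      PadicInt.maximalIdeal_eq_span_p, Ideal.span_singleton_pow]
    exact Submodule.smul_mem_smul (Ideal.mem_span_singleton_self _) Submodule.mem_top
  obtain ⟨w, hw⟩ := (Submodule.Quotient.mk_eq_zero _).1 hq
  exact ⟨w, hw.symm.trans (Matrix.mulVecLin_apply _ _)⟩

end

/-- **One matrix presents every level.** -/
theorem exists_matrix (hD : Dominant (sys b.hg b.u) 0 lam) :
    ∃ N : Matrix (Fin lam) (Fin lam) ℤ_[p], ∀ (n : ℕ) (L : Type) [Field L] [NumberField L]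
      [IsCyclotomicExtension {p ^ (n + 1)} ℚ L] (l : Lvl b n L),
        ∃ π : (Fin lam → ℤ_[p]) →+ l.A, Function.Surjective π ∧
          (∀ (f : ℤ_[p][X]) v, π (aeval N f *ᵥ v) = cls p n f • π v) ∧
            ∀ v, π v = 0 ↔ ∃ w, v = aeval N (omega (p := p) n) *ᵥ w := by
  obtain ⟨g, hs, hg⟩ := exists_gens hD
  obtain ⟨N, hN⟩ := exists_mulVec hD hs hg
  have hpoly : ∀ k (f : ℤ_[p][X]) v, (lF b (lam + k)).linA (g k) (aeval N f *ᵥ v) =
      cls p (lam + k) f • (lF b (lam + k)).linA (g k) v := fun k f => by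
    induction f using Polynomial.induction_on with
    | C a =>
      intro v
      rw [aeval_C, Algebra.algebraMap_eq_smul_one, Matrix.smul_mulVec, Matrix.one_mulVec,
        Lvl.linA_smul]
    | add f h hf hh =>
      intro v
      rw [map_add, add_mulVec, map_add, hf, hh, map_add, add_smul]
    | monomial e a ih =>
      intro v
      rw [show C a * X ^ (e + 1) = C a * X ^ e * X from by ring, map_mul (aeval N), aeval_X,
        ← Matrix.mulVec_mulVec, ih, hN]
      simp only [map_mul, mul_smul]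
  refine ⟨N, fun n L _ _ _ l => ?_⟩
  obtain ⟨φ⟩ := exists_levelHom (p := p) (Nat.le_add_left n lam) L (Fam p (lam + n))
  letI : Algebra L (Fam p (lam + n)) := φ.toAlgebra
  have h : n ≤ lam + n := Nat.le_add_left n lam
  refine ⟨(l.tN (lF b (lam + n)) h).comp ((lF b (lam + n)).linA (g n)),
    (l.tN_surjective _ h).comp (hs n), fun f v => ?_, fun v => ?_⟩
  · rw [AddMonoidHom.comp_apply, AddMonoidHom.comp_apply, hpoly, Lvl.tN_cls_smul]
  · rw [AddMonoidHom.comp_apply, Lvl.tN_eq_zero_iff]
    refine ⟨fun ⟨y, hy⟩ => exists_of_omega_smul hD hs hg hpoly h hy, ?_⟩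
    rintro ⟨w, rfl⟩
    exact ⟨_, hpoly n _ w⟩

end FA.GaussTower
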