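import Fermat.Agent.GaussTower.LevelRing
import Fermat.Agent.IwasawaControl.Module
import Fermat.Agent.AmbiguousClass.Divisor

/-!
# The weight part of a level as a module over `ℤ_p[X] / (ω_m)`

`Brn` is a branch: `p ≥ 5`, a generator `g`, an odd weight `i` and `u = g ^ (-i)`. `Lvl b m F` is a
generator `γ` of the Galois group of `F = ℚ(ζ_(p^(m+1)))` with exponent `g`.

* `Lvl.chi`: the character `G → ℤ_p[X] / (ω_m)` sending `γ⁻¹` to `ω(u) (1 + X)`;
* `Lvl.A`: the weight part, with the module structure for which `σ` acts as `χ σ` (`chi_smul`);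
* `Lvl.pr`: the projection of the class group.
-/

set_option autoImplicit false
set_option linter.unusedSectionVars false
set_option linter.style.haveILetI false

noncomputable section

open NumberField Polynomial
open scoped Classical

namespace FA.GaussTower

open FA.CycloTower (actCl)
open FA.IwasawaStructure (expo)
open FA.IwasawaMinus (IsGen res omega teich)
open FA.IwasawaControl (wPart wAct pLvl polyAct diffEnd wProj)
open LRing

/-- A branch. -/
structure Brn (p : ℕ) [Fact p.Prime] where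
  /-- the generator -/
  g : ℕ
  /-- the weight -/
  i : ℕ
  /-- the residue -/
  u : (ZMod p)ˣ
  hp5 : 5 ≤ p
  hg : IsGen p g
  hi : Odd i
  hi3 : 3 ≤ i
  hip : i + 2 ≤ p
  hu : (g : ZMod p) ^ i * u = 1

variable {p : ℕ} [hp : Fact p.Prime]

/-- The order of the Galois group of a level. -/
def phiN (p m : ℕ) : ℕ := (p - 1) * p ^ m

theorem phiN_pos (m : ℕ) : 0 < phiN p m :=
  Nat.mul_pos (Nat.sub_pos_of_lt hp.out.one_lt) (pow_pos hp.out.pos m)

variable (b : Brn p)

theorem Brn.ne_two (b : Brn p) : p ≠ 2 := by have := b.hp5; omega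

/-- The element `ω(u) (1 + X)`. -/
def wY (m : ℕ) : LRing p m := cls p m (C (teich b.u) * (1 + X))

variable (p) in
/-- The element `1 + X`. -/
def yR (m : ℕ) : LRing p m := cls p m (1 + X)

theorem yR_pow (m : ℕ) : yR p m ^ p ^ m = 1 := by
  rw [yR, ← map_pow, ← sub_eq_zero, ← map_one (cls p m), ← map_sub, ← omega, cls_omega]

theorem wY_eq (m : ℕ) : wY b m = cls p m (C (teich b.u)) * yR p m := by rw [wY, yR, map_mul]

theorem wY_pow (m : ℕ) : wY b m ^ phiN p m = 1 := by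
  have h : teich b.u ^ phiN p m = 1 := by
    rw [phiN, pow_mul, FA.IwasawaMinus.teich_pow_card, one_pow]
  rw [wY_eq, mul_pow, ← map_pow, ← C_pow, h, map_one, map_one, one_mul, phiN, mul_comm, pow_mul,
    yR_pow, one_pow]

theorem aug_wY (m : ℕ) : aug p m (wY b m) = teich b.u := by
  rw [wY, aug_cls]
  simp [mul_coeff_zero]

variable {m : ℕ} {F : Type} [Field F] [NumberField F] [IsCyclotomicExtension {p ^ (m + 1)} ℚ F]

/-- A generator of the Galois group of a level. -/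
structure Lvl (b : Brn p) (m : ℕ) (F : Type) [Field F] [NumberField F]
    [IsCyclotomicExtension {p ^ (m + 1)} ℚ F] where
  /-- the generator -/
  γ : F ≃ₐ[ℚ] F
  hγ : orderOf γ = phiN p m
  hgen : ∀ σ, σ ∈ Subgroup.zpowers γ
  hexp : ∀ k, expo (p ^ (m + 1)) (γ ^ k) = res p b.g m k

theorem exists_lvl (m : ℕ) (F : Type) [Field F] [NumberField F]
    [IsCyclotomicExtension {p ^ (m + 1)} ℚ F] : Nonempty (Lvl b m F) :=
  (FA.IwasawaStructure.exists_gen_aut b.hg).elim fun γ h => ⟨⟨γ, h.1, h.2.1, h.2.2⟩⟩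

namespace Lvl

variable {b} (l : Lvl b m F)

include l in
theorem eq_pow (σ : F ≃ₐ[ℚ] F) : ∃ k, k < phiN p m ∧ σ = l.γ⁻¹ ^ k := by
  obtain ⟨k, hk⟩ := (Submonoid.mem_powers_iff _ _).1
    (mem_powers_iff_mem_zpowers.2 (show σ ∈ Subgroup.zpowers l.γ⁻¹ by
      rw [Subgroup.zpowers_inv]; exact l.hgen σ))
  exact ⟨k % phiN p m, Nat.mod_lt _ (phiN_pos m), by
    rw [← hk, ← l.hγ, ← orderOf_inv, pow_mod_orderOf]⟩

theorem injOn_pow : Set.InjOn (fun k => l.γ⁻¹ ^ k) ↑(Finset.range (phiN p m)) := by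
  intro a ha c hc h
  rw [Finset.mem_coe, Finset.mem_range, ← l.hγ, ← orderOf_inv] at ha hc
  exact pow_injOn_Iio_orderOf ha hc h

/-- Sums over the Galois group. -/
theorem sum_eq_range {M : Type*} [AddCommMonoid M] (f : (F ≃ₐ[ℚ] F) → M) :
    ∑ σ, f σ = ∑ k ∈ Finset.range (phiN p m), f (l.γ⁻¹ ^ k) :=
  (Finset.sum_bij (fun k _ => l.γ⁻¹ ^ k) (fun k _ => Finset.mem_univ _)
    (fun a ha c hc h => l.injOn_pow ha hc h)
    (fun σ _ => (l.eq_pow σ).elim fun k hk => ⟨k, Finset.mem_range.2 hk.1, hk.2.symm⟩)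
    fun k _ => rfl).symm

/-- **The character.** -/
def chi : (F ≃ₐ[ℚ] F) →* LRing p m :=
  (Units.coeHom _).comp (monoidHomOfForallMemZpowers (g := l.γ⁻¹)
    (g' := Units.ofPowEqOne (wY b m) (phiN p m) (wY_pow b m) (phiN_pos m).ne')
    (fun σ => by rw [Subgroup.zpowers_inv]; exact l.hgen σ)
    (by rw [orderOf_inv, l.hγ]; exact orderOf_dvd_of_pow_eq_one (Units.ext (by simp [wY_pow]))))

theorem chi_inv_gen : l.chi l.γ⁻¹ = wY b m := by
  rw [chi, MonoidHom.comp_apply, monoidHomOfForallMemZpowers_apply_gen]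
  rfl

theorem chi_pow (k : ℕ) : l.chi (l.γ⁻¹ ^ k) = wY b m ^ k := by rw [map_pow, chi_inv_gen]

theorem isUnit_chi (σ : F ≃ₐ[ℚ] F) : IsUnit (l.chi σ) := (Group.isUnit σ).map _

/-- The residue of the character. -/
def chiP (σ : F ≃ₐ[ℚ] F) : ZMod p := PadicInt.toZMod (aug p m (l.chi σ))

theorem chiP_mul (σ τ : F ≃ₐ[ℚ] F) : l.chiP (σ * τ) = l.chiP σ * l.chiP τ := by
  simp [chiP]

theorem chiP_one : l.chiP 1 = 1 := by simp [chiP]

theorem chiP_pow_gen (k : ℕ) : l.chiP (l.γ⁻¹ ^ k) = (b.u : ZMod p) ^ k := by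
  rw [chiP, chi_pow, map_pow, map_pow, aug_wY, FA.IwasawaMinus.toZMod_teich]

include l in
theorem expo_inv_pow_mul (k : ℕ) :
    ((expo (p ^ (m + 1)) (l.γ⁻¹ ^ k) : ℕ) : ZMod p) * (b.g : ZMod p) ^ k = 1 := by
  have hd : p ∣ p ^ (m + 1) := dvd_pow_self p m.succ_ne_zero
  have h1 : ((expo (p ^ (m + 1)) (l.γ ^ k) : ℕ) : ZMod p) = (b.g : ZMod p) ^ k := by
    rw [l.hexp, res, ZMod.natCast_val, ← ZMod.castHom_apply (h := hd) (R := ZMod p), map_pow,
      map_natCast]
  rw [← h1, ← FA.IwasawaControl.expo_mul_cast hd, inv_pow, inv_mul_cancel]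
  exact FA.IwasawaControl.expo_one_cast hd

/-- The residue of the character is the exponent to the weight. -/
theorem chiP_eq (σ : F ≃ₐ[ℚ] F) :
    l.chiP σ = ((expo (p ^ (m + 1)) σ : ℕ) : ZMod p) ^ b.i := by
  obtain ⟨k, -, rfl⟩ := l.eq_pow σ
  set e := ((expo (p ^ (m + 1)) (l.γ⁻¹ ^ k) : ℕ) : ZMod p)
  have he : e * (b.g : ZMod p) ^ k = 1 := l.expo_inv_pow_mul k
  calc l.chiP (l.γ⁻¹ ^ k) = (b.u : ZMod p) ^ k := l.chiP_pow_gen k
    _ = (b.u : ZMod p) ^ k * (e * (b.g : ZMod p) ^ k) ^ b.i := by rw [he, one_pow, mul_one]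
    _ = e ^ b.i * ((b.g : ZMod p) ^ b.i * b.u) ^ k := by
      rw [mul_pow, mul_pow, ← pow_mul, ← pow_mul, mul_comm k]
      ring
    _ = e ^ b.i := by rw [b.hu, one_pow, mul_one]

/-- The tame generator. -/
def tameGen : F ≃ₐ[ℚ] F := l.γ⁻¹ ^ p ^ m

theorem chi_tameGen_pow (t : ℕ) :
    l.chi (l.tameGen ^ t) = cls p m (C (teich b.u ^ (p ^ m * t))) := by
  rw [tameGen, ← pow_mul, chi_pow, wY_eq, mul_pow, ← map_pow, ← C_pow, pow_mul (yR p m), yR_pow,
    one_pow, mul_one]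

theorem mem_tame_iff {σ : F ≃ₐ[ℚ] F} :
    σ ^ (p - 1) = 1 ↔ ∃ t, t < p - 1 ∧ σ = l.tameGen ^ t := by
  refine ⟨fun h => ?_, ?_⟩
  · obtain ⟨k, hk, rfl⟩ := l.eq_pow σ
    have h1 : phiN p m ∣ k * (p - 1) := by
      rw [← l.hγ, ← orderOf_inv]
      exact orderOf_dvd_of_pow_eq_one (by rw [pow_mul, h])
    have hp1 : 0 < p - 1 := Nat.sub_pos_of_lt hp.out.one_lt
    obtain ⟨t, rfl⟩ : p ^ m ∣ k := by
      rw [phiN, mul_comm k] at h1
      exact Nat.dvd_of_mul_dvd_mul_left hp1 h1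
    refine ⟨t, ?_, by rw [tameGen, pow_mul]⟩
    rw [phiN, mul_comm (p - 1)] at hk
    exact Nat.lt_of_mul_lt_mul_left hk
  · rintro ⟨t, -, rfl⟩
    rw [tameGen, ← pow_mul, ← pow_mul, show p ^ m * (t * (p - 1)) = phiN p m * t by
      rw [phiN]; ring, pow_mul, ← l.hγ, ← orderOf_inv, pow_orderOf_eq_one, one_pow]

/-- On the tame automorphisms the character is scalar. -/
theorem chi_of_tame {σ : F ≃ₐ[ℚ] F} (h : σ ^ (p - 1) = 1) :
    l.chi σ = cls p m (C (aug p m (l.chi σ))) := by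
  obtain ⟨t, -, rfl⟩ := l.mem_tame_iff.1 h
  rw [chi_tameGen_pow, aug_cls, coeff_C_zero]

/-! ### The module -/

/-- **The weight part.** -/
def A (_l : Lvl b m F) : Type := Additive (wPart p (p ^ (m + 1)) F b.i)

instance : AddCommGroup l.A :=
  inferInstanceAs (AddCommGroup (Additive (wPart p (p ^ (m + 1)) F b.i)))

instance : Finite l.A := inferInstanceAs (Finite (wPart p (p ^ (m + 1)) F b.i))

/-- The action of the ring on the classes. -/
def actEnd : LRing p m →+* AddMonoid.End (Additive (wPart p (p ^ (m + 1)) F b.i)) :=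
  Ideal.Quotient.lift (Ideal.span {omega (p := p) m})
    (polyAct p (pLvl p F) (diffEnd p (p ^ (m + 1)) F b.i (l.γ ^ (p ^ m - 1)))) fun f hf => by
    obtain ⟨q, rfl⟩ := Ideal.mem_span_singleton.1 hf
    rw [map_mul, FA.IwasawaControl.polyAct_omega ?_, zero_mul]
    rw [← pow_mul]
    obtain ⟨j, hj⟩ := Nat.sub_one_dvd_pow_sub_one p m
    rw [hj, mul_right_comm, pow_mul, show (p - 1) * p ^ m = phiN p m from rfl, ← l.hγ,
      pow_orderOf_eq_one, one_pow]

/-- The action of the ring. -/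
def act : LRing p m →+* AddMonoid.End l.A := l.actEnd

instance : Module (LRing p m) l.A := Module.compHom l.A l.act

/-- The automorphisms on it. -/
def gal (σ : F ≃ₐ[ℚ] F) : AddMonoid.End l.A := wAct p (p ^ (m + 1)) F b.i σ

theorem smul_def (r : LRing p m) (a : l.A) : r • a = l.act r a := rfl

theorem cls_smul (f : ℤ_[p][X]) (a : l.A) :
    cls p m f • a =
      polyAct p (pLvl p F) (diffEnd p (p ^ (m + 1)) F b.i (l.γ ^ (p ^ m - 1))) f a := rfl

theorem wY_smul (a : l.A) : wY b m • a = l.gal l.γ⁻¹ a := by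
  show _ = wAct p (p ^ (m + 1)) F b.i l.γ⁻¹ a
  rw [FA.IwasawaControl.wAct_inv_gen b.hg l.hγ l.hexp b.hu a, wY, cls_smul,
    FA.IwasawaControl.polyAct_mul_apply, FA.IwasawaControl.polyAct_C]
  congr 1
  rw [← pow_one (1 + X : ℤ_[p][X]), FA.IwasawaControl.polyAct_one_add_X_pow, pow_one]

/-- **`σ` acts as `χ σ`.** -/
theorem chi_smul (σ : F ≃ₐ[ℚ] F) (a : l.A) : l.chi σ • a = l.gal σ a := by
  obtain ⟨k, -, rfl⟩ := l.eq_pow σ
  induction k generalizing a with
  | zero =>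
    rw [pow_zero, map_one, one_smul]
    show a = wAct p (p ^ (m + 1)) F b.i 1 a
    rw [map_one]
    rfl
  | succ k ih =>
    rw [pow_succ, map_mul, mul_smul, chi_inv_gen, wY_smul, ih]
    show _ = wAct p (p ^ (m + 1)) F b.i (l.γ⁻¹ ^ k * l.γ⁻¹) a
    rw [map_mul]
    rfl

theorem natCast_pow_smul (a : l.A) : (p : LRing p m) ^ pLvl p F • a = 0 := by
  rw [smul_def, map_pow, map_natCast, ← Nat.cast_pow, AddMonoid.End.natCast_apply]
  exact Additive.toMul.injective (Subtype.ext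
    (Additive.toMul (α := wPart p (p ^ (m + 1)) F b.i) a).2.1)

theorem natCast_pow_smul_of_le {k : ℕ} (hk : pLvl p F ≤ k) (a : l.A) :
    (p : LRing p m) ^ k • a = 0 := by
  rw [← Nat.sub_add_cancel hk, pow_add, mul_smul, natCast_pow_smul, smul_zero]

/-- The class of an element. -/
def val : l.A →+ Additive (ClassGroup (𝓞 F)) :=
  (wPart p (p ^ (m + 1)) F b.i).subtype.toAdditive

theorem val_injective : Function.Injective l.val := fun _ _ h =>
  Additive.toMul.injective (Subtype.ext (congrArg Additive.toMul h))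

theorem val_mem (a : l.A) : Additive.toMul (l.val a) ∈ wPart p (p ^ (m + 1)) F b.i :=
  (Additive.toMul (α := wPart p (p ^ (m + 1)) F b.i) a).2

theorem val_gal (σ : F ≃ₐ[ℚ] F) (a : l.A) :
    Additive.toMul (l.val (l.gal σ a)) = actCl σ (Additive.toMul (l.val a)) := rfl

/-- The element of a class of the weight. -/
def ofMem (x : ClassGroup (𝓞 F)) (h : x ∈ wPart p (p ^ (m + 1)) F b.i) : l.A :=
  Additive.ofMul (⟨x, h⟩ : wPart p (p ^ (m + 1)) F b.i)

theorem val_ofMem (x : ClassGroup (𝓞 F)) (h : x ∈ wPart p (p ^ (m + 1)) F b.i) :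
    l.val (l.ofMem x h) = Additive.ofMul x := rfl

/-- **The projection of the classes.** -/
def pr : Additive (ClassGroup (𝓞 F)) →+ l.A :=
  MonoidHom.toAdditive ((wProj p (p ^ (m + 1)) F b.i).codRestrict (wPart p (p ^ (m + 1)) F b.i)
    fun x => FA.IwasawaControl.wProj_mem (dvd_pow_self p m.succ_ne_zero) b.i x)

theorem val_pr (x : ClassGroup (𝓞 F)) :
    l.val (l.pr (Additive.ofMul x)) = Additive.ofMul (wProj p (p ^ (m + 1)) F b.i x) := rfl

theorem pr_val (a : l.A) : l.pr (l.val a) = a := by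
  refine l.val_injective ?_
  show Additive.ofMul (wProj p (p ^ (m + 1)) F b.i (Additive.toMul (l.val a))) = l.val a
  rw [FA.IwasawaControl.wProj_of_mem (dvd_pow_self p m.succ_ne_zero) (l.val_mem a)]
  rfl

theorem pr_surjective : Function.Surjective l.pr := fun a => ⟨_, l.pr_val a⟩

theorem pr_galCl (σ : F ≃ₐ[ℚ] F) (x : ClassGroup (𝓞 F)) :
    l.pr (Additive.ofMul (FA.AmbClass.galCl σ x)) = l.chi σ • l.pr (Additive.ofMul x) := by
  rw [chi_smul]
  refine l.val_injective ?_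
  refine Additive.toMul.injective ?_
  rw [val_gal, val_pr, val_pr, toMul_ofMul, toMul_ofMul]
  exact FA.IwasawaControl.wProj_actCl b.i σ x

end Lvl

end FA.GaussTower
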