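import Fermat.Agent.GaussTower.Transform
import Fermat.Agent.Kolyvagin.Bound

/-!
# Divisors along free orbits of primes

* `Lvl.trDiv v d`: the transform of the divisor `d` along the orbit of `v`;
* `sum_trDiv_smul`: the projection of the class of a divisor supported modulo `p ^ k` on free
  orbits;
* `exists_lift`: a relation between the classes of such primes is the transform of a principal
  divisor supported on the orbits.
-/

set_option autoImplicit false
set_option linter.unusedSectionVars false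
set_option linter.style.haveILetI false

noncomputable section

open NumberField IsDedekindDomain Finset FA.ArtinRec FA.AmbClass
open scoped Classical

namespace FA.GaussTower

open FA.IwasawaControl (pLvl)
open FA.Kolyvagin (IsDeg1)
open LRing

variable {p : ℕ} [hp : Fact p.Prime] {m k : ℕ} {b : Brn p}
  {F : Type} [Field F] [NumberField F] [IsCyclotomicExtension {p ^ (m + 1)} ℚ F]
  {ι : Type} [Fintype ι]

/-- The orbits of the primes are free and disjoint. -/
def IsFam (vs : ι → HeightOneSpectrum (𝓞 F)) : Prop :=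
  Function.Injective fun a : ι × (F ≃ₐ[ℚ] F) => galPrime a.2 (vs a.1)

/-- A prime outside the orbits. -/
def IsOff (vs : ι → HeightOneSpectrum (𝓞 F)) (w : HeightOneSpectrum (𝓞 F)) : Prop :=
  ∀ (l : ι) (σ : F ≃ₐ[ℚ] F), galPrime σ (vs l) ≠ w

theorem IsOff.gal {vs : ι → HeightOneSpectrum (𝓞 F)} {w : HeightOneSpectrum (𝓞 F)}
    (h : IsOff vs w) (τ : F ≃ₐ[ℚ] F) : IsOff vs (galPrime τ w) := fun l σ he =>
  h l (τ⁻¹ * σ) (by rw [galPrime_mul, he, ← galPrime_mul, inv_mul_cancel, galPrime_one])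

theorem isFam_of_norm [IsGalois ℚ F] {vs : ι → HeightOneSpectrum (𝓞 F)} {q : ι → ℕ}
    (hq : Function.Injective q) (hvs : ∀ l, IsDeg1 1 (vs l) (q l)) : IsFam vs := by
  rintro ⟨l, σ⟩ ⟨l', σ'⟩ h
  change galPrime σ (vs l) = galPrime σ' (vs l') at h
  obtain rfl : l = l' := hq (by rw [← ((hvs l).gal σ).norm, ← ((hvs l').gal σ').norm, h])
  have h1 : galPrime (σ'⁻¹ * σ) (vs l) = vs l := by
    rw [galPrime_mul, h, ← galPrime_mul, inv_mul_cancel, galPrime_one]
  rw [inv_mul_eq_one.1 (FA.Kolyvagin.eq_one_of_galPrime_eq (hvs l) h1)]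

namespace Lvl

variable (l : Lvl b m F)

/-- **The transform along an orbit.** -/
def trDiv (v : HeightOneSpectrum (𝓞 F)) (d : Dvs F) : LRing p m :=
  l.tr fun σ => Multiplicative.toAdd d (galPrime σ v)

/-- The transform of the divisor of an element. -/
def trOrd (v : HeightOneSpectrum (𝓞 F)) (x : Fˣ) : LRing p m := l.trDiv v (ordHom x)

theorem trDiv_mul (v : HeightOneSpectrum (𝓞 F)) (d d' : Dvs F) :
    l.trDiv v (d * d') = l.trDiv v d + l.trDiv v d' := by
  rw [trDiv, trDiv, trDiv, ← map_add]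
  rfl

/-- The transform along an orbit as a map of groups. -/
def trDivHom (v : HeightOneSpectrum (𝓞 F)) : Dvs F →* Multiplicative (LRing p m) :=
  MonoidHom.mk' (fun d => Multiplicative.ofAdd (l.trDiv v d)) fun d d' => by
    rw [trDiv_mul]; rfl

theorem trDiv_prod {κ : Type*} (s : Finset κ) (v : HeightOneSpectrum (𝓞 F)) (d : κ → Dvs F)
    (e : κ → ℕ) :
    l.trDiv v (∏ j ∈ s, d j ^ e j) = ∑ j ∈ s, (e j : LRing p m) * l.trDiv v (d j) := by
  have h := map_prod (l.trDivHom v) (fun j => d j ^ e j) s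
  simp only [map_pow] at h
  have h' := congrArg Multiplicative.toAdd h
  rw [toAdd_prod] at h'
  exact h'.trans (Finset.sum_congr rfl fun j _ => nsmul_eq_mul _ _)

theorem trDiv_galDiv (v : HeightOneSpectrum (𝓞 F)) (τ : F ≃ₐ[ℚ] F) (d : Dvs F) :
    l.trDiv v (galDiv τ d) = l.chi τ * l.trDiv v d := by
  rw [trDiv, trDiv, ← l.tr_shift τ]
  congr 1
  funext σ
  conv_lhs => rw [show galPrime σ v = galPrime τ (galPrime (τ⁻¹ * σ) v) by
    rw [← galPrime_mul, mul_inv_cancel_left]]
  exact galDiv_apply τ d _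

theorem trOrd_galU (v : HeightOneSpectrum (𝓞 F)) (τ : F ≃ₐ[ℚ] F) (x : Fˣ) :
    l.trOrd v (galU τ x) = l.chi τ * l.trOrd v x := by
  rw [trOrd, galDiv_ordHom, trDiv_galDiv]
  rfl

theorem trOrd_prod {κ : Type*} (s : Finset κ) (v : HeightOneSpectrum (𝓞 F)) (x : κ → Fˣ)
    (e : κ → ℕ) :
    l.trOrd v (∏ j ∈ s, x j ^ e j) = ∑ j ∈ s, (e j : LRing p m) * l.trOrd v (x j) := by
  rw [trOrd, map_prod, Finset.prod_congr rfl fun j _ => map_pow ordHom (x j) (e j), trDiv_prod]
  rfl

theorem smul_congr {r r' : LRing p m} (hk : pLvl p F ≤ k) (h : red p m k r = red p m k r')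
    (a : l.A) : r • a = r' • a := by
  obtain ⟨d, hd⟩ := red_eq_iff.1 h
  rw [← sub_eq_zero, ← sub_smul, hd, mul_comm, mul_smul, l.natCast_pow_smul_of_le hk, smul_zero]

/-- The class of a prime in the weight part. -/
def prCls (v : HeightOneSpectrum (𝓞 F)) : l.A := l.pr (Additive.ofMul (primeCls v))

theorem prCls_galPrime (σ : F ≃ₐ[ℚ] F) (v : HeightOneSpectrum (𝓞 F)) :
    l.prCls (galPrime σ v) = l.chi σ • l.prCls v := by
  rw [prCls, prCls, ← galCl_primeCls, pr_galCl]

/-- **The class of a divisor supported on the orbits.** -/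
theorem sum_trDiv_smul {vs : ι → HeightOneSpectrum (𝓞 F)} (hvs : IsFam vs) (hk : pLvl p F ≤ k)
    {d : Dvs F} (hd : ∀ w, IsOff vs w → ((p ^ k : ℕ) : ℤ) ∣ Multiplicative.toAdd d w) :
    ∑ i, l.trDiv (vs i) d • l.prCls (vs i) = l.pr (Additive.ofMul (cls d)) := by
  set f := Multiplicative.toAdd d
  have hcls : l.pr (Additive.ofMul (cls d)) = f.sum fun w n => n • l.prCls w := by
    have h : Additive.ofMul (cls d) = f.sum fun w n => n • Additive.ofMul (primeCls w) := rfl
    rw [h, map_finsuppSum]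
    exact Finsupp.sum_congr fun w _ => map_zsmul _ _ _
  set S := (Finset.univ : Finset (ι × (F ≃ₐ[ℚ] F))).image fun a => galPrime a.2 (vs a.1)
  rw [hcls, Finsupp.sum_of_support_subset f (Finset.subset_union_right (s₁ := S)) _
    (fun w _ => zero_smul ℤ (l.prCls w)), ← Finset.sum_subset Finset.subset_union_left
    (fun w _ hw => ?_), Finset.sum_image fun a _ c _ h => hvs h, Fintype.sum_prod_type]
  · refine Finset.sum_congr rfl fun i _ => ?_
    rw [trDiv, tr_smul]
    refine Finset.sum_congr rfl fun σ _ => ?_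
    rw [prCls_galPrime, chi_smul]
  · obtain ⟨c, hc⟩ := hd w fun i σ he => hw (Finset.mem_image.2 ⟨(i, σ), Finset.mem_univ _, he⟩)
    rw [hc, mul_comm, mul_zsmul, natCast_zsmul, ← Nat.cast_smul_eq_nsmul (LRing p m),
      Nat.cast_pow, l.natCast_pow_smul_of_le hk, smul_zero]

/-- The class relation of an element. -/
theorem sum_trOrd_smul {vs : ι → HeightOneSpectrum (𝓞 F)} (hvs : IsFam vs) (hk : pLvl p F ≤ k)
    {x : Fˣ} (hx : ∀ w, IsOff vs w → ((p ^ k : ℕ) : ℤ) ∣ ord w x) :
    ∑ i, l.trOrd (vs i) x • l.prCls (vs i) = 0 := by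
  refine (l.sum_trDiv_smul hvs hk fun w hw => by rw [toAdd_ordHom]; exact hx w hw).trans ?_
  rw [show cls (ordHom x) = 1 from MonoidHom.mem_ker.1 (by rw [ker_cls]; exact ⟨x, rfl⟩),
    ofMul_one, map_zero]

/-- **Lifting a relation.** -/
theorem exists_lift {vs : ι → HeightOneSpectrum (𝓞 F)} (hvs : IsFam vs) (hk : pLvl p F ≤ k)
    {r : ι → LRing p m} (hr : ∑ i, r i • l.prCls (vs i) = 0) :
    ∃ μ : Fˣ, (∀ i, red p m k (l.trOrd (vs i) μ) = red p m k (r i)) ∧
      ∀ w, IsOff vs w → ord w μ = 0 := by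
  choose e he using fun i => l.exists_tr_eq k (r i)
  set f₀ : HeightOneSpectrum (𝓞 F) →₀ ℤ :=
    ∑ a : ι × (F ≃ₐ[ℚ] F), Finsupp.single (galPrime a.2 (vs a.1)) (e a.1 a.2 : ℤ) with hf₀
  set d₀ : Dvs F := Multiplicative.ofAdd f₀
  have hd₀ : ∀ i σ, Multiplicative.toAdd d₀ (galPrime σ (vs i)) = e i σ := fun i σ => by
    show f₀ _ = _
    rw [hf₀, Finsupp.finsetSum_apply, Finset.sum_eq_single (i, σ)
      (fun a _ ha => Finsupp.single_eq_of_ne fun h => ha (hvs h.symm))
      (fun h => absurd (Finset.mem_univ _) h), Finsupp.single_eq_same]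
  have hoff : ∀ w, IsOff vs w → Multiplicative.toAdd d₀ w = 0 := fun w hw => by
    show f₀ w = 0
    rw [hf₀, Finsupp.finsetSum_apply]
    exact Finset.sum_eq_zero fun a _ => Finsupp.single_eq_of_ne (hw a.1 a.2).symm
  set d : Dvs F := ∏ h, galDiv h d₀ ^ l.projExp k h
  have hdoff : ∀ w, IsOff vs w → Multiplicative.toAdd d w = 0 := fun w hw => by
    rw [toAdd_prod, Finsupp.finsetSum_apply]
    refine Finset.sum_eq_zero fun h _ => ?_
    rw [toAdd_pow, Finsupp.smul_apply, show w = galPrime h (galPrime h⁻¹ w) by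
      rw [← galPrime_mul, mul_inv_cancel, galPrime_one], galDiv_apply, hoff _ (hw.gal h⁻¹),
      smul_zero]
  have htr : ∀ i, red p m k (l.trDiv (vs i) d) = red p m k (r i) := fun i => by
    rw [trDiv_prod, ← he i, ← one_mul (red p m k (l.tr fun σ => (e i σ : ℤ))),
      ← l.red_tr_projExp (k := k), ← map_mul, tr_apply (f := fun σ => (l.projExp k σ : ℤ)),
      Finset.sum_mul]
    congr 1
    refine Finset.sum_congr rfl fun h _ => ?_
    rw [trDiv_galDiv, Int.cast_natCast, mul_assoc]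
    congr 2
    rw [trDiv]
    congr 1
    funext σ
    exact hd₀ i σ
  have hmem : cls d ∈ FA.IwasawaControl.wPart p (p ^ (m + 1)) F b.i := by
    have h : cls d = l.projCls k (cls d₀) := by
      rw [map_prod, projCls]
      exact Finset.prod_congr rfl fun h _ => by rw [map_pow, cls_galDiv]; rfl
    rw [h]
    exact l.projCls_mem hk _
  have h0 : l.pr (Additive.ofMul (cls d)) = 0 := by
    rw [← l.sum_trDiv_smul hvs hk (fun w hw => by rw [hdoff w hw]; exact dvd_zero _), ← hr]
    exact Finset.sum_congr rfl fun i _ => l.smul_congr hk (htr i) _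
  have h1 : cls d = 1 := by
    have h2 := congrArg (fun a => Additive.toMul (l.val a)) h0
    simp only [val_pr, map_zero, toMul_ofMul, toMul_zero] at h2
    rwa [FA.IwasawaControl.wProj_of_mem (dvd_pow_self p m.succ_ne_zero) hmem] at h2
  obtain ⟨μ, hμ⟩ : ∃ μ, ordHom μ = d := by
    have h2 : d ∈ (cls (F := F)).ker := MonoidHom.mem_ker.2 h1
    rwa [ker_cls] at h2
  exact ⟨μ, fun i => by rw [trOrd, hμ]; exact htr i, fun w hw => by
    rw [← toAdd_ordHom, hμ]; exact hdoff w hw⟩

end Lvl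

end FA.GaussTower
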