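import Fermat.Agent.GaussTower.Invariants

/-!
# The `p`-rank of the weight part

`Lvl.natCard_torsion`: when `λ < p ^ n` the classes killed by `p` form a group of order `p ^ λ`.

The quotient `A / p A` is the cokernel over `𝔽_p⟦X⟧` of the reduction of a relation matrix: the
reduction of its determinant is that of the system, `X ^ λ` up to a unit, and `X ^ (p ^ n)` is then
in the image.
-/

set_option autoImplicit false
set_option linter.unusedSectionVars false
set_option linter.style.haveILetI false

noncomputable section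

open Matrix
open scoped Classical

namespace FA.GaussTower

open FA.IwasawaMinus (omega sys Dominant sys_compatible)
open LRing

variable {p : ℕ} [hp : Fact p.Prime] {m : ℕ}

variable (p) in
/-- The reduction of a series modulo `p`. -/
def redS : PowerSeries ℤ_[p] →+* PowerSeries (ZMod p) := PowerSeries.map PadicInt.toZMod

theorem toZMod_eq_zero_iff {a : ℤ_[p]} : PadicInt.toZMod a = 0 ↔ (p : ℤ_[p]) ∣ a := by
  rw [← RingHom.mem_ker, PadicInt.ker_toZMod, PadicInt.maximalIdeal_eq_span_p,
    Ideal.mem_span_singleton]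

theorem redS_surjective : Function.Surjective (redS p) := fun F => by
  choose a ha using fun j => ZMod.ringHom_surjective (PadicInt.toZMod (p := p))
    (PowerSeries.coeff j F)
  exact ⟨PowerSeries.mk a, PowerSeries.ext fun j => by
    rw [redS, PowerSeries.coeff_map, PowerSeries.coeff_mk, ha]⟩

theorem exists_of_redS_eq_zero {G : PowerSeries ℤ_[p]} (h : redS p G = 0) :
    ∃ H, G = (p : PowerSeries ℤ_[p]) * H := by
  have hd : ∀ j, (p : ℤ_[p]) ∣ PowerSeries.coeff j G := fun j => by
    rw [← toZMod_eq_zero_iff, ← PowerSeries.coeff_map, show PowerSeries.map _ G = 0 from h,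
      map_zero]
  choose c hc using hd
  refine ⟨PowerSeries.mk c, PowerSeries.ext fun j => ?_⟩
  rw [← map_natCast (PowerSeries.C : ℤ_[p] →+* PowerSeries ℤ_[p]), PowerSeries.coeff_C_mul,
    PowerSeries.coeff_mk, ← hc]

theorem redS_natCast : redS p (p : PowerSeries ℤ_[p]) = 0 := by
  rw [map_natCast, ← map_natCast (PowerSeries.C : ZMod p →+* _), ZMod.natCast_self, map_zero]

/-- What dies at a level is divisible by `X ^ (p ^ m)` modulo `p`. -/
theorem X_pow_dvd_redS {G : PowerSeries ℤ_[p]} (h : piLvl p m G = 0) :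
    PowerSeries.X ^ p ^ m ∣ redS p G := by
  have h1 : G ∈ Ideal.span {((omega m : Polynomial ℤ_[p]) : PowerSeries ℤ_[p])} := by
    rw [← Ideal.Quotient.eq_zero_iff_mem]
    refine (distinguished_omega (p := p) m).algEquivQuotient.symm.injective ?_
    rw [map_zero]
    exact h
  obtain ⟨q, rfl⟩ := Ideal.mem_span_singleton.1 h1
  rw [map_mul, redS, ← Polynomial.polynomial_map_coe]
  refine Dvd.dvd.mul_right (dvd_of_eq ?_) _
  rw [omega, Polynomial.map_sub, Polynomial.map_pow, Polynomial.map_add, Polynomial.map_one,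
    Polynomial.map_X, add_pow_char_pow, one_pow, add_sub_cancel_left, Polynomial.coe_pow,
    Polynomial.coe_X]

theorem piLvl_surjective : Function.Surjective (piLvl p m) := fun a => by
  obtain ⟨f, rfl⟩ := cls_surjective a
  exact ⟨(f : PowerSeries ℤ_[p]), piLvl_coe f⟩

namespace Lvl

variable {b : Brn p} {n : ℕ} {L : Type} [Field L] [NumberField L]
  [IsCyclotomicExtension {p ^ (n + 1)} ℚ L]
variable (l : Lvl b n L)

/-- **The determinant modulo `p`.** -/
theorem associated_redS_det {t : ℕ} {C : Fin (t + 1) → l.A}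
    {M : Matrix (Fin (t + 1)) (Fin (t + 1)) (LRing p n)} (hM : IsRel C M)
    {P : Matrix (Fin (t + 1)) (Fin (t + 1)) (PowerSeries ℤ_[p])} (hP : P.map (piLvl p n) = M)
    {lam : ℕ} (hD : Dominant (sys b.hg b.u) 0 lam) (hlam : lam < p ^ n) :
    Associated (redS p P.det) (PowerSeries.X ^ lam) := by
  obtain ⟨w, hw⟩ := l.associated_det_sys hM
  obtain ⟨W, hW⟩ := piLvl_surjective (w : LRing p n)
  set N := max n lam
  set S : PowerSeries ℤ_[p] := (sys b.hg b.u N : PowerSeries ℤ_[p])
  have hS : piLvl p n S = cls p n (sys b.hg b.u n) := by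
    rw [piLvl_coe, ← sub_eq_zero, ← map_sub, cls_eq_zero_iff]
    exact (sys_compatible b.hg b.u).dvd_sub (le_max_left _ _)
  obtain ⟨Q, hQ⟩ : PowerSeries.X ^ p ^ n ∣ redS p (P.det * W - S) := X_pow_dvd_redS (by
    rw [map_sub, map_mul, hW, hS, RingHom.map_det, RingHom.mapMatrix_apply, hP, hw, sub_self])
  obtain ⟨a, ha⟩ : PowerSeries.X ^ lam ∣ redS p S := by
    refine PowerSeries.X_pow_dvd_iff.2 fun j hj => ?_
    rw [redS, PowerSeries.coeff_map, Polynomial.coeff_coe, toZMod_eq_zero_iff]
    simpa using hD.below N j (le_max_right _ _) hj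
  have ha0 : PowerSeries.constantCoeff a ≠ 0 := fun h0 => by
    refine (hD.main N (le_max_right _ _)).2 ?_
    rw [zero_add, pow_one, ← toZMod_eq_zero_iff, ← Polynomial.coeff_coe, ← PowerSeries.coeff_map]
    rw [show PowerSeries.map _ (sys b.hg b.u N : PowerSeries ℤ_[p]) = _ from ha,
      PowerSeries.coeff_X_pow_mul' , if_pos le_rfl, Nat.sub_self,
      PowerSeries.coeff_zero_eq_constantCoeff]
    exact h0
  rw [map_sub, map_mul, sub_eq_iff_eq_add, ha, show p ^ n = lam + (p ^ n - lam) by omega,
    pow_add, mul_assoc, ← mul_add] at hQ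
  have hU : IsUnit (PowerSeries.X ^ (p ^ n - lam) * Q + a) := by
    rw [PowerSeries.isUnit_iff_constantCoeff, map_add, map_mul, map_pow,
      PowerSeries.constantCoeff_X, zero_pow (by omega), zero_mul, zero_add, isUnit_iff_ne_zero]
    exact ha0
  have hWu : IsUnit W := by
    rw [PowerSeries.isUnit_iff_constantCoeff, ← aug_piLvl (m := n), hW]
    exact w.isUnit.map _
  exact (associated_mul_unit_right _ _ (hWu.map (redS p))).trans
    ((Associated.of_eq hQ).trans (associated_mul_unit_left _ _ hU))

/-- **The quotient by `p`.** -/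
theorem natCard_quotient_nsmul {lam : ℕ} (hD : Dominant (sys b.hg b.u) 0 lam)
    (hlam : lam < p ^ n) :
    (nsmulAddMonoidHom p : l.A →+ l.A).range.index = p ^ lam := by
  obtain ⟨t, C, M, hM⟩ := l.exists_rel
  choose P hP using fun j k => piLvl_surjective (M j k)
  have hP' : (Matrix.of P).map (piLvl p n) = M := Matrix.ext hP
  have hdet := l.associated_redS_det hM hP' hD hlam
  rw [RingHom.map_det, RingHom.mapMatrix_apply] at hdet
  set N₀ := (Matrix.of P).map (redS p) with hN₀
  have hne : N₀.det ≠ 0 := fun h0 => by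
    rw [h0] at hdet
    exact pow_ne_zero _ PowerSeries.X_prime.ne_zero (hdet.eq_zero_iff.1 rfl)
  let f : (Fin (t + 1) → PowerSeries (ZMod p)) →ₗ[PowerSeries (ZMod p)]
      (Fin (t + 1) → PowerSeries (ZMod p)) := Matrix.toLin' N₀ᵀ
  have hf : ∀ x, f x = x ᵥ* N₀ := fun x => mulVec_transpose N₀ x
  have hinj : Function.Injective f := (injective_iff_map_eq_zero f).2 fun x hx =>
    Matrix.eq_zero_of_vecMul_eq_zero hne ((hf x).symm.trans hx)
  -- two maps with the same kernel
  let S : AddSubgroup l.A := (nsmulAddMonoidHom p : l.A →+ l.A).range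
  let πA : (Fin (t + 1) → PowerSeries ℤ_[p]) →+ l.A :=
    { toFun := fun x => ∑ j, piLvl p n (x j) • C j
      map_zero' := Finset.sum_eq_zero fun j _ =>
        (congrArg (· • C j) (map_zero (piLvl p n))).trans (zero_smul (LRing p n) (C j))
      map_add' := fun x y => by
        rw [← Finset.sum_add_distrib]
        exact Finset.sum_congr rfl fun j _ =>
          (congrArg (· • C j) (map_add (piLvl p n) (x j) (y j))).trans (add_smul _ _ (C j)) }
  let πV := (QuotientAddGroup.mk' (LinearMap.range f).toAddSubgroup).comp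
    ((redS p).toAddMonoidHom.compLeft (Fin (t + 1)))
  have hsum : ∀ x, πA x = ∑ j, piLvl p n (x j) • C j := fun x => rfl
  have hrows : ∀ c, ∑ j, piLvl p n ((c ᵥ* Matrix.of P) j) • C j = 0 := fun c => by
    refine Eq.trans (Finset.sum_congr rfl fun j _ => ?_) (hM.rel_vecMul (piLvl p n ∘ c))
    rw [RingHom.map_vecMul, hP']
  have hdvd : N₀.det ∣ PowerSeries.X ^ p ^ n := hdet.dvd.trans (pow_dvd_pow _ hlam.le)
  obtain ⟨e, he⟩ := hdvd
  have hker : ((QuotientAddGroup.mk' S).comp πA).ker = πV.ker := by
    ext x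
    rw [AddMonoidHom.mem_ker, AddMonoidHom.mem_ker, AddMonoidHom.comp_apply,
      AddMonoidHom.comp_apply, QuotientAddGroup.mk'_apply, QuotientAddGroup.mk'_apply,
      QuotientAddGroup.eq_zero_iff, QuotientAddGroup.eq_zero_iff, Submodule.mem_toAddSubgroup]
    constructor
    · rintro ⟨y, hy⟩
      obtain ⟨d, rfl⟩ := hM.gen y
      obtain ⟨c, hc⟩ := hM.span (fun j => piLvl p n (x j) - (p : LRing p n) * d j) (by
        simp only [sub_smul, mul_smul, Finset.sum_sub_distrib, ← Finset.smul_sum,
          Nat.cast_smul_eq_nsmul]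
        rw [sub_eq_zero]
        exact hy.symm)
      choose c' hc' using fun j => piLvl_surjective (c j)
      choose d' hd' using fun j => piLvl_surjective (d j)
      have hr : ∀ j, ∃ r, redS p (x j) - ((redS p ∘ c') ᵥ* N₀) j = N₀.det * r := fun j => by
        obtain ⟨r, hr⟩ := X_pow_dvd_redS (m := n)
          (G := x j - (c' ᵥ* Matrix.of P) j - (p : PowerSeries ℤ_[p]) * d' j) (by
            rw [map_sub, map_sub, map_mul, map_natCast, hd', RingHom.map_vecMul, hP',
              show piLvl p n ∘ c' = c from funext hc', ← congrFun hc j]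
            ring)
        refine ⟨e * r, ?_⟩
        rw [map_sub, map_sub, map_mul, redS_natCast, zero_mul, sub_zero, RingHom.map_vecMul,
          he, mul_assoc] at hr
        exact hr
      choose r hr using hr
      refine ⟨redS p ∘ c' + r ᵥ* N₀.adjugate, funext fun j => ?_⟩
      rw [hf, add_vecMul, vecMul_vecMul, adjugate_mul, vecMul_smul, vecMul_one, Pi.add_apply,
        Pi.smul_apply, smul_eq_mul, ← hr, add_sub_cancel]
      rfl
    · rintro ⟨c, hc⟩
      choose c' hc' using fun j => redS_surjective (c j)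
      have hG : ∀ j, redS p (x j - (c' ᵥ* Matrix.of P) j) = 0 := fun j => by
        rw [map_sub, RingHom.map_vecMul, show redS p ∘ c' = c from funext hc', ← hf, hc]
        exact sub_self _
      choose G hG using fun j => exists_of_redS_eq_zero (hG j)
      refine ⟨∑ j, piLvl p n (G j) • C j, ?_⟩
      have hx : ∀ j, piLvl p n (x j) =
          piLvl p n ((c' ᵥ* Matrix.of P) j) + (p : LRing p n) * piLvl p n (G j) := fun j => by
        rw [← map_natCast (piLvl p n), ← map_mul, ← map_add, ← hG j, add_sub_cancel]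
      simp only [nsmulAddMonoidHom_apply, hsum, hx, add_smul, mul_smul, Finset.sum_add_distrib,
        hrows, zero_add, Nat.cast_smul_eq_nsmul, ← Finset.smul_sum]
  have hA : Function.Surjective ((QuotientAddGroup.mk' S).comp πA) :=
    (QuotientAddGroup.mk'_surjective S).comp fun a => by
      obtain ⟨d, hd⟩ := hM.gen a
      choose d' hd' using fun j => piLvl_surjective (d j)
      exact ⟨d', by rw [hsum]; simpa only [hd'] using hd⟩
  have hV : Function.Surjective πV := (QuotientAddGroup.mk'_surjective _).comp fun x => by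
    choose y hy using fun j => redS_surjective (x j)
    exact ⟨y, funext hy⟩
  have h := congrArg AddSubgroup.index hker
  rw [AddSubgroup.index_ker, AddSubgroup.index_ker, AddMonoidHom.range_eq_top.2 hA,
    AddMonoidHom.range_eq_top.2 hV, AddSubgroup.card_top, AddSubgroup.card_top] at h
  refine h.trans ?_
  refine natCard_quotient_range_series (Pi.basisFun _ _) f hinj ?_
  rwa [LinearMap.det_toLin', det_transpose]

/-- **The `p`-rank.** -/
theorem natCard_torsion {lam : ℕ} (hD : Dominant (sys b.hg b.u) 0 lam) (hlam : lam < p ^ n) :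
    Nat.card (nsmulAddMonoidHom p : l.A →+ l.A).ker = p ^ lam := by
  rw [← AddSubgroup.index_range, l.natCard_quotient_nsmul hD hlam]

end Lvl

end FA.GaussTower
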