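import Fermat.Agent.GaussTower.Orbit
import Fermat.Agent.ArtinReciprocity.Units
import Fermat.Agent.GaussKolyvagin.Chebotarev
import Mathlib.NumberTheory.NumberField.CMField
import Mathlib.NumberTheory.Cyclotomic.PrimitiveRoots

/-!
# The discrete logarithms along an orbit

* `Lvl.psi`: the transform of the discrete logarithms along the orbit of a prime of degree one;
* `psi_eq_zero_of_unit`: it kills the units;
* `psi_eq_of_trOrd`: hence it only depends on the transforms of the divisor, up to `p ^ a`;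
* `Lvl.eta`: the eigen element whose logarithm is the residue of `psi`, `eta_indep`.
-/

set_option autoImplicit false
set_option linter.unusedSectionVars false
set_option linter.style.haveILetI false

noncomputable section

open NumberField IsDedekindDomain Finset FA.ArtinRec FA.AmbClass
open scoped Classical

namespace FA.GaussTower

open FA.IwasawaControl (pLvl)
open FA.IwasawaStructure (expo)
open FA.Kolyvagin (IsDeg1 LogAt dlog dlog_mul dlog_eq exists_logAt logAt_gal)
open LRing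

variable {p : ℕ} [hp : Fact p.Prime] {m k : ℕ} {b : Brn p}
  {F : Type} [Field F] [NumberField F] [IsCyclotomicExtension {p ^ (m + 1)} ℚ F]

theorem pow_weight_ne (b : Brn p) {e : ℕ} (he : e ≤ 1) :
    (b.g : ZMod p) ^ b.i ≠ (b.g : ZMod p) ^ e := fun h => by
  have h1 : (b.g : ZMod p) ^ (b.i - e) = 1 := by
    refine mul_right_cancel₀ (pow_ne_zero e (FA.IwasawaMinus.gen_ne_zero b.hg)) ?_
    rw [one_mul, ← pow_add, Nat.sub_add_cancel (by have := b.hi3; omega), h]
  have h2 := FA.IwasawaMinus.orderOf_gen_mod b.hg ▸ orderOf_dvd_of_pow_eq_one h1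
  have := Nat.le_of_dvd (by have := b.hi3; omega) h2
  have := b.hip
  omega

theorem dlog_galU [IsGalois ℚ F] {M r : ℕ} {v : HeightOneSpectrum (𝓞 F)} (hv : IsDeg1 M v r)
    (g : F ≃ₐ[ℚ] F) (x : Fˣ) : dlog M (galPrime g v) r (galU g x) = dlog M v r x := by
  obtain ⟨j, hj⟩ := exists_logAt hv x
  rw [dlog_eq hv hj, dlog_eq (hv.gal g) ((logAt_gal g v x j).2 hj)]

/-- The constant terms modulo `p`. -/
def toResidue (p m : ℕ) [Fact p.Prime] {k : ℕ} (hk : 0 < k) : RMod p m k →+* ZMod p :=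
  Ideal.Quotient.lift _ ((PadicInt.toZMod).comp (aug p m)) fun a ha => by
    obtain ⟨c, rfl⟩ := Ideal.mem_span_singleton.1 ha
    rw [map_mul, map_pow, map_natCast, ZMod.natCast_self, zero_pow hk.ne', zero_mul]

theorem toResidue_red (hk : 0 < k) (a : LRing p m) :
    toResidue p m hk (red p m k a) = PadicInt.toZMod (aug p m a) := rfl

theorem isUnit_of_toZMod_ne {a : LRing p m} (h : PadicInt.toZMod (aug p m a) ≠ 0) : IsUnit a :=
  LRing.isUnit_iff.2 (PadicInt.isUnit_iff.2 (FA.IwasawaMinus.norm_eq_one_of_toZMod_ne h))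

namespace Lvl

variable (l : Lvl b m F)

/-- The exponent of the generator. -/
theorem expo_gen : ((expo (p ^ (m + 1)) l.γ : ℕ) : ZMod p) = b.g := by
  rw [← pow_one l.γ, l.hexp, FA.IwasawaMinus.res, pow_one, ZMod.natCast_val,
    ← ZMod.castHom_apply (h := dvd_pow_self p m.succ_ne_zero) (R := ZMod p), map_natCast]

/-- **The transform of the discrete logarithms.** -/
def psi (k : ℕ) (v : HeightOneSpectrum (𝓞 F)) (q : ℕ) (x : Fˣ) : RMod p m k :=
  red p m k (l.tr fun σ => ((dlog (p ^ k) (galPrime σ v) q x).val : ℤ))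

variable {v : HeightOneSpectrum (𝓞 F)} {q : ℕ} (hv : IsDeg1 (p ^ k) v q)
include hv

theorem psi_mul (x y : Fˣ) : l.psi k v q (x * y) = l.psi k v q x + l.psi k v q y := by
  haveI : NeZero (p ^ k) := ⟨pow_ne_zero _ hp.out.ne_zero⟩
  haveI := IsCyclotomicExtension.isGalois {p ^ (m + 1)} ℚ F
  rw [psi, psi, psi, ← map_add, ← map_add]
  refine l.red_tr_congr fun σ => ?_
  simp [ZMod.natCast_zmod_val, dlog_mul (hv.gal σ)]

theorem psi_galU (τ : F ≃ₐ[ℚ] F) (x : Fˣ) :
    l.psi k v q (galU τ x) = red p m k (l.chi τ) * l.psi k v q x := by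
  haveI := IsCyclotomicExtension.isGalois {p ^ (m + 1)} ℚ F
  rw [psi, psi, ← map_mul, ← l.tr_shift τ]
  congr 2
  funext σ
  conv_lhs => rw [show galPrime σ v = galPrime τ (galPrime (τ⁻¹ * σ) v) by
    rw [← galPrime_mul, mul_inv_cancel_left]]
  rw [dlog_galU (hv.gal _)]

/-- `psi` as a map of groups. -/
def psiHom : Fˣ →* Multiplicative (RMod p m k) :=
  MonoidHom.mk' (fun x => Multiplicative.ofAdd (l.psi k v q x)) fun x y => by
    rw [l.psi_mul hv]; rfl

theorem psi_one : l.psi k v q 1 = 0 := congrArg Multiplicative.toAdd (map_one (l.psiHom hv))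

theorem psi_pow (x : Fˣ) (e : ℕ) : l.psi k v q (x ^ e) = (e : RMod p m k) * l.psi k v q x := by
  rw [← nsmul_eq_mul]
  exact congrArg Multiplicative.toAdd (map_pow (l.psiHom hv) x e)

theorem psi_inv (x : Fˣ) : l.psi k v q x⁻¹ = -l.psi k v q x :=
  congrArg Multiplicative.toAdd (map_inv (l.psiHom hv) x)

theorem psi_prod {κ : Type*} (s : Finset κ) (x : κ → Fˣ) (e : κ → ℕ) :
    l.psi k v q (∏ j ∈ s, x j ^ e j) = ∑ j ∈ s, (e j : RMod p m k) * l.psi k v q (x j) := by
  have h := congrArg Multiplicative.toAdd (map_prod (l.psiHom hv) (fun j => x j ^ e j) s)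
  rw [toAdd_prod] at h
  exact h.trans (Finset.sum_congr rfl fun j _ => l.psi_pow hv (x j) (e j))

/-- An element with an eigenvalue different from the character is killed. -/
theorem psi_eq_zero_of_eigen (hk : 0 < k) {x : Fˣ} {e : ℕ} {τ : F ≃ₐ[ℚ] F}
    (hx : galU τ x = x ^ e) (hne : l.chiP τ ≠ (e : ZMod p)) : l.psi k v q x = 0 := by
  have h := l.psi_galU hv τ x
  rw [hx, l.psi_pow hv] at h
  have hu : IsUnit (red p m k (l.chi τ - (e : LRing p m))) := (isUnit_of_toZMod_ne (by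
    rw [map_sub, map_sub, map_natCast, map_natCast]
    exact sub_ne_zero.2 hne)).map _
  refine hu.mul_right_eq_zero.1 ?_
  rw [map_sub, map_natCast, sub_mul, h, sub_self]

omit hv in
include l in
theorem expo_conj [IsCMField F] :
    ((expo (p ^ (m + 1)) ((IsCMField.complexConj F).restrictScalars ℚ) : ℕ) : ZMod p) = -1 := by
  set cσ := (IsCMField.complexConj F).restrictScalars ℚ
  haveI : NeZero (p ^ (m + 1)) := ⟨pow_ne_zero _ hp.out.ne_zero⟩
  have hz := IsCyclotomicExtension.zeta_spec (p ^ (m + 1)) ℚ F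
  set z := IsCyclotomicExtension.zeta (p ^ (m + 1)) ℚ F
  have h1 : cσ z = z⁻¹ := by
    let φ : F →+* ℂ := Classical.choice (inferInstance : Nonempty _)
    refine φ.injective ?_
    show φ (IsCMField.complexConj F z) = _
    rw [IsCMField.complexEmbedding_complexConj, map_inv₀,
      Complex.inv_eq_conj (Complex.norm_eq_one_of_pow_eq_one (n := p ^ (m + 1))
        (by rw [← map_pow, hz.pow_eq_one, map_one]) (NeZero.ne _))]
  have h2 : z ^ (expo (p ^ (m + 1)) cσ + 1) = 1 := by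
    rw [pow_succ, show expo (p ^ (m + 1)) cσ =
        ((IsCyclotomicExtension.Rat.galEquivZMod (p ^ (m + 1)) F cσ : (ZMod (p ^ (m + 1)))ˣ) :
          ZMod (p ^ (m + 1))).val from rfl,
      ← IsCyclotomicExtension.Rat.galEquivZMod_apply_of_pow_eq (p ^ (m + 1)) F cσ
      hz.pow_eq_one, h1, inv_mul_cancel₀ (hz.ne_zero (NeZero.ne _))]
  have h3 : ((expo (p ^ (m + 1)) cσ + 1 : ℕ) : ZMod p) = 0 :=
    (ZMod.natCast_eq_zero_iff _ _).2
      ((dvd_pow_self p m.succ_ne_zero).trans (hz.dvd_of_pow_eq_one _ h2))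
  rw [Nat.cast_add, Nat.cast_one] at h3
  exact eq_neg_of_add_eq_zero_left h3

/-- **The units are killed.** -/
theorem psi_eq_zero_of_unit (hk : 0 < k) {U : Fˣ} (hU : ∀ w, ord w U = 0) :
    l.psi k v q U = 0 := by
  have hp2 : p ≠ 2 := b.ne_two
  haveI : Fact (2 < p) := ⟨lt_of_le_of_ne hp.out.two_le (Ne.symm hp2)⟩
  haveI : IsCMField F := IsCyclotomicExtension.Rat.isCMField F (S := {p ^ (m + 1)})
    ⟨_, rfl, (Fact.out : 2 < p).trans_le (Nat.le_self_pow m.succ_ne_zero p)⟩
  haveI : NeZero (p ^ (m + 1)) := ⟨pow_ne_zero _ hp.out.ne_zero⟩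
  obtain ⟨u, rfl⟩ := exists_intUnits_eq hU
  set cσ := (IsCMField.complexConj F).restrictScalars ℚ
  set cu := IsCMField.unitsComplexConj F u
  have hsq : intUnits u ^ 2 = intUnits (u * cu) * intUnits (u * cu⁻¹) := by
    rw [← map_mul, ← map_pow]
    congr 1
    rw [mul_mul_mul_comm, mul_inv_cancel, mul_one, pow_two]
  -- the real part
  have hreal : l.psi k v q (intUnits (u * cu)) = 0 := by
    refine l.psi_eq_zero_of_eigen hv hk (τ := cσ) (e := 1) ?_ ?_
    · rw [pow_one]
      refine Units.ext ?_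
      show IsCMField.complexConj F ((u : 𝓞 F) * (cu : 𝓞 F) : F) = ((u : 𝓞 F) * (cu : 𝓞 F) : F)
      have hcu : ((cu : 𝓞 F) : F) = IsCMField.complexConj F ((u : 𝓞 F) : F) := rfl
      rw [map_mul, hcu, IsCMField.complexConj_apply_apply, mul_comm]
    · rw [l.chiP_eq, l.expo_conj, b.hi.neg_one_pow, Nat.cast_one]
      exact ZMod.neg_one_ne_one
  -- the roots of unity
  have htors : l.psi k v q (intUnits (u * cu⁻¹)) = 0 := by
    have hmem : u * cu⁻¹ ∈ Units.torsion F := by
      rw [← IsCMField.unitsMulComplexConjInv_apply]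
      exact (IsCMField.unitsMulComplexConjInv F u).2
    have hfin : IsOfFinOrder (((u * cu⁻¹ : (𝓞 F)ˣ) : 𝓞 F) : F) :=
      ((algebraMap (𝓞 F) F).toMonoidHom.comp (Units.coeHom (𝓞 F))).isOfFinOrder
        ((CommGroup.mem_torsion (G := (𝓞 F)ˣ) _).mp hmem)
    have hz := IsCyclotomicExtension.zeta_spec (p ^ (m + 1)) ℚ F
    set z := IsCyclotomicExtension.zeta (p ^ (m + 1)) ℚ F
    obtain ⟨r, hr⟩ := hz.exists_neg_pow_of_isOfFinOrder (hp.out.odd_of_ne_two hp2).pow hfin
    set Z : Fˣ := Units.mk0 z (hz.ne_zero (NeZero.ne _))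
    rw [show intUnits (u * cu⁻¹) = ((-1) * Z) ^ r from Units.ext (by
      rw [Units.val_pow_eq_pow_val, Units.val_mul, Units.val_neg, Units.val_one, neg_one_mul]
      exact hr), l.psi_pow hv, l.psi_mul hv]
    have hγ : l.chiP l.γ = (b.g : ZMod p) ^ b.i := by
      rw [l.chiP_eq, l.expo_gen]
    have h1 : l.psi k v q (-1 : Fˣ) = 0 := by
      refine l.psi_eq_zero_of_eigen hv hk (τ := l.γ) (e := 1) ?_ 
        (by rw [hγ, Nat.cast_one, ← pow_zero (b.g : ZMod p)]; exact pow_weight_ne b (Nat.zero_le 1))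
      rw [pow_one]
      exact Units.ext (by simp)
    have h2 : l.psi k v q Z = 0 := by
      refine l.psi_eq_zero_of_eigen hv hk (τ := l.γ) (e := expo (p ^ (m + 1)) l.γ) ?_ ?_
      · refine Units.ext ?_
        rw [galU_val, Units.val_pow_eq_pow_val, Units.val_mk0]
        exact IsCyclotomicExtension.Rat.galEquivZMod_apply_of_pow_eq _ F _ hz.pow_eq_one
      · rw [hγ, l.expo_gen]
        simpa using pow_weight_ne b (e := 1) le_rfl
    rw [h1, h2, add_zero, mul_zero]
  have h2 := l.psi_pow hv (intUnits u) 2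
  rw [hsq, l.psi_mul hv, hreal, htors, add_zero] at h2
  refine ((isUnit_of_toZMod_ne (p := p) (m := m) (a := ((2 : ℕ) : LRing p m)) ?_).map
    (red p m k)).mul_right_eq_zero.1 (by rw [map_natCast]; exact h2.symm)
  rw [map_natCast, map_natCast]
  exact fun h => hp2 ((Nat.prime_dvd_prime_iff_eq hp.out Nat.prime_two).1
    ((ZMod.natCast_eq_zero_iff _ _).1 h))

omit hv in
/-- The orders of a projection are eigen. -/
theorem isEigen_ord (z : Fˣ) (w : HeightOneSpectrum (𝓞 F)) :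
    l.IsEigen k fun σ => ord (galPrime σ w) (∏ h, galU h z ^ l.projExp k h) := by
  intro h hh σ
  have hord : ∀ σ, ord (galPrime σ w) (∏ h', galU h' z ^ l.projExp k h') =
      ∑ h', (l.projExp k h' : ℤ) * ord (galPrime (h'⁻¹ * σ) w) z := fun σ => by
    rw [ord_prod]
    refine Finset.sum_congr rfl fun h' _ => ?_
    rw [ord_pow]
    conv_lhs => rw [show galPrime σ w = galPrime h' (galPrime (h'⁻¹ * σ) w) by
      rw [← galPrime_mul, mul_inv_cancel_left]]
    rw [ord_galU]
  simp only [hord]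
  rw [← Equiv.sum_comp (Equiv.mulLeft h)
    fun a => (l.projExp k a : ℤ) * ord (galPrime (a⁻¹ * (h * σ)) w) z]
  simp only [Equiv.coe_mulLeft, mul_inv_rev, mul_assoc, inv_mul_cancel_left]
  simp only [Int.cast_sum, Int.cast_mul, Int.cast_natCast, Finset.sum_mul, map_sum]
  refine Finset.sum_congr rfl fun h' _ => ?_
  have he := l.isEigen_projExp (k := k) h hh h'
  rw [Int.cast_natCast, Int.cast_natCast] at he
  rw [map_mul _ _ (l.chi h), map_mul, map_mul, mul_right_comm, ← map_mul, he]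

/-- **`psi` depends only on the transforms of the divisor**, up to `p ^ a`. -/
theorem psi_eq_of_trOrd {ι : Type} [Fintype ι] {vs : ι → HeightOneSpectrum (𝓞 F)} (hk : 0 < k)
    {z : Fˣ} (hz : ∀ i, red p m k (l.trOrd (vs i) z) = 0)
    (hoff : ∀ w, IsOff vs w → ((p ^ k : ℕ) : ℤ) ∣ ord w z) :
    (p : RMod p m k) ^ pLvl p F * l.psi k v q z = 0 := by
  set z' : Fˣ := ∏ h, galU h z ^ l.projExp k h
  have hpsi : l.psi k v q z' = l.psi k v q z := by
    rw [l.psi_prod hv, ← one_mul (l.psi k v q z), ← l.red_tr_projExp (k := k), tr_apply, map_sum,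
      Finset.sum_mul]
    refine Finset.sum_congr rfl fun h _ => ?_
    rw [l.psi_galU hv, Int.cast_natCast, map_mul, map_natCast, mul_assoc]
  have hdiv : ∀ w, ((p ^ k : ℕ) : ℤ) ∣ ord w z' := by
    intro w
    by_cases hw : IsOff vs w
    · rw [ord_prod]
      refine Finset.dvd_sum fun h _ => ?_
      rw [ord_pow]
      refine dvd_mul_of_dvd_right ?_ _
      conv => enter [2, 1]; rw [show w = galPrime h (galPrime h⁻¹ w) by
        rw [← galPrime_mul, mul_inv_cancel, galPrime_one]]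
      rw [ord_galU]
      exact hoff _ (hw.gal h⁻¹)
    · simp only [IsOff, not_forall, not_not] at hw
      obtain ⟨i, σ, rfl⟩ := hw
      refine l.tr_eq_zero (l.isEigen_ord z (vs i)) ?_ σ
      show red p m k (l.trOrd (vs i) z') = 0
      rw [trOrd_prod, map_sum]
      exact Finset.sum_eq_zero fun h _ => by
        rw [trOrd_galU, map_mul, map_mul, hz, mul_zero, mul_zero]
  choose d hd using hdiv
  set D : Dvs F := Multiplicative.ofAdd (Finsupp.ofSupportFinite d
    ((finite_ord_ne_zero z').subset fun w hw h0 => hw (by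
      rw [hd w] at h0
      exact (mul_eq_zero.1 h0).resolve_left (by exact_mod_cast pow_ne_zero _ hp.out.ne_zero))))
  have hD : D ^ p ^ k = ordHom z' := Multiplicative.toAdd.injective (Finsupp.ext fun w => by
    rw [toAdd_pow, Finsupp.smul_apply, toAdd_ordHom, hd w, nsmul_eq_mul]
    rfl)
  have h1 : cls D ^ p ^ k = 1 := by
    rw [← map_pow, hD, ← MonoidHom.mem_ker, ker_cls]
    exact ⟨z', rfl⟩
  obtain ⟨y, hy⟩ : ∃ y, ordHom y = D ^ p ^ pLvl p F := by
    have h2 : D ^ p ^ pLvl p F ∈ (cls (F := F)).ker := by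
      rw [MonoidHom.mem_ker, map_pow, FA.IwasawaControl.pow_pLvl h1]
    rwa [ker_cls] at h2
  have hU : ∀ w, ord w (z' ^ p ^ pLvl p F * (y ^ p ^ k)⁻¹) = 0 := fun w => by
    rw [← toAdd_ordHom, map_mul, map_inv, map_pow, map_pow, hy, ← hD, ← pow_mul, ← pow_mul,
      mul_comm (p ^ k), mul_inv_cancel]
    rfl
  have h3 := l.psi_eq_zero_of_unit hv hk hU
  rw [l.psi_mul hv, l.psi_inv hv, l.psi_pow hv, l.psi_pow hv, hpsi] at h3
  have hpk : ((p ^ k : ℕ) : RMod p m k) = 0 := by
    rw [← map_natCast (red p m k), Nat.cast_pow]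
    exact red_eq_zero_iff.2 dvd_rfl
  rwa [hpk, zero_mul, neg_zero, add_zero, Nat.cast_pow] at h3

/-! ### The eigen element -/

omit hv

/-- The exponents. -/
def etaExp (σ : F ≃ₐ[ℚ] F) : ℕ := (l.chiP σ).val

/-- **The eigen element** of an element. -/
def eta (x : Fˣ) : Fˣ := ∏ σ, galU σ⁻¹ x ^ l.etaExp σ

theorem etaExp_cast (σ : F ≃ₐ[ℚ] F) : (l.etaExp σ : ZMod p) = l.chiP σ :=
  haveI : NeZero p := ⟨hp.out.ne_zero⟩
  ZMod.natCast_zmod_val _

theorem galU_eta (x : Fˣ) {ρ : F ≃ₐ[ℚ] F} {X : ℕ} (hX : (X : ZMod p) = l.chiP ρ) :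
    ∃ y : Fˣ, galU ρ (l.eta x) = l.eta x ^ X * y ^ p := by
  have hd : ∀ σ, ∃ d : ℤ, (l.etaExp (ρ * σ) : ℤ) = (X * l.etaExp σ : ℕ) + d * p := fun σ => by
    obtain ⟨d, hd⟩ := (ZMod.intCast_eq_intCast_iff_dvd_sub ((X * l.etaExp σ : ℕ) : ℤ)
      (l.etaExp (ρ * σ) : ℤ) p).1 (by
        rw [Int.cast_natCast, Int.cast_natCast, Nat.cast_mul, etaExp_cast, etaExp_cast, hX,
          chiP_mul])
    exact ⟨d, by rw [mul_comm d]; linarith⟩
  choose d hd using hd
  refine ⟨∏ σ, galU σ⁻¹ x ^ d σ, ?_⟩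
  rw [eta, map_prod, ← Finset.prod_pow, ← Finset.prod_pow, ← Finset.prod_mul_distrib]
  refine (Fintype.prod_equiv (Equiv.mulLeft ρ) _ _ fun σ => ?_).symm
  rw [Equiv.coe_mulLeft, map_pow, ← zpow_natCast (galU ρ _), hd σ, zpow_add, zpow_natCast,
    zpow_mul, zpow_natCast, ← pow_mul, mul_comm X]
  have h : galU ρ (galU (ρ * σ)⁻¹ x) = galU σ⁻¹ x := Units.ext (by
    simp only [galU_val, ← AlgEquiv.mul_apply, mul_inv_rev]
    rw [l.comm σ⁻¹, mul_inv_cancel_left])
  rw [h]

include hv in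
/-- **The residue of `psi`.** -/
theorem toResidue_psi (hk : 0 < k) (x : Fˣ) {j : ℕ} (hj : LogAt v q (l.eta x) j) :
    toResidue p m hk (l.psi k v q x) = (j : ZMod p) := by
  haveI : NeZero (p ^ k) := ⟨pow_ne_zero _ hp.out.ne_zero⟩
  haveI := IsCyclotomicExtension.isGalois {p ^ (m + 1)} ℚ F
  have h : dlog (p ^ k) v q (l.eta x) =
      ∑ σ, (l.etaExp σ : ZMod (p ^ k)) * dlog (p ^ k) (galPrime σ v) q x := by
    let f : Fˣ →* Multiplicative (ZMod (p ^ k)) :=
      MonoidHom.mk' (fun y => Multiplicative.ofAdd (dlog (p ^ k) v q y)) fun y y' => by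
        rw [dlog_mul hv]; rfl
    have hf := congrArg Multiplicative.toAdd (map_prod f (fun σ => galU σ⁻¹ x ^ l.etaExp σ) univ)
    rw [toAdd_prod] at hf
    refine hf.trans (Finset.sum_congr rfl fun σ _ => ?_)
    rw [map_pow, toAdd_pow, nsmul_eq_mul]
    show _ * dlog (p ^ k) v q (galU σ⁻¹ x) = _
    rw [← dlog_galU hv σ, show galU σ (galU σ⁻¹ x) = x from Units.ext (σ.apply_symm_apply (x : F))]
  rw [dlog_eq hv hj] at h
  have h' := congrArg (ZMod.castHom (dvd_pow_self p hk.ne') (ZMod p)) h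
  rw [map_natCast, map_sum] at h'
  rw [h', psi, toResidue_red, tr_apply, map_sum, map_sum]
  refine Finset.sum_congr rfl fun σ _ => ?_
  rw [map_mul, map_mul, map_mul, map_intCast, map_intCast, Int.cast_natCast, map_natCast,
    etaExp_cast, mul_comm]
  congr 1
  rw [ZMod.natCast_val, ← ZMod.castHom_apply (h := dvd_pow_self p hk.ne') (R := ZMod p)]

/-- The transform of the exponents. -/
def theta : LRing p m := ∑ σ, (l.etaExp σ : LRing p m) * l.chi σ⁻¹

theorem trOrd_eta (v : HeightOneSpectrum (𝓞 F)) (x : Fˣ) :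
    l.trOrd v (l.eta x) = l.theta * l.trOrd v x := by
  rw [eta, trOrd_prod, theta, Finset.sum_mul]
  exact Finset.sum_congr rfl fun σ _ => by rw [trOrd_galU, mul_assoc]

/-- The transform of the exponents is not divisible by `p`. -/
theorem dvd_of_red_mul_theta {e : ℕ} (h : red p m 1 ((e : LRing p m) * l.theta) = 0) : p ∣ e := by
  set Z := yR p m ^ (p ^ m - 1)
  have hpm : 0 < p ^ m := pow_pos hp.out.pos m
  have hZ : ∀ j, Z ^ j * yR p m ^ j = 1 := fun j => by
    rw [← mul_pow, ← pow_succ, Nat.sub_add_cancel hpm, yR_pow, one_pow]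
  have hterm : ∀ j, red p m 1 ((l.etaExp (l.γ⁻¹ ^ j) : LRing p m) * l.chi (l.γ⁻¹ ^ j)⁻¹) =
      red p m 1 (Z ^ j) := fun j => by
    have h1 : red p m 1 (l.etaExp (l.γ⁻¹ ^ j) : LRing p m) =
        red p m 1 (cls p m (Polynomial.C (FA.IwasawaMinus.teich b.u ^ j))) := by
      have hnat : cls p m (Polynomial.C (l.etaExp (l.γ⁻¹ ^ j) : ℤ_[p])) =
          (l.etaExp (l.γ⁻¹ ^ j) : LRing p m) := by rw [map_natCast, map_natCast]
      rw [← hnat]
      refine red_cls_C_eq ?_
      rw [← sub_eq_zero, ← map_sub, ← RingHom.mem_ker, PadicInt.ker_toZModPow, pow_one,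
        ← PadicInt.maximalIdeal_eq_span_p, ← PadicInt.ker_toZMod, RingHom.mem_ker, map_sub,
        map_natCast, etaExp_cast, chiP_pow_gen, map_pow, FA.IwasawaMinus.toZMod_teich, sub_self]
    rw [map_mul, h1, ← map_mul]
    congr 1
    have h2 : l.chi (l.γ⁻¹ ^ j)⁻¹ * wY b m ^ j = 1 := by
      rw [← l.chi_pow, ← map_mul, inv_mul_cancel, map_one]
    calc _ = cls p m (Polynomial.C (FA.IwasawaMinus.teich b.u ^ j)) * l.chi (l.γ⁻¹ ^ j)⁻¹ *
          (Z ^ j * yR p m ^ j) := by rw [hZ, mul_one]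
      _ = l.chi (l.γ⁻¹ ^ j)⁻¹ * wY b m ^ j * Z ^ j := by
          rw [wY_eq, mul_pow, ← map_pow, ← map_pow Polynomial.C]
          ring
      _ = Z ^ j := by rw [h2, one_mul]
  have hsum : red p m 1 l.theta = red p m 1 (((p - 1 : ℕ) : LRing p m) *
      ∑ s ∈ range (p ^ m), Z ^ s) := by
    rw [theta, l.sum_eq_range, map_sum, Finset.sum_congr rfl fun j _ => hterm j, ← map_sum,
      phiN, mul_comm (p - 1), FA.IwasawaMinus.sum_range_mul' _ (p ^ m) (p - 1)]
    congr 1
    have hP : Z ^ p ^ m = 1 := by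
      rw [← pow_mul, mul_comm, pow_mul, yR_pow, one_pow]
    rw [Finset.sum_congr rfl fun t _ => Finset.sum_congr rfl fun s _ => show
      Z ^ (t * p ^ m + s) = Z ^ s by rw [pow_add, mul_comm t, pow_mul, hP, one_pow, one_mul],
      Finset.sum_const, Finset.card_range, nsmul_eq_mul]
  rw [map_mul, hsum, ← map_mul, mul_left_comm, map_mul,
    ((natCast_sub_one_unit (p := p) (m := m)).map (red p m 1)).mul_right_eq_zero, map_mul] at h
  have h2 : red p m 1 (∑ s ∈ range (p ^ m),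
      cls p m (Polynomial.C (e : ℤ_[p])) * yR p m ^ s) = 0 := by
    have hflip : (∑ s ∈ range (p ^ m), yR p m ^ s) =
        yR p m ^ (p ^ m - 1) * ∑ s ∈ range (p ^ m), Z ^ s := by
      rw [Finset.mul_sum, ← Finset.sum_range_reflect]
      refine Finset.sum_congr rfl fun s hs => ?_
      have hs' := Finset.mem_range.1 hs
      calc yR p m ^ (p ^ m - 1 - s) = yR p m ^ (p ^ m - 1 - s) * (Z ^ s * yR p m ^ s) := by
            rw [hZ, mul_one]
        _ = yR p m ^ (p ^ m - 1 - s + s) * Z ^ s := by rw [pow_add]; ring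
        _ = _ := by rw [Nat.sub_add_cancel (by omega)]
    rw [← Finset.mul_sum, map_natCast Polynomial.C, map_natCast (cls p m), hflip, mul_left_comm,
      map_mul, map_mul, h, mul_zero]
  have h3 := dvd_of_red_sum_eq_zero (fun _ => (e : ℤ_[p])) h2 hpm
  rw [pow_one, ← Int.cast_natCast (R := ℤ_[p]) e, ← pow_one (p : ℤ_[p]),
    PadicInt.pow_p_dvd_int_iff, pow_one] at h3
  exact_mod_cast h3

end Lvl

end FA.GaussTower
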