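import Fermat.Agent.GaussTower.LevelRing
import Mathlib.RingTheory.PowerSeries.WeierstrassPreparation
import Mathlib.RingTheory.PowerSeries.Trunc

/-!
# Power series and the rings of the levels

* `piLvl`: the map `ℤ_p⟦X⟧ → ℤ_p[X] / (ω_m)`, compatible in `m` (`down_piLvl`);
* `exists_series`: a compatible system of polynomials comes from a power series;
* `exists_factor`: a power series other than `0` is `p ^ μ P U`, `P` distinguished and `U` a unit;
* `norm_ev_distinguished`: the size of a distinguished polynomial near the boundary.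
-/

set_option autoImplicit false
set_option linter.unusedSectionVars false

noncomputable section

open Polynomial
open scoped Classical

namespace FA.GaussTower

open FA.IwasawaMinus (omega Compatible ev emb norm_emb norm_emb_le_pow)
open LRing

variable {p : ℕ} [hp : Fact p.Prime] {m : ℕ}

/-- Only `0` is divisible by all powers of `p`. -/
theorem padicInt_eq_zero_of_forall {a : ℤ_[p]} (h : ∀ s, (p : ℤ_[p]) ^ s ∣ a) : a = 0 :=
  IsHausdorff.haus (inferInstance : IsHausdorff (IsLocalRing.maximalIdeal ℤ_[p]) ℤ_[p]) a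
    fun s => by
    rw [SModEq.zero, smul_eq_mul, Ideal.mul_top, PadicInt.maximalIdeal_eq_span_p,
      Ideal.span_singleton_pow, Ideal.mem_span_singleton]
    exact h s

theorem LRing.eq_zero_of_forall_dvd {a : LRing p m} (h : ∀ s, (p : LRing p m) ^ s ∣ a) : a = 0 := by
  obtain ⟨f, rfl⟩ := cls_surjective a
  rw [cls_eq_zero_iff, ← modByMonic_eq_zero_iff_dvd (monic_omega m)]
  ext j
  rw [coeff_zero]
  refine padicInt_eq_zero_of_forall fun s => ?_
  obtain ⟨b, hb⟩ := h s
  obtain ⟨g, rfl⟩ := cls_surjective b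
  rw [← map_natCast (cls p m), ← map_pow, ← map_mul, ← sub_eq_zero, ← map_sub, cls_eq_zero_iff,
    ← modByMonic_eq_zero_iff_dvd (monic_omega m), sub_modByMonic, sub_eq_zero,
    ← map_natCast (C : ℤ_[p] →+* ℤ_[p][X]), ← map_pow, ← smul_eq_C_mul, smul_modByMonic] at hb
  rw [hb, Polynomial.coeff_smul, smul_eq_mul]
  exact dvd_mul_right _ _

/-- The powers of `X`. -/
theorem LRing.pow_dvd_X_pow {s N : ℕ} (h : p ^ m * s ≤ N) :
    (p : LRing p m) ^ s ∣ cls p m X ^ N := by
  obtain ⟨c, hc⟩ := Ideal.mem_span_singleton.1 (X_pow_mem_span (p := p) (m := m) s)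
  exact Dvd.intro _ (by rw [← Nat.add_sub_cancel' h, pow_add, hc, mul_assoc]) 

/-- The monomials far out or deep. -/
theorem LRing.pow_dvd_cls {s : ℕ} {f : ℤ_[p][X]}
    (h : ∀ j, j < p ^ m * s → (p : ℤ_[p]) ^ s ∣ f.coeff j) : (p : LRing p m) ^ s ∣ cls p m f := by
  rw [f.as_sum_range_C_mul_X_pow, map_sum]
  refine Finset.dvd_sum fun j _ => ?_
  rw [map_mul, map_pow]
  rcases lt_or_ge j (p ^ m * s) with hj | hj
  · obtain ⟨c, hc⟩ := h j hj
    exact Dvd.dvd.mul_right ⟨cls p m (C c), by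
      rw [hc, map_mul C, map_pow C, map_natCast C, map_mul, map_pow, map_natCast]⟩ _
  · exact (pow_dvd_X_pow hj).mul_left _

variable (p m) in
/-- **The map from the power series.** -/
def piLvl : PowerSeries ℤ_[p] →+* LRing p m :=
  ((distinguished_omega (p := p) m).algEquivQuotient.symm.toAlgHom.toRingHom).comp
    (Ideal.Quotient.mk (Ideal.span {((omega m : ℤ_[p][X]) : PowerSeries ℤ_[p])}))

theorem piLvl_coe (f : ℤ_[p][X]) : piLvl p m (f : PowerSeries ℤ_[p]) = cls p m f := by
  show (distinguished_omega (p := p) m).algEquivQuotient.symm _ = _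
  rw [AlgEquiv.symm_apply_eq]
  rfl

theorem piLvl_X : piLvl p m PowerSeries.X = cls p m X := by
  rw [← Polynomial.coe_X, piLvl_coe]

/-- A map agreeing on polynomials with the one to the level. -/
theorem piLvl_sub_trunc_mem (F : PowerSeries ℤ_[p]) {N s : ℕ} (h : p ^ m * s ≤ N) :
    (p : LRing p m) ^ s ∣ piLvl p m F - cls p m (F.trunc N) := by
  conv => enter [2, 1, 2]; rw [F.eq_X_pow_mul_shift_add_trunc N]
  rw [map_add, piLvl_coe, add_sub_cancel_right, map_mul, map_pow, piLvl_X]
  exact (pow_dvd_X_pow h).mul_right _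

theorem down_piLvl {n : ℕ} (h : n ≤ m) (F : PowerSeries ℤ_[p]) :
    down p h (piLvl p m F) = piLvl p n F := by
  refine sub_eq_zero.1 (eq_zero_of_forall_dvd fun s => ?_)
  set N := max (p ^ n * s) (p ^ m * s)
  have h1 := map_dvd (down p h) (piLvl_sub_trunc_mem (m := m) F (le_max_right _ _ : _ ≤ N))
  have h2 := piLvl_sub_trunc_mem (m := n) F (le_max_left _ _ : _ ≤ N)
  rw [map_pow, map_natCast, map_sub, down_cls] at h1
  simpa using dvd_sub h1 h2

theorem aug_piLvl (F : PowerSeries ℤ_[p]) : aug p m (piLvl p m F) = F.constantCoeff := by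
  rw [← aug_down (Nat.zero_le m), down_piLvl]
  have h := piLvl_sub_trunc_mem (m := 0) F (N := 1) (s := 1) (by simp)
  refine sub_eq_zero.1 (padicInt_eq_zero_of_forall fun s => ?_)
  have h2 := map_dvd (aug p 0) (piLvl_sub_trunc_mem (m := 0) F (N := max 1 s) (s := s)
    (by rw [pow_zero, one_mul]; exact le_max_right _ _))
  rw [map_pow, map_natCast, map_sub, aug_cls, PowerSeries.coeff_trunc,
    if_pos (lt_of_lt_of_le one_pos (le_max_left _ _)),
    PowerSeries.coeff_zero_eq_constantCoeff] at h2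
  exact h2

/-- **A compatible system comes from a power series.** -/
theorem exists_series {H : ℕ → ℤ_[p][X]} (hH : Compatible H) :
    ∃ F : PowerSeries ℤ_[p], ∀ n, piLvl p n F = cls p n (H n) := by
  have hlim : ∀ j, ∃ L : ℤ_[p], ∀ k, (p : ℤ_[p]) ^ k ∣ (H (k + j)).coeff j - L := fun j => by
    obtain ⟨L, hL⟩ := IsPrecomplete.prec (I := IsLocalRing.maximalIdeal ℤ_[p])
      (inferInstance : IsPrecomplete (IsLocalRing.maximalIdeal ℤ_[p]) ℤ_[p])
      (f := fun k => (H (k + j)).coeff j) fun {k l} hkl => by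
        rw [SModEq.sub_mem, smul_eq_mul, Ideal.mul_top, PadicInt.maximalIdeal_eq_span_p,
          Ideal.span_singleton_pow, Ideal.mem_span_singleton, ← dvd_neg, neg_sub]
        exact (pow_dvd_pow _ (by omega)).trans (hH.dvd_coeff_sub (show k + j ≤ l + j by omega) j)
    refine ⟨L, fun k => ?_⟩
    have h := hL k
    rwa [SModEq.sub_mem, smul_eq_mul, Ideal.mul_top, PadicInt.maximalIdeal_eq_span_p,
      Ideal.span_singleton_pow, Ideal.mem_span_singleton] at h
  choose L hL using hlim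
  refine ⟨PowerSeries.mk L, fun n => sub_eq_zero.1 (eq_zero_of_forall_dvd fun s => ?_)⟩
  set N := p ^ n * s
  set M := max n (N + s)
  have h1 := piLvl_sub_trunc_mem (m := n) (PowerSeries.mk L) (le_refl N)
  have h2 : (p : LRing p n) ^ s ∣ cls p n ((PowerSeries.mk L).trunc N - H M) :=
    pow_dvd_cls fun j hj => by
      rw [coeff_sub, PowerSeries.coeff_trunc, if_pos hj, PowerSeries.coeff_mk, ← dvd_neg, neg_sub]
      have h := hL j (M - j)
      rw [Nat.sub_add_cancel (hj.le.trans ((Nat.le_add_right _ _).trans (le_max_right _ _)))] at h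
      exact (pow_dvd_pow _ (by omega)).trans h
  have h3 : cls p n (H M) = cls p n (H n) := by
    rw [← sub_eq_zero, ← map_sub, cls_eq_zero_iff]
    exact hH.dvd_sub (le_max_left _ _)
  rw [map_sub, h3] at h2
  simpa using dvd_add h1 h2

/-- **Weierstrass preparation.** -/
theorem exists_factor {F : PowerSeries ℤ_[p]} (hF : F ≠ 0) :
    ∃ (μ : ℕ) (P : ℤ_[p][X]) (U : PowerSeries ℤ_[p]),
      P.IsDistinguishedAt (IsLocalRing.maximalIdeal ℤ_[p]) ∧ IsUnit U ∧
        F = PowerSeries.C ((p : ℤ_[p]) ^ μ) * ((P : PowerSeries ℤ_[p]) * U) := by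
  have hex : ∃ k, ∃ j, ¬ (p : ℤ_[p]) ^ (k + 1) ∣ PowerSeries.coeff j F := by
    by_contra hno
    push Not at hno
    refine hF (PowerSeries.ext fun j => ?_)
    rw [map_zero]
    refine padicInt_eq_zero_of_forall fun s => ?_
    exact (pow_dvd_pow _ (Nat.le_succ s)).trans (hno s j)
  set μ := Nat.find hex
  have hall : ∀ j, (p : ℤ_[p]) ^ μ ∣ PowerSeries.coeff j F := fun j => by
    rcases hμ : μ with _ | k
    · simp
    · by_contra h
      exact Nat.find_min hex (show k < μ by omega) ⟨j, h⟩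
  choose c hc using hall
  obtain ⟨j₀, hj₀⟩ := Nat.find_spec hex
  have hres : (PowerSeries.mk c).map (IsLocalRing.residue ℤ_[p]) ≠ 0 := fun h => hj₀ (by
    have h1 := congrArg (PowerSeries.coeff j₀) h
    rw [PowerSeries.coeff_map, PowerSeries.coeff_mk, map_zero, IsLocalRing.residue_eq_zero_iff,
      PadicInt.maximalIdeal_eq_span_p, Ideal.mem_span_singleton] at h1
    rw [hc j₀, pow_succ]
    exact mul_dvd_mul_left _ h1)
  obtain ⟨P, U, hPU⟩ := PowerSeries.exists_isWeierstrassFactorization hres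
  refine ⟨μ, P, U, hPU.isDistinguishedAt, hPU.isUnit, ?_⟩
  rw [← hPU.eq_mul]
  ext j
  rw [PowerSeries.coeff_C_mul, PowerSeries.coeff_mk, hc]

/-- **A distinguished polynomial near the boundary.** -/
theorem norm_ev_distinguished {P : ℤ_[p][X]}
    (hP : P.IsDistinguishedAt (IsLocalRing.maximalIdeal ℤ_[p])) {x : PadicAlgCl p}
    (hx : (p : ℝ)⁻¹ < ‖x‖ ^ P.natDegree ∨ 1 ≤ ‖x‖) : ‖ev x P‖ = ‖x‖ ^ P.natDegree := by
  have hpos : 0 < ‖x‖ ^ P.natDegree := by
    rcases hx with h | h
    · exact lt_of_le_of_lt (by positivity) h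
    · exact pow_pos (one_pos.trans_le h) _
  have hlow : ∀ j < P.natDegree, ‖emb (P.coeff j) * x ^ j‖ < ‖x‖ ^ P.natDegree := fun j hj => by
    have hm := hP.mem hj
    rw [PadicInt.maximalIdeal_eq_span_p, Ideal.mem_span_singleton] at hm
    rw [norm_mul, norm_pow]
    have h1 : ‖emb (P.coeff j)‖ ≤ (p : ℝ)⁻¹ := by
      simpa using norm_emb_le_pow (k := 1) (by simpa using hm)
    have hp1 : (p : ℝ)⁻¹ < 1 := inv_lt_one_of_one_lt₀ (Nat.one_lt_cast.2 hp.out.one_lt)
    rcases le_or_gt 1 ‖x‖ with h | h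
    · calc ‖emb (P.coeff j)‖ * ‖x‖ ^ j ≤ (p : ℝ)⁻¹ * ‖x‖ ^ j := by gcongr
        _ < 1 * ‖x‖ ^ j := by
            gcongr
        _ ≤ ‖x‖ ^ P.natDegree := by rw [one_mul]; exact pow_le_pow_right₀ h hj.le
    · have hx' := hx.resolve_right h.not_ge
      calc ‖emb (P.coeff j)‖ * ‖x‖ ^ j ≤ (p : ℝ)⁻¹ * 1 := by
            gcongr
            exact pow_le_one₀ (norm_nonneg _) h.le
        _ < ‖x‖ ^ P.natDegree := by rwa [mul_one]
  have hsum : ‖∑ j ∈ Finset.range P.natDegree, emb (P.coeff j) * x ^ j‖ < ‖x‖ ^ P.natDegree := by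
    rcases (Finset.range P.natDegree).eq_empty_or_nonempty with h | h
    · rw [h, Finset.sum_empty, norm_zero]
      exact hpos
    · obtain ⟨j, hj, hle⟩ := IsUltrametricDist.exists_norm_finsetSum_le
        (Finset.range P.natDegree) (fun j => emb (P.coeff j) * x ^ j)
      exact hle.trans_lt (hlow j (Finset.mem_range.1 (hj h)))
  have hmain : ‖emb (P.coeff P.natDegree) * x ^ P.natDegree‖ = ‖x‖ ^ P.natDegree := by
    rw [hP.monic.coeff_natDegree, map_one, one_mul, norm_pow]
  rw [ev, eval₂_eq_sum_range, Finset.sum_range_succ,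
    IsUltrametricDist.norm_add_eq_max_of_norm_ne_norm (by rw [hmain]; exact hsum.ne), hmain,
    max_eq_right hsum.le]

end FA.GaussTower
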