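import Fermat.Agent.GaussTower.Module

/-!
# The transform of a function on the Galois group

`Lvl.tr f = ∑ f σ χ σ`, read modulo `p ^ k` in `RMod p m k`.

* `tr_eq_zero`: a tame-eigen function with transform `0` vanishes;
* `exists_tr_eq`: every element is the transform of a natural-valued function;
* `projExp`: exponents with transform `1`, eigen, whose class map lands in the weight part
  (`projCls_mem`).
-/

set_option autoImplicit false
set_option linter.unusedSectionVars false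
set_option linter.style.haveILetI false

noncomputable section

open NumberField Polynomial Finset
open scoped Classical

namespace FA.GaussTower

open FA.CycloTower (actCl)
open FA.IwasawaStructure (expo)
open FA.IwasawaMinus (omega teich)
open FA.IwasawaControl (wPart pLvl)
open LRing

variable {p : ℕ} [hp : Fact p.Prime] {m k : ℕ}

variable (p m k) in
/-- The ring of the level modulo `p ^ k`. -/
abbrev RMod : Type := LRing p m ⧸ Ideal.span {(p : LRing p m) ^ k}

variable (p m k) in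
/-- The reduction. -/
def red : LRing p m →+* RMod p m k := Ideal.Quotient.mk (Ideal.span {(p : LRing p m) ^ k})

theorem red_eq_iff {a c : LRing p m} : red p m k a = red p m k c ↔ (p : LRing p m) ^ k ∣ a - c :=
  Ideal.Quotient.eq.trans Ideal.mem_span_singleton

theorem red_eq_zero_iff {a : LRing p m} : red p m k a = 0 ↔ (p : LRing p m) ^ k ∣ a := by
  rw [← map_zero (red p m k), red_eq_iff, sub_zero]

theorem red_surjective : Function.Surjective (red p m k) := Ideal.Quotient.mk_surjective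

theorem red_cls_C_eq {z z' : ℤ_[p]} (h : PadicInt.toZModPow k z = PadicInt.toZModPow k z') :
    red p m k (cls p m (C z)) = red p m k (cls p m (C z')) := by
  rw [red_eq_iff, ← map_sub, ← C_sub]
  rw [← sub_eq_zero, ← map_sub, ← RingHom.mem_ker, PadicInt.ker_toZModPow,
    Ideal.mem_span_singleton] at h
  obtain ⟨d, hd⟩ := h
  exact ⟨cls p m (C d), by rw [hd, C_mul, map_mul, C_pow, map_pow, map_natCast, map_natCast]⟩

theorem red_intCast_eq {a c : ℤ} (h : (a : ZMod (p ^ k)) = c) :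
    red p m k (a : LRing p m) = red p m k c := by
  have h' := red_cls_C_eq (m := m) (z := (a : ℤ_[p])) (z' := (c : ℤ_[p])) (by simpa using h)
  simpa using h'

theorem red_natCast_val (z : ℤ_[p]) :
    red p m k ((PadicInt.toZModPow k z).val : LRing p m) = red p m k (cls p m (C z)) := by
  haveI : NeZero (p ^ k) := ⟨pow_ne_zero _ hp.out.ne_zero⟩
  have h' := red_cls_C_eq (m := m) (k := k)
    (z := ((PadicInt.toZModPow k z).val : ℤ_[p])) (z' := z)
    (by rw [map_natCast, ZMod.natCast_zmod_val])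
  rwa [map_natCast, map_natCast] at h'

theorem toZModPow_eq_of_le {a : ℕ} (h : a ≤ k) {z z' : ℤ_[p]}
    (he : PadicInt.toZModPow k z = PadicInt.toZModPow k z') :
    PadicInt.toZModPow a z = PadicInt.toZModPow a z' := by
  have e := PadicInt.zmod_cast_comp_toZModPow (p := p) a k h
  rw [← DFunLike.congr_fun e z, ← DFunLike.congr_fun e z', RingHom.comp_apply, he]
  rfl

/-- A combination of the powers of `1 + X` below `p ^ m` is unique modulo `p ^ k`. -/
theorem dvd_of_red_sum_eq_zero (a : ℕ → ℤ_[p])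
    (h : red p m k (∑ s ∈ range (p ^ m), cls p m (C (a s)) * yR p m ^ s) = 0) {s : ℕ}
    (hs : s < p ^ m) : (p : ℤ_[p]) ^ k ∣ a s := by
  set G : ℤ_[p][X] := ∑ j ∈ range (p ^ m), C (a j) * (1 + X) ^ j with hG
  have hGcls : (p : LRing p m) ^ k ∣ cls p m G := by
    rw [← red_eq_zero_iff, ← h, hG, map_sum (cls p m)]
    simp only [map_mul, map_pow, yR]
  obtain ⟨B, hB⟩ := hGcls
  obtain ⟨B, rfl⟩ := cls_surjective B
  rw [← map_natCast (cls p m), ← map_pow, ← map_mul, ← sub_eq_zero, ← map_sub, cls_eq_zero_iff,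
    ← modByMonic_eq_zero_iff_dvd (monic_omega m), sub_modByMonic, sub_eq_zero] at hB
  have hdeg : G.degree < (omega (p := p) m).degree := by
    rw [degree_eq_natDegree (monic_omega m).ne_zero, natDegree_omega, hG]
    refine (degree_sum_le _ _).trans_lt ?_
    refine (Finset.sup_lt_iff (WithBot.bot_lt_coe _)).2 fun j hj => ?_
    refine lt_of_le_of_lt ((degree_mul_le _ _).trans ((add_le_add degree_C_le ?_).trans_eq
      (zero_add (j : WithBot ℕ)))) (WithBot.coe_lt_coe.2 (Finset.mem_range.1 hj))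
    refine (degree_pow_le _ _).trans ?_
    rw [add_comm, ← C_1, degree_X_add_C, nsmul_one]
  rw [(modByMonic_eq_self_iff (monic_omega m)).2 hdeg, ← map_natCast (C : ℤ_[p] →+* ℤ_[p][X]),
    ← map_pow, ← smul_eq_C_mul, smul_modByMonic, smul_eq_C_mul] at hB
  have h1 := congrArg (fun P : ℤ_[p][X] => (P.comp (X - 1)).coeff s) hB
  simp only [mul_comp, C_comp, coeff_C_mul] at h1
  refine ⟨((B %ₘ omega m).comp (X - 1)).coeff s, ?_⟩
  rw [← h1, hG, Polynomial.sum_comp, finsetSum_coeff, Finset.sum_eq_single s]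
  · simp [coeff_C_mul]
  · intro j _ hj
    simp [coeff_X_pow, Ne.symm hj]
  · exact fun hn => absurd (Finset.mem_range.2 hs) hn

variable {b : Brn p} {F : Type} [Field F] [NumberField F] [IsCyclotomicExtension {p ^ (m + 1)} ℚ F]

namespace Lvl

variable (l : Lvl b m F)

/-- **The transform.** -/
def tr : ((F ≃ₐ[ℚ] F) → ℤ) →+ LRing p m where
  toFun f := ∑ σ, (f σ : LRing p m) * l.chi σ
  map_zero' := Finset.sum_eq_zero fun σ _ => by simp
  map_add' f g := by simp [add_mul, Finset.sum_add_distrib]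

theorem tr_apply (f : (F ≃ₐ[ℚ] F) → ℤ) : l.tr f = ∑ σ, (f σ : LRing p m) * l.chi σ := rfl

theorem tr_shift (τ : F ≃ₐ[ℚ] F) (f : (F ≃ₐ[ℚ] F) → ℤ) :
    l.tr (fun σ => f (τ⁻¹ * σ)) = l.chi τ * l.tr f := by
  rw [tr_apply, tr_apply, Finset.mul_sum]
  refine (Fintype.sum_equiv (Equiv.mulLeft τ) _ _ fun σ => ?_).symm
  rw [Equiv.coe_mulLeft, inv_mul_cancel_left, map_mul]
  ring

theorem tr_smul (f : (F ≃ₐ[ℚ] F) → ℤ) (a : l.A) : l.tr f • a = ∑ σ, f σ • l.gal σ a := by
  rw [tr_apply, Finset.sum_smul]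
  exact Finset.sum_congr rfl fun σ _ => by rw [mul_smul, chi_smul, Int.cast_smul_eq_zsmul]

theorem red_tr_congr {f g : (F ≃ₐ[ℚ] F) → ℤ} (h : ∀ σ, (f σ : ZMod (p ^ k)) = g σ) :
    red p m k (l.tr f) = red p m k (l.tr g) := by
  rw [tr_apply, tr_apply, map_sum, map_sum]
  exact Finset.sum_congr rfl fun σ _ => by rw [map_mul, map_mul, red_intCast_eq (h σ)]

/-- Sums over the group through the wild and the tame part. -/
theorem sum_eq_sum_sum {M : Type*} [AddCommMonoid M] (f : (F ≃ₐ[ℚ] F) → M) :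
    ∑ σ, f σ = ∑ s ∈ range (p ^ m), ∑ t ∈ range (p - 1), f (l.tameGen ^ t * l.γ⁻¹ ^ s) := by
  rw [l.sum_eq_range, phiN, mul_comm (p - 1), FA.IwasawaMinus.sum_range_mul' _ (p ^ m) (p - 1),
    Finset.sum_comm]
  refine Finset.sum_congr rfl fun s _ => Finset.sum_congr rfl fun t _ => ?_
  rw [tameGen, ← pow_mul, ← pow_add, mul_comm t]

theorem tameGen_pow_tame (t : ℕ) : (l.tameGen ^ t) ^ (p - 1) = 1 := by
  rw [tameGen, ← pow_mul, ← pow_mul, show p ^ m * (t * (p - 1)) = phiN p m * t by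
    rw [phiN]; ring, pow_mul, ← l.hγ, ← orderOf_inv, pow_orderOf_eq_one, one_pow]

theorem natCast_sub_one_unit : IsUnit ((p - 1 : ℕ) : LRing p m) := by
  refine LRing.isUnit_iff.2 ?_
  rw [map_natCast, PadicInt.isUnit_iff, PadicInt.norm_def]
  rw [PadicInt.coe_natCast, Padic.norm_natCast_eq_one_iff, hp.out.coprime_iff_not_dvd]
  intro h
  have := Nat.le_of_dvd (Nat.sub_pos_of_lt hp.out.one_lt) h
  have := hp.out.pos
  omega

/-- A function eigen for the tame automorphisms. -/
def IsEigen (k : ℕ) (f : (F ≃ₐ[ℚ] F) → ℤ) : Prop :=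
  ∀ h : F ≃ₐ[ℚ] F, h ^ (p - 1) = 1 → ∀ σ,
    red p m k ((f (h * σ) : LRing p m) * l.chi h) = red p m k (f σ)

/-- **An eigen function with transform `0` vanishes.** -/
theorem tr_eq_zero {f : (F ≃ₐ[ℚ] F) → ℤ} (hf : l.IsEigen k f) (h0 : red p m k (l.tr f) = 0)
    (σ : F ≃ₐ[ℚ] F) : ((p ^ k : ℕ) : ℤ) ∣ f σ := by
  have key : red p m k (((p - 1 : ℕ) : LRing p m) * ∑ s ∈ range (p ^ m),
      cls p m (C ((f (l.γ⁻¹ ^ s) : ℤ_[p]) * teich b.u ^ s)) * yR p m ^ s) = 0 := by
    rw [← h0, tr_apply, l.sum_eq_sum_sum, map_mul, map_sum, map_sum, Finset.mul_sum]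
    refine Finset.sum_congr rfl fun s _ => ?_
    have hrow : ∀ t ∈ range (p - 1), red p m k
        ((f (l.tameGen ^ t * l.γ⁻¹ ^ s) : LRing p m) * l.chi (l.tameGen ^ t * l.γ⁻¹ ^ s)) =
        red p m k (cls p m (C ((f (l.γ⁻¹ ^ s) : ℤ_[p]) * teich b.u ^ s)) * yR p m ^ s) := by
      intro t _
      rw [map_mul l.chi, ← mul_assoc, map_mul (red p m k), hf _ (l.tameGen_pow_tame t),
        ← map_mul, chi_pow, wY_eq, mul_pow, C_mul, map_mul (cls p m), C_pow, map_pow (cls p m),
        ← mul_assoc, map_intCast, map_intCast]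
    rw [map_sum, Finset.sum_congr rfl hrow, Finset.sum_const, Finset.card_range, nsmul_eq_mul,
      map_natCast]
  rw [map_mul] at key
  have hz := (natCast_sub_one_unit (p := p) (m := m)).map (red p m k)
  have hall := fun s hs => dvd_of_red_sum_eq_zero (fun s => (f (l.γ⁻¹ ^ s) : ℤ_[p]) * teich b.u ^ s)
    (hz.mul_right_eq_zero.1 key) (s := s) hs
  obtain ⟨j, hj, rfl⟩ := l.eq_pow σ
  set s := j % p ^ m
  set t := j / p ^ m
  have hs : (p : ℤ_[p]) ^ k ∣ (f (l.γ⁻¹ ^ s) : ℤ_[p]) := by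
    have hu : IsUnit (teich b.u ^ s) := by
      refine (IsUnit.of_mul_eq_one (teich b.u ^ (p - 2)) ?_).pow s
      rw [← pow_succ', show p - 2 + 1 = p - 1 by have := hp.out.two_le; omega,
        FA.IwasawaMinus.teich_pow_card]
    exact hu.dvd_mul_right.1 (hall s (Nat.mod_lt _ (pow_pos hp.out.pos m)))
  have hσ : l.γ⁻¹ ^ j = l.tameGen ^ t * l.γ⁻¹ ^ s := by
    rw [tameGen, ← pow_mul, ← pow_add, Nat.div_add_mod]
  have h1 := hf _ (l.tameGen_pow_tame t) (l.γ⁻¹ ^ s)
  rw [← hσ, map_mul, show red p m k (f (l.γ⁻¹ ^ s) : LRing p m) = 0 from red_eq_zero_iff.2 (by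
    obtain ⟨d, hd⟩ := hs
    exact ⟨cls p m (C d), by
      rw [← map_intCast ((cls p m).comp (C : ℤ_[p] →+* ℤ_[p][X])), RingHom.comp_apply, hd, C_mul,
        map_mul, C_pow, map_pow, map_natCast, map_natCast]⟩),
    ((l.isUnit_chi _).map (red p m k)).mul_left_eq_zero, red_eq_zero_iff] at h1
  have h2 := map_dvd (aug p m) h1
  rw [map_pow, map_natCast, map_intCast, PadicInt.pow_p_dvd_int_iff] at h2
  exact_mod_cast h2

/-- **Every element is a transform.** -/
theorem exists_tr_eq (k : ℕ) (r : LRing p m) :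
    ∃ e : (F ≃ₐ[ℚ] F) → ℕ, red p m k (l.tr fun σ => (e σ : ℤ)) = red p m k r := by
  obtain ⟨f, rfl⟩ := cls_surjective r
  set f' := (f %ₘ omega m).comp (X - 1)
  have hdeg : f'.natDegree < p ^ m := by
    rcases Nat.eq_zero_or_pos m with rfl | hm
    · rw [pow_zero, Nat.lt_one_iff]
      have : (f %ₘ omega (p := p) 0).natDegree < 1 := by
        have := natDegree_modByMonic_lt f (monic_omega (p := p) 0) fun e => by
          have h := natDegree_omega (p := p) 0
          rw [e, natDegree_one] at h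
          simp at h
        rwa [natDegree_omega, pow_zero] at this
      simp only [f', natDegree_comp]
      rw [Nat.lt_one_iff.1 this, zero_mul]
    · have := natDegree_modByMonic_lt f (monic_omega (p := p) m) fun e => by
        have h := natDegree_omega (p := p) m
        rw [e, natDegree_one] at h
        exact (pow_pos hp.out.pos m).ne h
      rw [natDegree_omega] at this
      simp only [f', natDegree_comp]
      rwa [show (X - 1 : ℤ_[p][X]) = X - C 1 by rw [map_one], natDegree_X_sub_C, mul_one]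
  have hf : cls p m f = ∑ s ∈ range (p ^ m), cls p m (C (f'.coeff s)) * yR p m ^ s := by
    have h0 : cls p m f = cls p m (f %ₘ omega m) := by
      rw [← sub_eq_zero, ← map_sub, cls_eq_zero_iff]
      exact ⟨f /ₘ omega m, by linear_combination -(modByMonic_add_div f (omega m))⟩
    have h1 : (f %ₘ omega m) = f'.comp (X + 1) := by
      simp [f', comp_assoc]
    rw [h0, h1]
    conv_lhs => rw [f'.as_sum_range' _ hdeg, Polynomial.sum_comp, map_sum]
    refine Finset.sum_congr rfl fun s _ => ?_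
    rw [← C_mul_X_pow_eq_monomial, mul_comp, C_comp, pow_comp, X_comp, map_mul, map_pow, yR,
      add_comm]
  set w' : ℤ_[p] := teich b.u ^ (p - 2)
  have hw : teich b.u * w' = 1 := by
    rw [← pow_succ', show p - 2 + 1 = p - 1 by have := hp.out.two_le; omega,
      FA.IwasawaMinus.teich_pow_card]
  set c : ℕ → ℕ := fun s => (PadicInt.toZModPow k (f'.coeff s * w' ^ s)).val
  refine ⟨fun σ => ∑ s ∈ range (p ^ m), if l.γ⁻¹ ^ s = σ then c s else 0, ?_⟩
  rw [hf, tr_apply]
  simp only [Nat.cast_sum, Int.cast_sum, Finset.sum_mul]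
  rw [Finset.sum_comm, map_sum, map_sum]
  refine Finset.sum_congr rfl fun s _ => ?_
  rw [Finset.sum_eq_single (l.γ⁻¹ ^ s) (fun σ _ hσ => by rw [if_neg (Ne.symm hσ)]; simp)
    (fun hn => absurd (Finset.mem_univ _) hn), if_pos rfl, Int.cast_natCast, map_mul, chi_pow,
    red_natCast_val, ← map_mul, wY_eq, mul_pow, ← map_pow (cls p m), ← C_pow, ← mul_assoc,
    ← map_mul (cls p m), ← C_mul, mul_assoc, ← mul_pow, mul_comm w', hw, one_pow, mul_one]

/-! ### The projection -/

variable (p F) in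
/-- The part of the class number prime to `p`. -/
def coP : ℕ := classNumber F / p ^ pLvl p F

theorem pow_mul_coP : p ^ pLvl p F * coP p F = classNumber F :=
  Nat.mul_div_cancel' pow_padicValNat_dvd

theorem not_dvd_coP : ¬ p ∣ coP p F := fun h => by
  have h1 : p ^ (pLvl p F + 1) ∣ classNumber F := by
    rw [← pow_mul_coP (p := p) (F := F), pow_succ]
    exact mul_dvd_mul_left _ h
  rw [padicValNat_dvd_iff_le (classNumber_pos F).ne'] at h1
  simp only [pLvl] at h1
  omega

theorem isUnit_coP_mul : IsUnit ((coP p F * (p - 1) : ℕ) : ℤ_[p]) := by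
  rw [PadicInt.isUnit_iff, PadicInt.norm_def, PadicInt.coe_natCast, Padic.norm_natCast_eq_one_iff,
    hp.out.coprime_iff_not_dvd]
  intro h
  rcases hp.out.dvd_mul.1 h with h | h
  · exact not_dvd_coP h
  · have := Nat.le_of_dvd (Nat.sub_pos_of_lt hp.out.one_lt) h
    have := hp.out.pos
    omega

/-- The scalar of an automorphism in the idempotent. -/
def projVal (σ : F ≃ₐ[ℚ] F) : ℤ_[p] :=
  ((isUnit_coP_mul (p := p) (F := F)).unit⁻¹ : ℤ_[p]ˣ) * aug p m (l.chi σ⁻¹)

/-- **The exponents of the projection.** -/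
def projExp (k : ℕ) (σ : F ≃ₐ[ℚ] F) : ℕ :=
  if σ ^ (p - 1) = 1 then coP p F * (PadicInt.toZModPow k (l.projVal σ)).val else 0

theorem red_projExp {σ : F ≃ₐ[ℚ] F} (h : σ ^ (p - 1) = 1) :
    red p m k (l.projExp k σ : LRing p m) =
      red p m k ((coP p F : LRing p m) * cls p m (C (l.projVal σ))) := by
  rw [projExp, if_pos h, Nat.cast_mul, map_mul, red_natCast_val, ← map_mul]

include l in
theorem comm (σ τ : F ≃ₐ[ℚ] F) : σ * τ = τ * σ :=
  FA.IwasawaControl.gal_comm (p ^ (m + 1)) σ τ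

theorem isEigen_projExp : l.IsEigen k fun σ => (l.projExp k σ : ℤ) := by
  intro h hh σ
  have hiff : (h * σ) ^ (p - 1) = 1 ↔ σ ^ (p - 1) = 1 := by
    rw [(show Commute h σ from l.comm h σ).mul_pow, hh, one_mul]
  by_cases hσ : σ ^ (p - 1) = 1
  · rw [Int.cast_natCast, Int.cast_natCast, map_mul, l.red_projExp (hiff.2 hσ), l.red_projExp hσ,
      ← map_mul]
    congr 1
    rw [l.chi_of_tame hh, mul_assoc, ← map_mul, ← C_mul]
    congr 3
    rw [projVal, projVal, mul_assoc, mul_inv_rev, map_mul l.chi, map_mul (aug p m),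
      mul_assoc (aug p m (l.chi σ⁻¹)), ← map_mul (aug p m), ← map_mul l.chi, inv_mul_cancel,
      map_one, map_one, mul_one]
  · simp [projExp, hσ, hiff]

/-- **The transform of the projection is `1`.** -/
theorem red_tr_projExp : red p m k (l.tr fun σ => (l.projExp k σ : ℤ)) = 1 := by
  rw [tr_apply, l.sum_eq_sum_sum, map_sum,
    Finset.sum_eq_single 0 (fun s hs hs0 => ?_) (fun h => absurd (Finset.mem_range.2
      (pow_pos hp.out.pos m)) h)]
  · have hterm : ∀ t ∈ range (p - 1), red p m k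
        (((l.projExp k (l.tameGen ^ t * l.γ⁻¹ ^ 0) : ℤ) : LRing p m) *
          l.chi (l.tameGen ^ t * l.γ⁻¹ ^ 0)) =
        red p m k ((coP p F : LRing p m) *
          cls p m (C (((isUnit_coP_mul (p := p) (F := F)).unit⁻¹ : ℤ_[p]ˣ) : ℤ_[p]))) := by
      intro t _
      have hh := l.tameGen_pow_tame t
      rw [pow_zero, mul_one, Int.cast_natCast, map_mul, l.red_projExp hh, ← map_mul, mul_assoc]
      congr 2
      conv_lhs => rw [l.chi_of_tame hh]
      rw [← map_mul, ← C_mul, projVal, mul_assoc, ← map_mul, ← map_mul l.chi, inv_mul_cancel,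
        map_one, map_one, mul_one]
    rw [map_sum, Finset.sum_congr rfl hterm, Finset.sum_const, Finset.card_range, nsmul_eq_mul,
      ← map_natCast (red p m k), ← map_mul, ← mul_assoc, ← Nat.cast_mul, mul_comm (p - 1)]
    have h := congrArg ((cls p m).comp (C : ℤ_[p] →+* ℤ_[p][X]))
      (isUnit_coP_mul (p := p) (F := F)).mul_val_inv
    rw [map_mul, map_natCast, map_one, RingHom.comp_apply] at h
    rw [h, map_one]
  · rw [map_sum]
    refine Finset.sum_eq_zero fun t _ => ?_
    rw [projExp, if_neg ?_]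
    · simp
    intro h
    rw [(show Commute (l.tameGen ^ t) (l.γ⁻¹ ^ s) from l.comm _ _).mul_pow, l.tameGen_pow_tame,
      one_mul, ← pow_mul] at h
    have h1 := orderOf_dvd_of_pow_eq_one h
    rw [orderOf_inv, l.hγ, phiN, mul_comm s] at h1
    have := Nat.le_of_dvd (Nat.pos_of_ne_zero hs0)
      (Nat.dvd_of_mul_dvd_mul_left (Nat.sub_pos_of_lt hp.out.one_lt) h1)
    have := Finset.mem_range.1 hs
    omega

/-- The Teichmüller value on the tame automorphisms. -/
theorem toZModPow_aug_chi {τ : F ≃ₐ[ℚ] F} (h : τ ^ (p - 1) = 1) (a : ℕ) :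
    PadicInt.toZModPow a (aug p m (l.chi τ)) =
      ((expo (p ^ (m + 1)) τ ^ (b.i * p ^ a) : ℕ) : ZMod (p ^ a)) := by
  obtain ⟨t, -, rfl⟩ := l.mem_tame_iff.1 h
  rw [FA.IwasawaControl.natCast_pow_eq_teich (u := b.u ^ (p ^ m * t)) b.i a ?_, chi_tameGen_pow,
    aug_cls, coeff_C_zero, FA.GaussKolyvagin.teich_pow]
  rw [← l.chiP_eq, tameGen, ← pow_mul, chiP_pow_gen, Units.val_pow_eq_pow_val]

/-- The projection of a class. -/
def projCls (k : ℕ) (y : ClassGroup (𝓞 F)) : ClassGroup (𝓞 F) :=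
  ∏ σ, actCl σ y ^ l.projExp k σ

theorem projExp_eq (k : ℕ) (σ : F ≃ₐ[ℚ] F) :
    ∃ e, l.projExp k σ = coP p F * e ∧ (σ ^ (p - 1) = 1 →
      (e : ZMod (p ^ k)) = PadicInt.toZModPow k (l.projVal σ)) := by
  haveI : NeZero (p ^ k) := ⟨pow_ne_zero _ hp.out.ne_zero⟩
  by_cases h : σ ^ (p - 1) = 1
  · exact ⟨(PadicInt.toZModPow k (l.projVal σ)).val, by rw [projExp, if_pos h],
      fun _ => ZMod.natCast_zmod_val _⟩
  · exact ⟨0, by rw [projExp, if_neg h, mul_zero], fun h' => absurd h' h⟩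

/-- **The projection lands in the weight part.** -/
theorem projCls_mem {k : ℕ} (hk : pLvl p F ≤ k) (y : ClassGroup (𝓞 F)) :
    l.projCls k y ∈ wPart p (p ^ (m + 1)) F b.i := by
  choose e he he' using l.projExp_eq k
  set z := y ^ coP p F
  have hz : ∀ τ : F ≃ₐ[ℚ] F, actCl τ z ^ p ^ pLvl p F = 1 := fun τ => by
    rw [← map_pow, ← pow_mul, mul_comm, pow_mul_coP, classNumber, pow_card_eq_one, map_one]
  have hZ : l.projCls k y = ∏ σ, actCl σ z ^ e σ :=
    Finset.prod_congr rfl fun σ _ => by rw [he, pow_mul, ← map_pow]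
  rw [hZ]
  refine ⟨by
    rw [← Finset.prod_pow]
    exact Finset.prod_eq_one fun σ _ => by rw [pow_right_comm, hz, one_pow], fun τ hτ => ?_⟩
  rw [map_prod, ← Finset.prod_pow]
  refine Fintype.prod_equiv (Equiv.mulLeft τ) _ _ fun σ => ?_
  rw [Equiv.coe_mulLeft, map_pow, ← MulAut.mul_apply, ← map_mul, ← pow_mul]
  by_cases hσ : σ ^ (p - 1) = 1
  · refine pow_eq_pow_of_modEq ((ZMod.natCast_eq_natCast_iff _ _ _).1 ?_) (hz (τ * σ))
    have hτσ : (τ * σ) ^ (p - 1) = 1 := by
      rw [(show Commute τ σ from l.comm τ σ).mul_pow, hτ, hσ, one_mul]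
    have h1 := he' _ hσ
    have h2 := he' _ hτσ
    rw [← map_natCast (PadicInt.toZModPow (p := p) k)] at h1 h2
    have h1' := toZModPow_eq_of_le hk h1
    have h2' := toZModPow_eq_of_le hk h2
    rw [map_natCast] at h1' h2'
    rw [Nat.cast_mul, h1', h2', ← l.toZModPow_aug_chi hτ, ← map_mul]
    congr 1
    rw [projVal, projVal, mul_assoc]
    congr 1
    rw [← map_mul, ← map_mul l.chi]
    congr 2
    rw [mul_inv_rev, inv_mul_cancel_right]
  · have h0 : ∀ ρ : F ≃ₐ[ℚ] F, ρ ^ (p - 1) ≠ 1 → actCl (τ * σ) z ^ e ρ = 1 := fun ρ hρ => by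
      refine orderOf_dvd_iff_pow_eq_one.1 ?_
      have h := he ρ
      rw [projExp, if_neg hρ] at h
      rw [(mul_eq_zero.1 h.symm).resolve_left fun hc =>
        not_dvd_coP (p := p) (F := F) (by simp [hc])]
      exact dvd_zero _
    rw [h0 σ hσ, pow_mul, h0 (τ * σ) (by rwa [(show Commute τ σ from l.comm τ σ).mul_pow, hτ,
      one_mul]), one_pow]

end Lvl

end FA.GaussTower
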