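import Fermat.Agent.GaussTower.Capitulation
import Fermat.Agent.GaussTower.Rank

/-!
# One step of the tower beyond `λ`

* `Lvl.exists_X_pow_smul`: `X ^ λ` is a multiple of `p` on a level `m ≥ λ`;
* `Lvl.tN_step_eq_zero_iff`: from `λ` on the kernel of a step of the norm is exactly what `p` kills;
* `Lvl.exists_gen`: a level `m ≥ λ` has `λ` generators over `ℤ_p`, and lifts of generators generate
  the next one (`surjective_linA_of_tN`).
-/

set_option autoImplicit false
set_option linter.unusedSectionVars false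
set_option linter.style.haveILetI false

noncomputable section

open NumberField Polynomial Matrix
open scoped Classical

namespace FA.GaussTower

open FA.IwasawaMinus (omega sys Dominant)
open FA.IwasawaControl (pLvl)
open LRing

variable {p : ℕ} [hp : Fact p.Prime] {b : Brn p}

/-- Splitting off the coefficients below `λ`. -/
theorem exists_split (F : ℤ_[p][X]) (lam : ℕ) (hF : ∀ j < lam, (p : ℤ_[p]) ∣ F.coeff j) :
    ∃ G H : ℤ_[p][X], F = X ^ lam * G + (p : ℤ_[p][X]) * H ∧ G.coeff 0 = F.coeff lam := by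
  induction lam generalizing F with
  | zero => exact ⟨F, 0, by simp, rfl⟩
  | succ k ih =>
    obtain ⟨G, H, hGH, hG0⟩ := ih F.divX fun j hj => by
      rw [coeff_divX]
      exact hF _ (by omega)
    obtain ⟨c, hc⟩ := hF 0 k.succ_pos
    refine ⟨G, X * H + C c, ?_, by rw [hG0, coeff_divX]⟩
    conv_lhs => rw [← F.X_mul_divX_add, hGH, hc, map_mul, map_natCast]
    ring

namespace Lvl

variable {n : ℕ} {L : Type} [Field L] [NumberField L] [IsCyclotomicExtension {p ^ (n + 1)} ℚ L]
variable (l : Lvl b n L) {lam : ℕ}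

/-- The determinant kills. -/
theorem det_smul {t : ℕ} {C : Fin (t + 1) → l.A}
    {M : Matrix (Fin (t + 1)) (Fin (t + 1)) (LRing p n)} (hM : IsRel C M) (a : l.A) :
    M.det • a = 0 := by
  obtain ⟨f, rfl⟩ := hM.gen a
  have h : (M.det • f) = (f ᵥ* M.adjugate) ᵥ* M := by
    rw [vecMul_vecMul, adjugate_mul, vecMul_smul, vecMul_one]
  rw [Finset.smul_sum, ← hM.rel_vecMul (f ᵥ* M.adjugate), ← h]
  exact Finset.sum_congr rfl fun j _ => (mul_smul _ _ _).symm

/-- The branch kills. -/
theorem sys_smul (a : l.A) : cls p n (sys b.hg b.u n) • a = 0 := by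
  obtain ⟨t, C, M, hM⟩ := l.exists_rel
  obtain ⟨w, hw⟩ := l.associated_det_sys hM
  rw [← hw, mul_comm, mul_smul, l.det_smul hM, smul_zero]

/-- `X ^ λ` is divisible by `p` on the level. -/
theorem exists_X_pow_smul (hD : Dominant (sys b.hg b.u) 0 lam) (hn : lam ≤ n) :
    ∃ s : LRing p n, ∀ a : l.A,
      cls p n X ^ lam • a = ((p : LRing p n) * s) • a := by
  obtain ⟨G, H, hGH, hG0⟩ := exists_split (sys b.hg b.u n) lam fun j hj => by
    simpa using hD.below n j hn hj
  have hu : IsUnit (cls p n G) := isUnit_iff.2 (by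
    rw [aug_cls, hG0, PadicInt.isUnit_iff]
    refine le_antisymm (PadicInt.norm_le_one _) (not_lt.1 fun h => ?_)
    rw [PadicInt.norm_lt_one_iff_dvd] at h
    exact (hD.main n hn).2 (by rwa [zero_add, pow_one]))
  obtain ⟨v, hv⟩ := hu.exists_left_inv
  refine ⟨-(v * cls p n H), fun a => ?_⟩
  have h0 := l.sys_smul a
  rw [hGH, map_add, map_mul, map_mul, map_pow, map_natCast] at h0
  have h1 := congrArg (v • ·) h0
  rw [smul_zero, add_smul, smul_add, ← mul_smul, ← mul_smul] at h1
  rw [show v * (cls p n X ^ lam * cls p n G) = cls p n X ^ lam * (v * cls p n G) by ring, hv,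
    mul_one, add_eq_zero_iff_eq_neg, ← neg_smul] at h1
  rw [h1]
  congr 1
  ring

/-- `ω_k` is divisible by `p` on the level. -/
theorem exists_omega_smul (hD : Dominant (sys b.hg b.u) 0 lam) (hn : lam ≤ n) {k : ℕ}
    (hk : lam ≤ p ^ k) :
    ∃ s : LRing p n, ∀ a : l.A, cls p n (omega k) • a = ((p : LRing p n) * s) • a := by
  obtain ⟨c, hc⟩ := FA.IwasawaControl.natCast_dvd_omega_sub (p := p) k
  obtain ⟨s, hs⟩ := l.exists_X_pow_smul hD hn
  refine ⟨cls p n X ^ (p ^ k - lam) * s + cls p n c, fun a => ?_⟩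
  rw [eq_add_of_sub_eq hc, map_add, map_mul, map_natCast, map_pow, mul_add, add_smul, add_smul,
    add_comm]
  congr 1
  conv_lhs => rw [← Nat.sub_add_cancel hk, pow_add, mul_smul, hs, ← mul_smul]
  congr 1
  ring

/-- Combinations with coefficients in `ℤ_p`. -/
def linA {ι : Type*} [Fintype ι] (g : ι → l.A) : (ι → ℤ_[p]) →+ l.A where
  toFun v := ∑ j, cls p n (C (v j)) • g j
  map_zero' := Finset.sum_eq_zero fun j _ => by
    rw [Pi.zero_apply, map_zero, map_zero]
    exact zero_smul (LRing p n) (g j)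
  map_add' v w := by
    rw [← Finset.sum_add_distrib]
    exact Finset.sum_congr rfl fun j _ => by
      rw [Pi.add_apply, map_add, map_add]
      exact add_smul _ _ (g j)

theorem linA_apply {ι : Type*} [Fintype ι] (g : ι → l.A) (v : ι → ℤ_[p]) :
    l.linA g v = ∑ j, cls p n (C (v j)) • g j := rfl

/-- Scalars in `ℤ_p`. -/
theorem linA_smul {ι : Type*} [Fintype ι] (g : ι → l.A) (z : ℤ_[p]) (v : ι → ℤ_[p]) :
    l.linA g (z • v) = cls p n (C z) • l.linA g v := by
  rw [linA_apply, linA_apply, Finset.smul_sum]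
  exact Finset.sum_congr rfl fun j _ => by
    rw [Pi.smul_apply, smul_eq_mul, map_mul, map_mul, mul_smul]

/-- Generators modulo `p` generate. -/
theorem surjective_linA {ι : Type*} [Fintype ι] (g : ι → l.A)
    (h : ∀ a, ∃ v c, a = l.linA g v + (p : LRing p n) • c) : Function.Surjective (l.linA g) := by
  have key : ∀ e : ℕ, ∀ a, ∃ v c, a = l.linA g v + (p : LRing p n) ^ e • c := fun e => by
    induction e with
    | zero => exact fun a => ⟨0, a, by rw [pow_zero, one_smul, map_zero, zero_add]⟩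
    | succ e ih =>
      intro a
      obtain ⟨v, c, rfl⟩ := ih a
      obtain ⟨w, d, rfl⟩ := h c
      refine ⟨v + (p : ℤ_[p]) ^ e • w, d, ?_⟩
      rw [map_add, linA_smul, map_pow, map_pow, map_natCast, map_natCast, smul_add, ← mul_smul,
        pow_succ, add_assoc]
  intro a
  obtain ⟨v, c, hvc⟩ := key (pLvl p L) a
  exact ⟨v, by rw [hvc, l.natCast_pow_smul, add_zero]⟩

/-- **Generators.** -/
theorem exists_gen (hD : Dominant (sys b.hg b.u) 0 lam) (hn : lam < p ^ n) :
    ∃ g : Fin lam → l.A, Function.Surjective (l.linA g) := by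
  set S : AddSubgroup l.A := (nsmulAddMonoidHom p : l.A →+ l.A).range
  have hS : ∀ x : l.A ⧸ S, p • x = 0 := fun x => by
    induction x using QuotientAddGroup.induction_on with
    | _ a => exact (QuotientAddGroup.eq_zero_iff _).2 ⟨a, rfl⟩
  haveI : Module (ZMod p) (l.A ⧸ S) := AddCommGroup.zmodModule hS
  have hcard : Nat.card (l.A ⧸ S) = p ^ lam := l.natCard_quotient_nsmul hD hn
  haveI : Finite (l.A ⧸ S) := inferInstance
  haveI : Module.Finite (ZMod p) (l.A ⧸ S) := Module.Finite.of_finite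
  have hrank : Module.finrank (ZMod p) (l.A ⧸ S) = lam := by
    haveI : Fintype (l.A ⧸ S) := Fintype.ofFinite _
    rw [Nat.card_eq_fintype_card, Module.card_eq_pow_finrank (K := ZMod p) (V := l.A ⧸ S),
      ZMod.card] at hcard
    exact Nat.pow_right_injective hp.out.two_le hcard
  let bs := Module.finBasisOfFinrankEq (ZMod p) (l.A ⧸ S) hrank
  choose g hg using fun j => QuotientAddGroup.mk'_surjective S (bs j)
  refine ⟨g, l.surjective_linA g fun a => ?_⟩
  set w : Fin lam → ℤ_[p] := fun j => ((bs.repr (QuotientAddGroup.mk' S a) j).val : ℤ_[p])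
  have h1 : QuotientAddGroup.mk' S (l.linA g w) = QuotientAddGroup.mk' S a := by
    conv_rhs => rw [← bs.sum_repr (QuotientAddGroup.mk' S a)]
    rw [linA_apply, map_sum]
    refine Finset.sum_congr rfl fun j _ => ?_
    rw [map_natCast, map_natCast, Nat.cast_smul_eq_nsmul, map_nsmul, hg,
      ← Nat.cast_smul_eq_nsmul (ZMod p), ZMod.natCast_zmod_val]
  obtain ⟨c, hc⟩ := (QuotientAddGroup.eq_iff_sub_mem).1 h1.symm
  refine ⟨w, c, ?_⟩
  rw [Nat.cast_smul_eq_nsmul]
  exact eq_add_of_sub_eq' hc.symm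

section step

variable {K : Type} [Field K] [NumberField K] [IsCyclotomicExtension {p ^ (n + 1 + 1)} ℚ K]
  [Algebra L K] (l' : Lvl b (n + 1) K)

/-- The norm of a step is `p` times a unit. -/
theorem exists_nuH_step (hD : Dominant (sys b.hg b.u) 0 lam) (hn : lam ≤ n) :
    ∃ r : LRing p (n + 1), IsUnit r ∧ ∀ a : l'.A,
      nuH p n (n + 1) • a = ((p : LRing p (n + 1)) * r) • a := by
  obtain ⟨s, hs⟩ := l'.exists_omega_smul hD (hn.trans n.le_succ)
    (hn.trans (Nat.lt_pow_self hp.out.one_lt).le)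
  set w := cls p (n + 1) (omega n)
  set q := (p : LRing p (n + 1)) * s
  have hnu : nuH p n (n + 1) = ∑ j ∈ Finset.range p, (1 + w) ^ j := by
    rw [nuH, nuPol, Nat.add_sub_cancel_left, pow_one, map_sum]
    refine Finset.sum_congr rfl fun j _ => ?_
    rw [pow_mul, map_pow, show (1 + w) = cls p (n + 1) (1 + omega n) by rw [map_add, map_one]]
    congr 2
    rw [omega]
    ring
  have hcongr : ∀ (j : ℕ) (a : l'.A), (1 + w) ^ j • a = (1 + q) ^ j • a := fun j a => by
    obtain ⟨d, hd⟩ := (Commute.all (1 + w) (1 + q)).sub_dvd_pow_sub_pow j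
    rw [← sub_eq_zero, ← sub_smul, hd, show 1 + w - (1 + q) = w - q by ring, mul_comm, mul_smul,
      sub_smul, hs, sub_self, smul_zero]
  obtain ⟨T, hT⟩ : ∃ T, ∑ j ∈ Finset.range p, (1 + q) ^ j =
      (p : LRing p (n + 1)) + q * ∑ j ∈ Finset.range p, (j : LRing p (n + 1)) + q ^ 2 * T := by
    have h : ∀ j : ℕ, ∃ d, (1 + q) ^ j = 1 + q * j + q ^ 2 * d := fun j => by
      induction j with
      | zero => exact ⟨0, by simp⟩
      | succ j ih =>
        obtain ⟨d, hd⟩ := ih
        exact ⟨j + d + q * d, by rw [pow_succ, hd]; push_cast; ring⟩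
    choose d hd using h
    refine ⟨∑ j ∈ Finset.range p, d j, ?_⟩
    rw [Finset.sum_congr rfl fun j _ => hd j, Finset.sum_add_distrib, Finset.sum_add_distrib,
      ← Finset.mul_sum, ← Finset.mul_sum, Finset.sum_const, Finset.card_range, nsmul_one]
  obtain ⟨k, hk⟩ : p ∣ ∑ j ∈ Finset.range p, j := by
    obtain ⟨c, hc⟩ := ((hp.out.odd_of_ne_two b.ne_two).tsub_odd odd_one).two_dvd
    rw [Finset.sum_range_id, hc, show p * (2 * c) = p * c * 2 by ring,
      Nat.mul_div_cancel _ two_pos]
    exact dvd_mul_right _ _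
  refine ⟨1 + (p : LRing p (n + 1)) * (s * k + s ^ 2 * T), isUnit_iff.2 ?_, fun a => ?_⟩
  · rw [map_add, map_one, map_mul, map_natCast, PadicInt.isUnit_iff,
      IsUltrametricDist.norm_add_eq_max_of_norm_ne_norm ?_, norm_one, max_eq_left ?_]
    · exact (PadicInt.norm_lt_one_iff_dvd _ |>.2 (dvd_mul_right _ _)).le
    · rw [norm_one]
      exact ((PadicInt.norm_lt_one_iff_dvd _).2 (dvd_mul_right _ _)).ne'
  · rw [hnu, Finset.sum_smul, Finset.sum_congr rfl fun j _ => hcongr j a, ← Finset.sum_smul, hT,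
      ← Nat.cast_sum, hk]
    congr 1
    simp only [q]
    push_cast
    ring

/-- **The kernel of a step is what `p` kills.** -/
theorem tN_step_eq_zero_iff (hD : Dominant (sys b.hg b.u) 0 lam) (hn : lam ≤ n) (x : l'.A) :
    l.tN l' n.le_succ x = 0 ↔ p • x = 0 := by
  obtain ⟨r, hr, hnu⟩ := l'.exists_nuH_step hD hn
  rw [← map_eq_zero_iff _ (l.phi_injective_levels l' n.le_succ), phi_tN, hnu, mul_comm, mul_smul,
    hr.smul_eq_zero, Nat.cast_smul_eq_nsmul]

/-- **Lifts of generators generate.** -/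
theorem surjective_linA_of_tN (hD : Dominant (sys b.hg b.u) 0 lam) (hn : lam ≤ n) {ι : Type*}
    [Fintype ι] (g : ι → l'.A)
    (hg : Function.Surjective (l.linA fun j => l.tN l' n.le_succ (g j))) :
    Function.Surjective (l'.linA g) := by
  refine l'.surjective_linA g fun a => ?_
  obtain ⟨v, hv⟩ := hg (l.tN l' n.le_succ a)
  have h0 : l.tN l' n.le_succ (a - l'.linA g v) = 0 := by
    rw [map_sub, sub_eq_zero, ← hv, linA_apply, linA_apply, map_sum]
    exact Finset.sum_congr rfl fun j _ => (l.tN_cls_smul l' n.le_succ _ _).symm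
  obtain ⟨y, hy⟩ := (l.tN_eq_zero_iff l' n.le_succ _).1 h0
  obtain ⟨s, hs⟩ := l'.exists_omega_smul hD (hn.trans n.le_succ)
    (hn.trans (Nat.lt_pow_self hp.out.one_lt).le)
  exact ⟨v, s • y, by rw [← mul_smul, ← hs, ← hy, add_sub_cancel]⟩

end step

end Lvl

end FA.GaussTower
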